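import Mathlib
import Fermat.Agent.MUL.Lib.HP.Sep
import Fermat.Agent.MUL.S36.Cover.InvOrbit
import Fermat.Agent.MUL.R38.P.Final
import Fermat.Agent.MUL.Lib.HP.Gal
import Fermat.Agent.MUL.S36.Cover.InvFun
import Fermat.Agent.MUL.S36.G.Step12D0
import Fermat.Agent.MUL.S36.G.VtxFamily
import Fermat.Agent.MUL.S36.Igusa.Pack
import Fermat.Agent.MUL.S36.Val.Restr
import Fermat.Agent.MUL.Lib.BadRed.Graph.Setup
import Fermat.Agent.MUL.Lib.HP.YEnds
import Fermat.Agent.MUL.Lib.HP.SepE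
import Fermat.Agent.MUL.Lib.HP.OfAdjoin
import Fermat.Agent.MUL.Orig.F3.Galois.NormDesc
import Fermat.Agent.MUL.S36.HPVal.Defs
import Fermat.Agent.MUL.S36.HPVal.Inert
import Fermat.Agent.MUL.Lib.BadRed.Nodal.Gluing.Data
import Fermat.Agent.MUL.Lib.BadRed.Nodal.RedSpace2
import Fermat.Agent.MUL.Lib.BadRed.Bridge.NormAt
import Fermat.Agent.MUL.Lib.RR.OfModularCFinal
import Fermat.Agent.MUL.Lib.GaussInt.ModularInst
import Fermat.Agent.MUL.Orig.Lib.GaussInt.FrobFormal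
import Fermat.Agent.MUL.S36.G.Defs
import Fermat.Agent.MUL.S36.HPVal.InertFinal
import Fermat.Agent.MUL.S36.Norm.HorSqueeze
import Fermat.Agent.MUL.S36.G.AuxNu
import Fermat.Agent.MUL.S36.Seed.Ends
import Fermat.Agent.MUL.S36.G.CoreBundleOf
import Fermat.Agent.MUL.S36.G.EndsDictYmod
import Fermat.Agent.MUL.S36.G.CoreBundleAux
import Fermat.Agent.MUL.S36.G.CocEnds
import Fermat.Agent.MUL.S36.G.CocycleF3ActPack
import Fermat.Agent.MUL.S36.Seed.YModDeg
import Fermat.Agent.MUL.S36.Igusa.Final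
import Fermat.Agent.MUL.Lib.BadRed.PeuD.NodeLoc
import Fermat.Agent.MUL.S36.Reg.RegInt
import Fermat.Agent.MUL.R38.D.SpJD
import Fermat.Agent.MUL.S36.HPVal.RegNoPole
import Fermat.Agent.MUL.S36.HPVal.Reg
import Fermat.Agent.MUL.S36.HPVal.KCtRat
import Fermat.Agent.MUL.S36.Seed.UHorDefs
import Fermat.Agent.MUL.S36.HPVal.KCtPole
import Fermat.Agent.MUL.Lib.BadRed.Bridge.LevelCast
import Fermat.Agent.MUL.S36.Seed.UHorAsm
import Fermat.Agent.MUL.S36.Seed.UHorRootMod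
import Fermat.Agent.MUL.S36.Seed.SSFrob
import Fermat.Agent.MUL.S36.HPVal.ValFamily
import Fermat.Agent.MUL.S36.Seed.UHorDatum
import Fermat.Agent.MUL.S36.G.ModularGraphEnds
import Fermat.Agent.MUL.S36.Seed.EndsVertHno
import Fermat.Agent.MUL.S36.Seed.EndsVertMod
import Fermat.Agent.MUL.S36.HPVal.ValAtT
import Fermat.Agent.MUL.S36.G.ModularGraphInst
import Fermat.Agent.MUL.S36.G.ModCore
import Fermat.Agent.MUL.S36.Genus.Family
import Fermat.Agent.MUL.S36.HPVal.DistFinalWire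
import Fermat.Agent.MUL.S36.G.ModWorldNonempty
import Fermat.Agent.MUL.S36.G.CoreBundleLevel

section MergeWrap_Lib_HP_NormOrd -- from Lib/HP/NormOrd.lean

set_option autoImplicit false
set_option linter.unusedSectionVars false
set_option linter.unusedVariables false
set_option linter.style.haveILetI false

/-!
# The curve `H_P`: orders of the norms to `K(X₁)` and `K(X₂)`   (Step 2, link with (N3))

`E = K(x)` a rational function field, `F / E` finite separable with `x ↦ X₁`.  For `f ≠ 0` in `F`: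
* `ord_{x = 0} (N_{F/E} f) = ord_{pZero} f`          (the only place over `X₁ = 0` is `pZero`);
* `ord_{x = ∞} (N_{F/E} f) = ord_{pInf} f + ∑_{v | s = 1} ord_v f`.
Hence if `N_{F/E} f = c · u ^ n` then `n ∣ ord_{pZero} f` and `n ∣ ord_{pInf} f + ∑_mid ord_v f`.
The same with `X₂` (exchange `pInf` and `pZero`).
-/

noncomputable section

open IntermediateField AlgebraicCurve Polynomial

namespace Fermat.Agent.HP

open Fermat.Agent.RR Fermat.Agent.RRHur Fermat.Agent.S24Diff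

variable {K F : Type*} [Field K] [Field F] [Algebra K F] {q : ℕ}

section Rational

variable {E : Type*} [Field E] [Algebra K E]

/-- in `E = K(x)` the function `x` has at most one pole. -/
theorem hp_pole_unique {x : E} (hgen : K⟮x⟯ = ⊤) (v v' : Place K E) (hv : v.ord x < 0)
    (hv' : v'.ord x < 0) : v = v' := by
  by_contra hne
  apply Fermat.Agent.S36Cover.ik_not_le_of_ne hne
  intro y hy
  rcases eq_or_ne y 0 with rfl | hy0
  · exact zero_mem _
  have hmem : y ∈ K⟮x⟯ := by rw [hgen]; exact IntermediateField.mem_top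
  obtain ⟨m, hm⟩ := Fermat.Agent.S36Cover.ik_ord_eq_mul_of_mem_adjoin_pole hmem hy0
  have h1 := hm v hv
  have h2 := hm v' hv'
  have h3 : 0 ≤ v.ord y := Fermat.Agent.S24Res.ord_nonneg_of_mem v hy
  apply Fermat.Agent.S24Res.mem_of_ord_nonneg
  rw [h2]
  rw [h1] at h3
  have hm0 : m ≤ 0 := by
    by_contra hcon
    push Not at hcon
    have : m * v.ord x < 0 := mul_neg_of_pos_of_neg hcon hv
    omega
  exact mul_nonneg_of_nonpos_of_nonpos hm0 hv'.le

/-- in `E = K(x)` the function `x` has at most one zero. -/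
theorem hp_zero_unique {x : E} (hgen : K⟮x⟯ = ⊤) (v v' : Place K E) (hv : 0 < v.ord x)
    (hv' : 0 < v'.ord x) : v = v' := by
  have hgen' : K⟮x⁻¹⟯ = ⊤ := by
    apply top_unique
    rw [← hgen, IntermediateField.adjoin_simple_le_iff]
    have h1 : x⁻¹ ∈ K⟮x⁻¹⟯ := IntermediateField.mem_adjoin_simple_self K _
    simpa using K⟮x⁻¹⟯.inv_mem h1
  exact hp_pole_unique hgen' v v' (by rw [Place.ord_inv]; omega) (by rw [Place.ord_inv]; omega)

end Rational

namespace HPCurve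

variable (H : HPCurve K F q)

section Norm

variable [IsAlgClosed K] (hq1 : ((q + 1 : ℕ) : K) ≠ 0)
variable {E : Type*} [Field E] [Algebra K E] [Algebra E F] [IsScalarTower K E F]
  [FiniteDimensional E F] [Algebra.IsSeparable E F]

include H hq1 in
theorem hasPrincipalDivisors : HasPrincipalDivisors K F :=
  ⟨(H.isRRField hq1).principal⟩

/-- the order of the norm at the zero of `x`. -/
theorem ord_norm_X1_zero {x : E} (hE : IsFunctionFieldOver K E x) (hgen : K⟮x⟯ = ⊤)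
    (hx : algebraMap E F x = H.X1) {f : F} (hf : f ≠ 0) :
    ((H.pZero hq1).restrict E).ord (Algebra.norm E f) = (H.pZero hq1).ord f := by
  classical
  haveI := H.hasPrincipalDivisors hq1
  rw [Fermat.Agent.R38.r38pl_ord_norm_global F ((H.pZero hq1).restrict E) hE f hf]
  have hfib : ((H.pZero hq1).restrict E).fiber F = {H.pZero hq1} := by
    ext w
    rw [Place.mem_fiber, Finset.mem_singleton]
    constructor
    · intro hw
      apply (H.ord_X1_pos_iff hq1 w).mp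
      have h1 := (H.pZero hq1).ord_restrict (F := E) x
      have h2 := w.ord_restrict (F := E) x
      rw [hx] at h1 h2
      rw [H.ord_X1_pZero hq1] at h1
      rw [hw] at h2
      have hq := H.q_two
      have hpos : 0 < ((H.pZero hq1).restrict E).ord x := by
        by_contra hcon
        push Not at hcon
        have : (((H.pZero hq1).ramificationIndex E : ℕ) : ℤ) *
            ((H.pZero hq1).restrict E).ord x ≤ 0 :=
          mul_nonpos_of_nonneg_of_nonpos (Int.natCast_nonneg _) hcon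
        have hq' : (0 : ℤ) < q := by exact_mod_cast (by omega : 0 < q)
        omega
      rw [h2]
      exact mul_pos (by exact_mod_cast w.ramificationIndex_pos (F := E)) hpos
    · intro hw
      rw [hw]
  rw [hfib, Finset.sum_singleton]

/-- the order of the norm at the pole of `x`. -/
theorem ord_norm_X1_pole {x : E} (hE : IsFunctionFieldOver K E x) (hgen : K⟮x⟯ = ⊤)
    (hx : algebraMap E F x = H.X1) {f : F} (hf : f ≠ 0) (T : Finset (Place K F))
    (hT : ∀ v, v ∈ T ↔ 0 < v.ord (H.s - algebraMap K F 1)) :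
    ((H.pInf hq1).restrict E).ord (Algebra.norm E f) =
      (H.pInf hq1).ord f + ∑ v ∈ T, v.ord f := by
  classical
  haveI := H.hasPrincipalDivisors hq1
  rw [Fermat.Agent.R38.r38pl_ord_norm_global F ((H.pInf hq1).restrict E) hE f hf]
  have hneg : ∀ w : Place K F, w.ord H.X1 < 0 → (w.restrict E).ord x < 0 := by
    intro w hw
    have h2 := w.ord_restrict (F := E) x
    rw [hx] at h2
    by_contra hcon
    push Not at hcon
    have : 0 ≤ ((w.ramificationIndex E : ℕ) : ℤ) * (w.restrict E).ord x :=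
      mul_nonneg (Int.natCast_nonneg _) hcon
    omega
  have hInfneg : (H.pInf hq1).ord H.X1 < 0 := by rw [H.ord_X1_pInf hq1]; norm_num
  have hnotmem : H.pInf hq1 ∉ T := by
    intro h
    have h1 := (hT _).mp h
    have h2 := H.ord_s_of_zero_ne _ one_ne_zero h1
    have h3 := H.pInf_spec hq1
    omega
  have hfib : ((H.pInf hq1).restrict E).fiber F = insert (H.pInf hq1) T := by
    ext w
    rw [Place.mem_fiber, Finset.mem_insert, hT]
    constructor
    · intro hw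
      apply (H.ord_X1_neg_iff hq1 w).mp
      have h2 := w.ord_restrict (F := E) x
      rw [hx, hw] at h2
      rw [h2]
      exact mul_neg_of_pos_of_neg (by exact_mod_cast w.ramificationIndex_pos (F := E))
        (hneg _ hInfneg)
    · intro hw
      exact hp_pole_unique hgen _ _ (hneg w ((H.ord_X1_neg_iff hq1 w).mpr hw)) (hneg _ hInfneg)
  rw [hfib, Finset.sum_insert hnotmem]

/-- **(N3) ⟹ orders**: if the norm to `K(X₁)` is a constant times an `n`-th power. -/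
theorem dvd_of_norm_X1 {x : E} (hE : IsFunctionFieldOver K E x) (hgen : K⟮x⟯ = ⊤)
    (hx : algebraMap E F x = H.X1) {f : F} (hf : f ≠ 0) (n : ℕ) (c : K) (u : E)
    (hN : Algebra.norm E f = algebraMap K E c * u ^ n) (T : Finset (Place K F))
    (hT : ∀ v, v ∈ T ↔ 0 < v.ord (H.s - algebraMap K F 1)) :
    (n : ℤ) ∣ (H.pZero hq1).ord f ∧ (n : ℤ) ∣ (H.pInf hq1).ord f + ∑ v ∈ T, v.ord f := by
  have hN0 : Algebra.norm E f ≠ 0 := Algebra.norm_ne_zero_iff.mpr hf
  have hc : algebraMap K E c ≠ 0 := fun h => hN0 (by rw [hN, h, zero_mul])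
  have hu : u ^ n ≠ 0 := fun h => hN0 (by rw [hN, h, mul_zero])
  have key : ∀ v : Place K E, (n : ℤ) ∣ v.ord (Algebra.norm E f) := by
    intro v
    rw [hN, v.ord_mul hc hu, Fermat.Agent.S24Res.ord_algebraMap, zero_add, hp_ord_pow]
    exact Dvd.intro _ rfl
  refine ⟨?_, ?_⟩
  · rw [← H.ord_norm_X1_zero hq1 hE hgen hx hf]
    exact key _
  · rw [← H.ord_norm_X1_pole hq1 hE hgen hx hf T hT]
    exact key _

/-- **(N3') ⟹ orders**: if the norm to `K(X₂)` is a constant times an `n`-th power. -/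
theorem dvd_of_norm_X2 {x : E} (hE : IsFunctionFieldOver K E x) (hgen : K⟮x⟯ = ⊤)
    (hx : algebraMap E F x = H.X2) {f : F} (hf : f ≠ 0) (n : ℕ) (c : K) (u : E)
    (hN : Algebra.norm E f = algebraMap K E c * u ^ n) (T : Finset (Place K F))
    (hT : ∀ v, v ∈ T ↔ 0 < v.ord (H.s - algebraMap K F 1)) :
    (n : ℤ) ∣ (H.pInf hq1).ord f ∧ (n : ℤ) ∣ (H.pZero hq1).ord f + ∑ v ∈ T, v.ord f := by
  have h := (H.swap hq1).dvd_of_norm_X1 hq1 hE hgen hx hf n c u hN T
    (fun v => by rw [H.swap_mid_iff hq1]; exact hT v)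
  rwa [H.swap_pZero hq1, H.swap_pInf hq1] at h

/-- **Step 2, orders at the ends**: from (N3) and (N3'), `n` divides the orders of `f` at
`pInf`, at `pZero`, and the sum of the orders over `s = 1`. -/
theorem dvd_of_norms {E₁ E₂ : Type*} [Field E₁] [Algebra K E₁] [Algebra E₁ F]
    [IsScalarTower K E₁ F] [FiniteDimensional E₁ F] [Algebra.IsSeparable E₁ F]
    [Field E₂] [Algebra K E₂] [Algebra E₂ F]
    [IsScalarTower K E₂ F] [FiniteDimensional E₂ F] [Algebra.IsSeparable E₂ F]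
    {x₁ : E₁} (hE₁ : IsFunctionFieldOver K E₁ x₁) (hgen₁ : K⟮x₁⟯ = ⊤)
    (hx₁ : algebraMap E₁ F x₁ = H.X1)
    {x₂ : E₂} (hE₂ : IsFunctionFieldOver K E₂ x₂) (hgen₂ : K⟮x₂⟯ = ⊤)
    (hx₂ : algebraMap E₂ F x₂ = H.X2)
    {f : F} (hf : f ≠ 0) (n : ℕ) (c₁ c₂ : K) (u₁ : E₁) (u₂ : E₂)
    (hN₁ : Algebra.norm E₁ f = algebraMap K E₁ c₁ * u₁ ^ n)
    (hN₂ : Algebra.norm E₂ f = algebraMap K E₂ c₂ * u₂ ^ n) (T : Finset (Place K F))
    (hT : ∀ v, v ∈ T ↔ 0 < v.ord (H.s - algebraMap K F 1)) :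
    (n : ℤ) ∣ (H.pInf hq1).ord f ∧ (n : ℤ) ∣ (H.pZero hq1).ord f ∧
      (n : ℤ) ∣ ∑ v ∈ T, v.ord f := by
  obtain ⟨a1, a2⟩ := H.dvd_of_norm_X1 hq1 hE₁ hgen₁ hx₁ hf n c₁ u₁ hN₁ T hT
  obtain ⟨b1, b2⟩ := H.dvd_of_norm_X2 hq1 hE₂ hgen₂ hx₂ hf n c₂ u₂ hN₂ T hT
  refine ⟨b1, a1, ?_⟩
  have := (Int.dvd_add_right b1).mp a2
  exact this

end Norm

end HPCurve

end Fermat.Agent.HP
end
end MergeWrap_Lib_HP_NormOrd

section MergeWrap_Lib_HP_Step2 -- from Lib/HP/Step2.lean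

set_option autoImplicit false
set_option linter.unusedSectionVars false
set_option linter.style.haveILetI false

/-!
# Step 2 on the explicit curve `H_P : X1 * X2 * (X1 - X2)^(q-1) = c`

`G = H.galK = Gal(F / K(s))`, `s = X2 / X1`, `|G| = q + 1`.

* `pow_eq_of_inv` : if `σ f = c_σ * u_σ ^ n * f` for all `σ ∈ G`, `n ∣ ord_v f` at all places
  `v` which are neither ends nor lie over `s = 1`, `n ∣ ord_{pInf} f` and `n` divides the sum of
  the orders of `f` over the fibre `s = 1`, then `f ^ (q + 1) = c * u ^ n`.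
* `pow_eq_of_norms` : the same, the last two hypotheses being replaced by: the norms of `f`
  to `K(X1)` and to `K(X2)` are constants times `n`-th powers.
-/

noncomputable section

open AlgebraicCurve IntermediateField Polynomial

namespace Fermat.Agent.HP

open Fermat.Agent.RR Fermat.Agent.GoodRedSmall Fermat.Agent.RRHur Fermat.Agent.S24Diff

variable {K F : Type*} [Field K] [Field F] [Algebra K F] {q : ℕ}

namespace HPCurve

variable (H : HPCurve K F q) [IsAlgClosed K] (hq1 : ((q + 1 : ℕ) : K) ≠ 0)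

include hq1 in
/-- **Step 2 on `H_P`, order form.** -/
theorem pow_eq_of_inv (n : ℕ) {f : F} (hf : f ≠ 0)
    (hinv : ∀ σ ∈ H.galK, ∃ (c : K) (u : F), σ f = algebraMap K F c * u ^ n * f)
    (hoff : ∀ v : Place K F, v.ord H.s = 0 → v.ord (H.s - algebraMap K F 1) = 0 →
      (n : ℤ) ∣ v.ord f)
    (hInf : (n : ℤ) ∣ (H.pInf hq1).ord f)
    (hmid : ∀ T : Finset (Place K F), (∀ v, v ∈ T ↔ 0 < v.ord (H.s - algebraMap K F 1)) →
      (n : ℤ) ∣ ∑ v ∈ T, v.ord f) :
    ∃ (c : K) (u : F), c ≠ 0 ∧ u ≠ 0 ∧ f ^ (q + 1) = algebraMap K F c * u ^ n := by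
  classical
  haveI := H.finite_galK hq1
  letI : Fintype H.galK := Fintype.ofFinite _
  have hcard : Fintype.card H.galK = q + 1 := by
    rw [← Nat.card_eq_fintype_card]
    exact H.card_galK hq1
  have key := Fermat.Agent.S36Cover.ik_pow_card_eq H.galK (H.isRRField hq1) H.s_transcendental
    (fun σ hσ => hσ) (fun y hy => (H.mem_iff_fixed_galK hq1 y).mpr hy) n hf hinv ?_
  · rw [hcard] at key
    exact key
  · intro a T hT
    by_cases ha0 : a = 0
    · subst ha0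
      have hTeq : T = {H.pInf hq1} := by
        ext v
        rw [hT, map_zero, sub_zero, Finset.mem_singleton]
        exact H.ord_s_pos_iff hq1 v
      rw [hTeq, Finset.sum_singleton]
      exact hInf
    by_cases ha1 : a = 1
    · subst ha1
      exact hmid T hT
    · refine Finset.dvd_sum fun v hv => ?_
      have hv' := (hT v).mp hv
      refine hoff v (H.ord_s_of_zero_ne v ha0 hv') ?_
      exact ord_sub_const_eq_zero v (c := a) (c' := 1) ha1 hv'

include hq1 in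
/-- **Step 2 on `H_P`, norm form.**  `E₁ = K(x₁)`, `E₂ = K(x₂)` are the two rational subfields
(`x₁ ↦ X1`, `x₂ ↦ X2`), `F / Eᵢ` separable. -/
theorem pow_eq_of_norms {E₁ E₂ : Type*} [Field E₁] [Algebra K E₁] [Algebra E₁ F]
    [IsScalarTower K E₁ F] [FiniteDimensional E₁ F] [Algebra.IsSeparable E₁ F]
    [Field E₂] [Algebra K E₂] [Algebra E₂ F]
    [IsScalarTower K E₂ F] [FiniteDimensional E₂ F] [Algebra.IsSeparable E₂ F]
    {x₁ : E₁} (hE₁ : IsFunctionFieldOver K E₁ x₁) (hgen₁ : K⟮x₁⟯ = ⊤)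
    (hx₁ : algebraMap E₁ F x₁ = H.X1)
    {x₂ : E₂} (hE₂ : IsFunctionFieldOver K E₂ x₂) (hgen₂ : K⟮x₂⟯ = ⊤)
    (hx₂ : algebraMap E₂ F x₂ = H.X2)
    (n : ℕ) {f : F} (hf : f ≠ 0)
    (hinv : ∀ σ ∈ H.galK, ∃ (c : K) (u : F), σ f = algebraMap K F c * u ^ n * f)
    (hoff : ∀ v : Place K F, v.ord H.s = 0 → v.ord (H.s - algebraMap K F 1) = 0 →
      (n : ℤ) ∣ v.ord f)
    (c₁ c₂ : K) (u₁ : E₁) (u₂ : E₂)
    (hN₁ : Algebra.norm E₁ f = algebraMap K E₁ c₁ * u₁ ^ n)
    (hN₂ : Algebra.norm E₂ f = algebraMap K E₂ c₂ * u₂ ^ n) :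
    ∃ (c : K) (u : F), c ≠ 0 ∧ u ≠ 0 ∧ f ^ (q + 1) = algebraMap K F c * u ^ n := by
  refine H.pow_eq_of_inv hq1 n hf hinv hoff ?_ ?_
  · -- any finset representing the fibre over `s = 1` will do: take the one from `hmid`
    classical
    have hx : Transcendental K (H.s - algebraMap K F 1)⁻¹ := by
      intro halg
      apply H.s_transcendental
      have h1 : IsAlgebraic K (H.s - algebraMap K F 1) := by
        have := halg.inv
        rwa [inv_inv] at this
      have h2 := h1.add (isAlgebraic_algebraMap (A := F) (1 : K))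
      rwa [sub_add_cancel] at h2
    set T : Finset (Place K F) :=
      (poleDiv (H.isRRField hq1) (H.s - algebraMap K F 1)⁻¹).support with hTdef
    have hT : ∀ v, v ∈ T ↔ 0 < v.ord (H.s - algebraMap K F 1) := by
      intro v
      rw [hTdef, Finsupp.mem_support_iff, poleDiv_apply, v.ord_inv, neg_neg]
      constructor
      · intro hv
        by_contra hcon
        exact hv (max_eq_right (by omega))
      · intro hv
        rw [max_eq_left hv.le]
        omega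
    exact (H.dvd_of_norms hq1 hE₁ hgen₁ hx₁ hE₂ hgen₂ hx₂ hf n c₁ c₂ u₁ u₂ hN₁ hN₂ T hT).1
  · intro T hT
    exact (H.dvd_of_norms hq1 hE₁ hgen₁ hx₁ hE₂ hgen₂ hx₂ hf n c₁ c₂ u₁ u₂ hN₁ hN₂ T hT).2.2

end HPCurve

end Fermat.Agent.HP
end
end MergeWrap_Lib_HP_Step2

section MergeWrap_S36_G_Step12Pack -- from S36/G/Step12Pack.lean

set_option autoImplicit false
set_option linter.style.haveILetI false
set_option linter.unusedSectionVars false
set_option linter.unusedVariables false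
set_option synthInstance.maxHeartbeats 400000
set_option maxHeartbeats 1000000

/-!
# Cluster G (S36), Steps 1 + 2 for the family of the modular graph  (helper60)

The constant reductions of the modular graph are `vtxFamily S_∞ S_0 S_m S_P`
(`S36/G/VtxFamily.lean`) with `S_∞` a Gauss reduction, `S_0 = valSetupZeroAt D₀ hM₀ S_∞`
(`S36/Val/Restr.lean`), `S_m` the Igusa pair (`IgPack`, `S36/Igusa/Pack.lean`) and `S_P = w_P`.

* `step12_of_family` : `hStep12` of `coreFunAt_of_graph` / `CoreBundle` for a `GraphSetup N` whose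
  components have the rings of the family (`SameRing`), at the auxiliary level
  (`nuTwo M₀ = 0`, `nuThree M₀ = 0`), from the conclusion `hhor` of Step 2 (for the ONE `D₀`);
* `step12_of_pack`   : the same for `N.S = vtxFamily ..` (by `rfl` for the seed of MG-INST).
-/

noncomputable section

namespace Fermat.Agent.S36G

open ModularCurve AlgebraicCurve Fermat.Agent.F3 Fermat.Agent.F3G Fermat.Agent.GaussInt
  Fermat.Agent.AtkinLehner Fermat.Agent.Kronecker Fermat.Agent.BadRed Fermat.Agent.BadRedG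
  Fermat.Agent.Deuring

local notation "Qb" => AlgebraicClosure ℚ

attribute [local instance 10000] SubalgebraClass.toAlgebra HahnSeries.powerSeriesAlgebra

variable {M₀ q : ℕ} [NeZero M₀] [NeZero q] {SS : Type}

/-- **Steps 1 + 2 for the family of the modular graph** (rings of the components given by
`SameRing`). -/
theorem step12_of_family (hq : q.Prime) (hqM : ¬ q ∣ M₀) (hν2 : nuTwo M₀ = 0)
    (hν3 : nuThree M₀ = 0) (A : ValuationSubring Qb) (hA : A.LiesOverPrime q)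
    {Fk : Vtx (Fin (midCard q)) SS → Type*} [∀ c, Field (Fk c)]
    [∀ c, Algebra (IsLocalRing.ResidueField A) (Fk c)]
    (N : GraphSetup Qb (FBar (M₀ * q * q)) (IsLocalRing.ResidueField A)
      (Vtx (Fin (midCard q)) SS) Fk (Nod (Fin (midCard q)) SS)) (n : ℕ)
    (Soo : ValSetup Qb (FBar (M₀ * q * q)) (IsLocalRing.ResidueField A)
      (modularFunctionFieldFullC (IsLocalRing.ResidueField A) M₀))
    (hSoo : IsGaussSetup (M₀ * q * q) M₀ A Soo)
    (D₀ : ALData) (hM₀ : M₀ * q * q = D₀.Q * D₀.R) (hD₀ : D₀.Q = q ^ 2)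
    (I : IgPack M₀ q A)
    (hoo : SameRing Soo (N.S (Vtx.vert Vrt.oo)))
    (h0 : SameRing (valSetupZeroAt D₀ hM₀ Soo) (N.S (Vtx.vert Vrt.zero)))
    (hmid : ∀ m, SameRing (I.S m) (N.S (Vtx.vert (Vrt.mid m))))
    (hhor : ∀ g : FBar (M₀ * q * q), g ≠ 0 →
        (∀ v : Place Qb (FBar (M₀ * q * q)), (n : ℤ) ∣ v.ord g) →
        InertiaFixedFun (M₀ * q * q) A n g →
        IsCPow n (normAlong (heckeAlphaBar Qb (M₀ * q) q) g) →
        IsCPow n (normAlong (heckeAlphaBar Qb (M₀ * q) q) (wAt D₀ hM₀ g)) →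
        ∀ P : SS, N.IsPowAt n (Vtx.hor P) (g ^ (q + 1))) :
    ∀ (D : ALData) (hM : M₀ * q * q = D.Q * D.R), D.Q = q ^ 2 →
      ∀ g : FBar (M₀ * q * q), g ≠ 0 →
        (∀ v : Place Qb (FBar (M₀ * q * q)), (n : ℤ) ∣ v.ord g) →
        InertiaFixedFun (M₀ * q * q) A n g →
        IsCPow n (normAlong (heckeAlphaBar Qb (M₀ * q) q) g) →
        IsCPow n (normAlong (heckeAlphaBar Qb (M₀ * q) q) (wAt D hM g)) →
        ∀ c, N.IsPowAt n c (g ^ ((q - 1) * (q + 1))) :=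
  step12_modular_one hq hqM A hA (igResUpper_aux M₀ q hν2 hν3) N n D₀ hM₀ hD₀
    ⟨Soo, hSoo, hoo⟩ ⟨Soo, hSoo, h0⟩
    (fun m => ⟨I.z m, I.ε m, I.S m, I.prim m, I.isMidExp m, I.isMidSetup m, hmid m⟩) hhor

/-- **Steps 1 + 2 for the modular graph**: `N.S = vtxFamily S_∞ (valSetupZeroAt D₀ hM₀ S_∞) I.S S_P`. -/
theorem step12_of_pack (hq : q.Prime) (hqM : ¬ q ∣ M₀) (hν2 : nuTwo M₀ = 0)
    (hν3 : nuThree M₀ = 0) (A : ValuationSubring Qb) (hA : A.LiesOverPrime q)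
    {FkP : SS → Type} [∀ P, Field (FkP P)] [∀ P, Algebra (IsLocalRing.ResidueField A) (FkP P)]
    (N : GraphSetup Qb (FBar (M₀ * q * q)) (IsLocalRing.ResidueField A)
      (Vtx (Fin (midCard q)) SS)
      (FkOf (modularFunctionFieldFullC (IsLocalRing.ResidueField A) M₀)
        (fun _ : Fin (midCard q) => ↥(igField (IsLocalRing.ResidueField A) M₀)) FkP)
      (Nod (Fin (midCard q)) SS)) (n : ℕ)
    (Soo : ValSetup Qb (FBar (M₀ * q * q)) (IsLocalRing.ResidueField A)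
      (modularFunctionFieldFullC (IsLocalRing.ResidueField A) M₀))
    (hSoo : IsGaussSetup (M₀ * q * q) M₀ A Soo)
    (D₀ : ALData) (hM₀ : M₀ * q * q = D₀.Q * D₀.R) (hD₀ : D₀.Q = q ^ 2)
    (I : IgPack M₀ q A)
    (SP : ∀ P, ValSetup Qb (FBar (M₀ * q * q)) (IsLocalRing.ResidueField A) (FkP P))
    (hN : N.S = vtxFamily Soo (valSetupZeroAt D₀ hM₀ Soo) I.S SP)
    (hhor : ∀ g : FBar (M₀ * q * q), g ≠ 0 →
        (∀ v : Place Qb (FBar (M₀ * q * q)), (n : ℤ) ∣ v.ord g) →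
        InertiaFixedFun (M₀ * q * q) A n g →
        IsCPow n (normAlong (heckeAlphaBar Qb (M₀ * q) q) g) →
        IsCPow n (normAlong (heckeAlphaBar Qb (M₀ * q) q) (wAt D₀ hM₀ g)) →
        ∀ P : SS, N.IsPowAt n (Vtx.hor P) (g ^ (q + 1))) :
    ∀ (D : ALData) (hM : M₀ * q * q = D.Q * D.R), D.Q = q ^ 2 →
      ∀ g : FBar (M₀ * q * q), g ≠ 0 →
        (∀ v : Place Qb (FBar (M₀ * q * q)), (n : ℤ) ∣ v.ord g) →
        InertiaFixedFun (M₀ * q * q) A n g →
        IsCPow n (normAlong (heckeAlphaBar Qb (M₀ * q) q) g) →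
        IsCPow n (normAlong (heckeAlphaBar Qb (M₀ * q) q) (wAt D hM g)) →
        ∀ c, N.IsPowAt n c (g ^ ((q - 1) * (q + 1))) := by
  refine step12_of_family hq hqM hν2 hν3 A hA N n Soo hSoo D₀ hM₀ hD₀ I ?_ ?_ ?_ hhor
  · rw [hN]
    exact SameRing.refl _
  · rw [hN]
    exact SameRing.refl _
  · intro m
    rw [hN]
    exact SameRing.refl _

end Fermat.Agent.S36G
end
end MergeWrap_S36_G_Step12Pack

section MergeWrap_S36_G_Step2Hor -- from S36/G/Step2Hor.lean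

set_option autoImplicit false
set_option linter.unusedSectionVars false
set_option linter.unusedVariables false
set_option linter.style.haveILetI false

/-!
# Cluster G (S36), Step 2 (horizontal), abstract wiring  (helper48)

`N : GraphSetup K F k κ Fk ι`, `c : κ` a component whose residue field `Fk c` is the function field
of the curve `H_P` (`H : HPCurve k (Fk c) q`), such that all the branch points of `N` on `c` are
ENDS of `H_P`.  For a Kummer generator `g = a f` (`n ∣ div g`, `f` a unit of `O_c`) with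

* (inv)  `σ (red f) = b_σ v_σ ^ n red f` for all `σ ∈ Gal(k(H_P)/k(s))`  (inertia; `wpi_inv_galK`),
* (N3), (N3')  the norms of `red f` to `k(X₁)`, `k(X₂)` are constants times `n`-th powers,

`g ^ (q + 1)` is, up to a constant, an `n`-th power on `c`: `N.IsPowAt n c (g ^ (q + 1))`.
-/

noncomputable section

open AlgebraicCurve IntermediateField Fermat.Agent.RR Fermat.Agent.Deuring

namespace Fermat.Agent.S36G

open Fermat.Agent.BadRed Fermat.Agent.BadRedG Fermat.Agent.HP Fermat.Agent.S24Diff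

/-- divisibility passes to push-forwards of divisors. -/
theorem s2h_dvd_mapDomain {α β : Type*} (r : α → β) (D : α →₀ ℤ) (n : ℤ) (h : ∀ a, n ∣ D a)
    (b : β) : n ∣ Finsupp.mapDomain r D b := by
  classical
  rw [Finsupp.mapDomain, Finsupp.sum_apply]
  refine Finset.dvd_sum fun a _ => ?_
  show n ∣ (Finsupp.single (r a) (D a)) b
  rw [Finsupp.single_apply]
  split_ifs
  · exact h a
  · exact dvd_zero n

variable {K F k : Type*} [Field K] [Field F] [Algebra K F] [Field k]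
  {κ : Type*} {Fk : κ → Type*} [∀ c, Field (Fk c)] [∀ c, Algebra k (Fk c)] {ι : Type*}

/-- (off): `n` divides the orders of `red f` at the smooth points of the component `c`. -/
theorem s2h_dvd_ord_red (N : GraphSetup K F k κ Fk ι) (c : κ) (n : ℕ) {f : F} (hf0 : f ≠ 0)
    (hf : f ∈ (N.S c).Ov) (hf' : f⁻¹ ∈ (N.S c).Ov)
    (hdvd : ∀ P : Place K F, (n : ℤ) ∣ P.ord f) (Q : Place k (Fk c))
    (h₁ : ∀ i, (⟨c, Q⟩ : Σ c, Place k (Fk c)) ≠ ⟨N.src i, N.s₁ i⟩)
    (h₂ : ∀ i, (⟨c, Q⟩ : Σ c, Place k (Fk c)) ≠ ⟨N.tgt i, N.s₂ i⟩) :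
    (n : ℤ) ∣ Q.ord ((N.S c).red f) := by
  rw [← N.push c f hf hf' hf0 Q h₁ h₂]
  refine s2h_dvd_mapDomain _ _ _ (fun P => ?_) _
  rw [divOf_apply]
  exact hdvd P

/-- from `(red f)^m = c' u^n` to `IsPowAt n c (g^m)`, `g = a f`. -/
theorem s2h_isPowAt_of_pow (N : GraphSetup K F k κ Fk ι) (c : κ) (n m : ℕ) {g f : F} {a : K}
    (ha : a ≠ 0) (hf0 : f ≠ 0) (hf : f ∈ (N.S c).Ov) (hf' : f⁻¹ ∈ (N.S c).Ov)
    (hgf : g = algebraMap K F a * f) {c' : k} {u : Fk c} (hc' : c' ≠ 0) (hu : u ≠ 0)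
    (hpow : (N.S c).red f ^ m = algebraMap k (Fk c) c' * u ^ n) :
    N.IsPowAt n c (g ^ m) := by
  obtain ⟨⟨z, hz⟩, hzc⟩ := (N.S c).res_surj c'
  have hz0 : z ≠ 0 := by
    rintro rfl
    apply hc'
    rw [← hzc]
    exact map_zero _
  -- `z⁻¹ ∈ A`
  have hzinv : z⁻¹ ∈ (N.S c).A := by
    have h1 : algebraMap K F z ∈ (N.S c).Ov := (N.S c).algebraMap_mem hz
    have h2 : (N.S c).red (algebraMap K F z) ≠ 0 := by
      rw [(N.S c).red_algebraMap hz, hzc]
      rwa [Ne, map_eq_zero_iff _ (algebraMap k (Fk c)).injective]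
    have h3 := (N.S c).inv_mem_of_red_ne_zero h2
    rw [← map_inv₀] at h3
    exact ((N.S c).mem_Ov_iff _).mp h3
  refine ⟨a ^ m * z, mul_ne_zero (pow_ne_zero m ha) hz0, u, hu, ?_⟩
  have hAz : algebraMap K F z ≠ 0 := by
    rwa [Ne, map_eq_zero_iff _ (algebraMap K F).injective]
  have hAa : algebraMap K F a ≠ 0 := by
    rwa [Ne, map_eq_zero_iff _ (algebraMap K F).injective]
  have h1 : g ^ m / algebraMap K F (a ^ m * z) = f ^ m * algebraMap K F z⁻¹ := by
    rw [hgf, map_mul, map_pow, mul_pow, map_inv₀]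
    field_simp
  rw [h1, (N.S c).red_mul (pow_mem hf m) ((N.S c).algebraMap_mem hzinv), (N.S c).red_pow hf,
    hpow, map_inv₀, (N.S c).red_inv ((N.S c).algebraMap_mem hz)
      (by rw [← map_inv₀]; exact (N.S c).algebraMap_mem hzinv) hAz,
    (N.S c).red_algebraMap hz, hzc]
  have hcF : algebraMap k (Fk c) c' ≠ 0 := by
    rwa [Ne, map_eq_zero_iff _ (algebraMap k (Fk c)).injective]
  field_simp

/-- **Step 2 (horizontal), abstract wiring.** -/
theorem isPowAt_hor (N : GraphSetup K F k κ Fk ι) (c : κ) {q : ℕ} (H : HPCurve k (Fk c) q)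
    [IsAlgClosed k] (hq1 : ((q + 1 : ℕ) : k) ≠ 0)
    (hsm₁ : ∀ (Q : Place k (Fk c)) (i : ι),
      (⟨c, Q⟩ : Σ c, Place k (Fk c)) = ⟨N.src i, N.s₁ i⟩ → H.IsEnd Q)
    (hsm₂ : ∀ (Q : Place k (Fk c)) (i : ι),
      (⟨c, Q⟩ : Σ c, Place k (Fk c)) = ⟨N.tgt i, N.s₂ i⟩ → H.IsEnd Q)
    {E₁ E₂ : Type*} [Field E₁] [Algebra k E₁] [Algebra E₁ (Fk c)]
    [IsScalarTower k E₁ (Fk c)] [FiniteDimensional E₁ (Fk c)] [Algebra.IsSeparable E₁ (Fk c)]
    [Field E₂] [Algebra k E₂] [Algebra E₂ (Fk c)]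
    [IsScalarTower k E₂ (Fk c)] [FiniteDimensional E₂ (Fk c)] [Algebra.IsSeparable E₂ (Fk c)]
    {x₁ : E₁} (hE₁ : IsFunctionFieldOver k E₁ x₁) (hgen₁ : k⟮x₁⟯ = ⊤)
    (hx₁ : algebraMap E₁ (Fk c) x₁ = H.X1)
    {x₂ : E₂} (hE₂ : IsFunctionFieldOver k E₂ x₂) (hgen₂ : k⟮x₂⟯ = ⊤)
    (hx₂ : algebraMap E₂ (Fk c) x₂ = H.X2)
    (n : ℕ) {g : F} (hg : g ≠ 0) (hdvd : ∀ P : Place K F, (n : ℤ) ∣ P.ord g)
    {f : F} {a : K} (ha : a ≠ 0) (hf : f ∈ (N.S c).Ov) (hf' : f⁻¹ ∈ (N.S c).Ov)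
    (hgf : g = algebraMap K F a * f)
    (hinv : ∀ σ ∈ H.galK, ∃ (b : k) (v : Fk c),
      σ ((N.S c).red f) = algebraMap k (Fk c) b * v ^ n * (N.S c).red f)
    (c₁ c₂ : k) (u₁ : E₁) (u₂ : E₂)
    (hN₁ : Algebra.norm E₁ ((N.S c).red f) = algebraMap k E₁ c₁ * u₁ ^ n)
    (hN₂ : Algebra.norm E₂ ((N.S c).red f) = algebraMap k E₂ c₂ * u₂ ^ n) :
    N.IsPowAt n c (g ^ (q + 1)) := by
  have hAa : algebraMap K F a ≠ 0 := by
    rwa [Ne, map_eq_zero_iff _ (algebraMap K F).injective]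
  have hf0 : f ≠ 0 := by
    rintro rfl
    apply hg
    rw [hgf, mul_zero]
  have hdvd' : ∀ P : Place K F, (n : ℤ) ∣ P.ord f := by
    intro P
    have h1 := hdvd P
    rw [hgf, P.ord_mul hAa hf0, Fermat.Agent.S24Res.ord_algebraMap, zero_add] at h1
    exact h1
  have hred0 : (N.S c).red f ≠ 0 := (N.S c).red_ne_zero hf hf' hf0
  have hoff : ∀ v : Place k (Fk c), v.ord H.s = 0 → v.ord (H.s - algebraMap k (Fk c) 1) = 0 →
      (n : ℤ) ∣ v.ord ((N.S c).red f) := by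
    intro v hv0 hv1
    have hnot : ¬ H.IsEnd v := by
      rw [H.isEnd_iff hq1]
      rintro (h | h | h)
      · have := H.ord_s_pInf hq1
        rw [← h, hv0] at this
        omega
      · have := H.ord_s_pZero hq1
        rw [← h, hv0] at this
        omega
      · omega
    exact s2h_dvd_ord_red N c n hf0 hf hf' hdvd' v
      (fun i h => hnot (hsm₁ v i h)) (fun i h => hnot (hsm₂ v i h))
  obtain ⟨c', u, hc', hu, hpow⟩ := H.pow_eq_of_norms hq1 hE₁ hgen₁ hx₁ hE₂ hgen₂ hx₂ n hred0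
    hinv hoff c₁ c₂ u₁ u₂ hN₁ hN₂
  exact s2h_isPowAt_of_pow N c n (q + 1) ha hf0 hf hf' hgf hc' hu hpow

end Fermat.Agent.S36G
end
end MergeWrap_S36_G_Step2Hor

section MergeWrap_S36_G_Step2HorE -- from S36/G/Step2HorE.lean

set_option autoImplicit false
set_option linter.unusedSectionVars false
set_option linter.unusedVariables false
set_option linter.style.haveILetI false

/-!
# Cluster G (S36), Step 2 (horizontal), abstract wiring in characteristic `q`  (helper48)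

`isPowAt_hor_char` = `isPowAt_hor` without instance hypotheses on the two rational subfields:
`E₁ = k(x₁)`, `E₂ = k(x₂)` abstract copies of `k(X₁)`, `k(X₂)` (`hgen`, `hx`), `char k = q`.
-/

noncomputable section

open AlgebraicCurve IntermediateField Fermat.Agent.RR Fermat.Agent.Deuring

namespace Fermat.Agent.S36G

open Fermat.Agent.BadRed Fermat.Agent.BadRedG Fermat.Agent.HP Fermat.Agent.S24Diff

variable {K F k : Type*} [Field K] [Field F] [Algebra K F] [Field k]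
  {κ : Type*} {Fk : κ → Type*} [∀ c, Field (Fk c)] [∀ c, Algebra k (Fk c)] {ι : Type*}

/-- **Step 2 (horizontal), abstract wiring, characteristic `q`.** -/
theorem isPowAt_hor_char (N : GraphSetup K F k κ Fk ι) (c : κ) {q : ℕ} (H : HPCurve k (Fk c) q)
    [IsAlgClosed k] (hq0 : ((q : ℕ) : k) = 0)
    (hsm₁ : ∀ (Q : Place k (Fk c)) (i : ι),
      (⟨c, Q⟩ : Σ c, Place k (Fk c)) = ⟨N.src i, N.s₁ i⟩ → H.IsEnd Q)
    (hsm₂ : ∀ (Q : Place k (Fk c)) (i : ι),
      (⟨c, Q⟩ : Σ c, Place k (Fk c)) = ⟨N.tgt i, N.s₂ i⟩ → H.IsEnd Q)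
    {E₁ E₂ : Type*} [Field E₁] [Algebra k E₁] [Algebra E₁ (Fk c)]
    [IsScalarTower k E₁ (Fk c)] [Field E₂] [Algebra k E₂] [Algebra E₂ (Fk c)]
    [IsScalarTower k E₂ (Fk c)]
    {x₁ : E₁} (hgen₁ : k⟮x₁⟯ = ⊤) (hx₁ : algebraMap E₁ (Fk c) x₁ = H.X1)
    {x₂ : E₂} (hgen₂ : k⟮x₂⟯ = ⊤) (hx₂ : algebraMap E₂ (Fk c) x₂ = H.X2)
    (n : ℕ) {g : F} (hg : g ≠ 0) (hdvd : ∀ P : Place K F, (n : ℤ) ∣ P.ord g)
    {f : F} {a : K} (ha : a ≠ 0) (hf : f ∈ (N.S c).Ov) (hf' : f⁻¹ ∈ (N.S c).Ov)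
    (hgf : g = algebraMap K F a * f)
    (hinv : ∀ σ ∈ H.galK, ∃ (b : k) (v : Fk c),
      σ ((N.S c).red f) = algebraMap k (Fk c) b * v ^ n * (N.S c).red f)
    (c₁ c₂ : k) (u₁ : E₁) (u₂ : E₂)
    (hN₁ : Algebra.norm E₁ ((N.S c).red f) = algebraMap k E₁ c₁ * u₁ ^ n)
    (hN₂ : Algebra.norm E₂ ((N.S c).red f) = algebraMap k E₂ c₂ * u₂ ^ n) :
    N.IsPowAt n c (g ^ (q + 1)) := by
  have hq1 : ((q + 1 : ℕ) : k) ≠ 0 := hp_succ_ne_zero hq0
  haveI := H.finiteDimensional_of_gen_X1 hgen₁ hx₁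
  haveI := H.isSeparable_of_gen_X1 hgen₁ hx₁ hq0
  haveI := H.finiteDimensional_of_gen_X2 hq1 hgen₂ hx₂
  haveI := H.isSeparable_of_gen_X2 hq1 hgen₂ hx₂ hq0
  exact isPowAt_hor N c H hq1 hsm₁ hsm₂ (H.isFunctionFieldOver_of_gen_X1 hgen₁ hx₁) hgen₁ hx₁
    (H.isFunctionFieldOver_of_gen_X2 hq1 hgen₂ hx₂) hgen₂ hx₂ n hg hdvd ha hf hf' hgf hinv
    c₁ c₂ u₁ u₂ hN₁ hN₂

end Fermat.Agent.S36G
end
end MergeWrap_S36_G_Step2HorE

section MergeWrap_S36_G_Step2Final -- from S36/G/Step2Final.lean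

set_option autoImplicit false
set_option linter.unusedSectionVars false
set_option linter.unusedVariables false
set_option linter.style.haveILetI false

/-!
# Cluster G (S36), Step 2 (horizontal): the FINAL abstract theorem  (helper48)

`step2_final`: `N.IsPowAt n c (g ^ (q + 1))` on a horizontal component `c` (residue field the
function field of `H_P`), from

* (ENDS)  the branches of `N` on `c` are ends of `H_P`;
* (R1), (N3)  the restriction of `O_c` to `ψ(F₁)` has residue field inside `E₁ = k(X₁)` and the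
  norm formula `red (ψ (N_ψ t)) = N_{Fk/E₁} (red t)` (`NORM-HOR`, `normRed_tower`);
* (SWAP)  an automorphism `w` of `F / K` stabilising `O_c`, inducing `σw` with `σw X₂ = X₁`
  (the Atkin-Lehner involution `w_{q²}`);
* (inv)   the invariance of the residue class under `Gal(k(H_P)/k(s))` (`wpi_inv_galK`);
* `N_ψ g` and `N_ψ (w g)` are constants times `n`-th powers (hypotheses of `CoreFunAt`).

No second circle valuation is needed: (N3') follows from (N3) and (SWAP).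
-/

noncomputable section

open AlgebraicCurve IntermediateField Fermat.Agent.RR Fermat.Agent.Deuring

namespace Fermat.Agent.S36G

open Fermat.Agent.BadRed Fermat.Agent.BadRedG Fermat.Agent.HP Fermat.Agent.S24Diff
  Fermat.Agent.F3G

section Abs

variable {K F k Fk : Type*} [Field K] [Field F] [Algebra K F] [Field k] [Field Fk]
  [Algebra k Fk]

/-- a unit of the form `a uⁿ` reduces to a constant times the `n`-th power of the reduction of
a rescaling of `u`. -/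
theorem s2f_red_const_pow (S : ValSetup K F k Fk) {n : ℕ} {a : K} {u x : F} (hu : u ≠ 0)
    (hx : x = algebraMap K F a * u ^ n) (hred : S.red x ≠ 0) :
    ∃ d : K, d ≠ 0 ∧ ∃ b : k, b ≠ 0 ∧ u / algebraMap K F d ∈ S.Ov ∧
      S.red x = algebraMap k Fk b * S.red (u / algebraMap K F d) ^ n := by
  obtain ⟨d, hd, h1, h2⟩ := S.scale u hu
  have hdF : algebraMap K F d ≠ 0 := by
    rwa [Ne, map_eq_zero_iff _ (algebraMap K F).injective]
  rw [← div_eq_mul_inv] at h1 h2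
  set u' := u / algebraMap K F d with hu'
  have hu'0 : u' ≠ 0 := div_ne_zero hu hdF
  have hxO : x ∈ S.Ov := S.mem_of_red_ne_zero hred
  have hxO' : x⁻¹ ∈ S.Ov := S.inv_mem_of_red_ne_zero hred
  have hx0 : x ≠ 0 := S.ne_zero_of_red_ne_zero hred
  have hx' : x = algebraMap K F (a * d ^ n) * u' ^ n := by
    rw [hx, hu', map_mul, map_pow, div_pow]
    field_simp
  have hconst : algebraMap K F (a * d ^ n) = x * (u'⁻¹) ^ n := by
    rw [hx', inv_pow]
    field_simp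
  have hcO : algebraMap K F (a * d ^ n) ∈ S.Ov := by
    rw [hconst]
    exact mul_mem hxO (pow_mem h2 n)
  have hcA : a * d ^ n ∈ S.A := (S.mem_Ov_iff _).mp hcO
  refine ⟨d, hd, S.res ⟨a * d ^ n, hcA⟩, ?_, h1, ?_⟩
  · intro h0
    apply hred
    rw [hx', S.red_mul hcO (pow_mem h1 n), S.red_algebraMap hcA, h0, map_zero, zero_mul]
  · rw [hx', S.red_mul hcO (pow_mem h1 n), S.red_algebraMap hcA, S.red_pow h1]

variable {F₁ : Type*} [Field F₁] [Algebra K F₁]

/-- the norm of a constant. -/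
theorem s2f_normAlong_const (ψ : F₁ →ₐ[K] F) (a : K) :
    ∃ m : ℕ, normAlong ψ (algebraMap K F a) = algebraMap K F₁ (a ^ m) := by
  letI := algebraAlong ψ
  haveI := isScalarTower_along ψ
  refine ⟨Module.finrank F₁ F, ?_⟩
  show Algebra.norm F₁ (algebraMap K F a) = _
  rw [IsScalarTower.algebraMap_apply K F₁ F, Algebra.norm_algebraMap, map_pow]

/-- **(N3) ⟹ the norm of the reduction is a constant times an `n`-th power.** -/
theorem s2f_norm (S : ValSetup K F k Fk) (ψ : F₁ →ₐ[K] F)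
    {E₁ : Type*} [Field E₁] [Algebra k E₁] [Algebra E₁ Fk] [IsScalarTower k E₁ Fk]
    [FiniteDimensional E₁ Fk]
    (hres : ∀ y : F₁, ψ y ∈ S.Ov → ∃ z : E₁, S.red (ψ y) = algebraMap E₁ Fk z)
    (hnorm : ∀ t : F, t ∈ S.Ov → t⁻¹ ∈ S.Ov →
      S.red (ψ (normAlong ψ t)) = algebraMap E₁ Fk (Algebra.norm E₁ (S.red t)))
    (n : ℕ) (hn : n ≠ 0) {g f : F} {a₀ : K} (ha₀ : a₀ ≠ 0) (hf0 : f ≠ 0) (hf : f ∈ S.Ov)
    (hf' : f⁻¹ ∈ S.Ov) (hgf : g = algebraMap K F a₀ * f)
    (h1 : ∃ (u : F₁) (a : K), a ≠ 0 ∧ normAlong ψ g = algebraMap K F₁ a * u ^ n) :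
    ∃ (c₁ : k) (u₁ : E₁), Algebra.norm E₁ (S.red f) = algebraMap k E₁ c₁ * u₁ ^ n := by
  obtain ⟨u, a, ha, hN⟩ := h1
  obtain ⟨m, hm⟩ := s2f_normAlong_const ψ a₀
  have hredf : S.red f ≠ 0 := S.red_ne_zero hf hf' hf0
  have hnormne : Algebra.norm E₁ (S.red f) ≠ 0 := Algebra.norm_ne_zero_iff.mpr hredf
  have hNf : normAlong ψ f = algebraMap K F₁ (a / a₀ ^ m) * u ^ n := by
    have h2 : normAlong ψ g = algebraMap K F₁ (a₀ ^ m) * normAlong ψ f := by
      rw [hgf, map_mul, hm]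
    rw [hN] at h2
    have h3 : algebraMap K F₁ (a₀ ^ m) ≠ 0 := by
      rw [Ne, map_eq_zero_iff _ (algebraMap K F₁).injective]
      exact pow_ne_zero m ha₀
    rw [map_div₀]
    field_simp
    linear_combination -h2
  have hx : ψ (normAlong ψ f) = algebraMap K F (a / a₀ ^ m) * (ψ u) ^ n := by
    rw [hNf, map_mul, map_pow, AlgHom.commutes]
  have hred : S.red (ψ (normAlong ψ f)) ≠ 0 := by
    rw [hnorm f hf hf']
    rwa [Ne, map_eq_zero_iff _ (algebraMap E₁ Fk).injective]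
  have hψu : ψ u ≠ 0 := by
    intro h0
    apply S.ne_zero_of_red_ne_zero hred
    rw [hx, h0, zero_pow hn, mul_zero]
  obtain ⟨d, hd, b, hb, hmem, hval⟩ := s2f_red_const_pow S hψu hx hred
  have hdiv : ψ u / algebraMap K F d = ψ (u / algebraMap K F₁ d) := by
    rw [map_div₀, AlgHom.commutes]
  rw [hdiv] at hmem hval
  obtain ⟨z, hz⟩ := hres _ hmem
  refine ⟨b, z, ?_⟩
  apply (algebraMap E₁ Fk).injective
  rw [← hnorm f hf hf', hval, hz, map_mul, map_pow, ← IsScalarTower.algebraMap_apply]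

end Abs

section Swap

variable {k Fk : Type*} [Field k] [Field Fk] [Algebra k Fk] {q : ℕ}

/-- the isomorphism `k(X₂) ≅ E₁ = k(X₁)` induced by an automorphism `σw` with `σw X₂ = X₁`. -/
def s2fSwapEquiv (H : HPCurve k Fk q) (σw : Fk ≃ₐ[k] Fk) (hσw : σw H.X2 = H.X1)
    {E₁ : Type*} [Field E₁] [Algebra k E₁] [Algebra E₁ Fk] [IsScalarTower k E₁ Fk]
    {x₁ : E₁} (hgen₁ : k⟮x₁⟯ = ⊤) (hx₁ : algebraMap E₁ Fk x₁ = H.X1) :
    ↥(k⟮H.X2⟯) ≃ₐ[k] E₁ :=
  ((IntermediateField.intermediateFieldMap σw k⟮H.X2⟯).trans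
    (IntermediateField.equivOfEq (by
      rw [IntermediateField.adjoin_map, Set.image_singleton]
      show k⟮σw H.X2⟯ = k⟮algebraMap E₁ Fk x₁⟯
      rw [hσw, hx₁]))).trans (hpGenEquiv (F := Fk) hgen₁).symm

theorem s2fSwapEquiv_comp (H : HPCurve k Fk q) (σw : Fk ≃ₐ[k] Fk) (hσw : σw H.X2 = H.X1)
    {E₁ : Type*} [Field E₁] [Algebra k E₁] [Algebra E₁ Fk] [IsScalarTower k E₁ Fk]
    {x₁ : E₁} (hgen₁ : k⟮x₁⟯ = ⊤) (hx₁ : algebraMap E₁ Fk x₁ = H.X1) (e : ↥(k⟮H.X2⟯)) :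
    algebraMap E₁ Fk (s2fSwapEquiv H σw hσw hgen₁ hx₁ e) = σw (e : Fk) := by
  unfold s2fSwapEquiv
  rw [AlgEquiv.trans_apply, ← hpGenEquiv_apply (F := Fk) hgen₁, AlgEquiv.apply_symm_apply]
  rfl

/-- **(N3') from (N3) and (SWAP).** -/
theorem s2f_norm_swap (H : HPCurve k Fk q) (σw : Fk ≃ₐ[k] Fk) (hσw : σw H.X2 = H.X1)
    {E₁ : Type*} [Field E₁] [Algebra k E₁] [Algebra E₁ Fk] [IsScalarTower k E₁ Fk]
    {x₁ : E₁} (hgen₁ : k⟮x₁⟯ = ⊤) (hx₁ : algebraMap E₁ Fk x₁ = H.X1) (n : ℕ) (y : Fk)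
    (h : ∃ (c₁ : k) (u₁ : E₁), Algebra.norm E₁ (σw y) = algebraMap k E₁ c₁ * u₁ ^ n) :
    ∃ (c₂ : k) (u₂ : ↥(k⟮H.X2⟯)),
      Algebra.norm ↥(k⟮H.X2⟯) y = algebraMap k ↥(k⟮H.X2⟯) c₂ * u₂ ^ n := by
  obtain ⟨c₁, u₁, hc⟩ := h
  set e₁ := s2fSwapEquiv H σw hσw hgen₁ hx₁ with he₁
  have hcomp : RingHom.comp (algebraMap E₁ Fk) (e₁.toRingEquiv : ↥(k⟮H.X2⟯) →+* E₁) =
      RingHom.comp (σw.toRingEquiv : Fk →+* Fk) (algebraMap ↥(k⟮H.X2⟯) Fk) := by
    ext e
    exact s2fSwapEquiv_comp H σw hσw hgen₁ hx₁ e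
  have h1 := Algebra.norm_eq_of_equiv_equiv e₁.toRingEquiv σw.toRingEquiv hcomp y
  refine ⟨c₁, e₁.symm u₁, ?_⟩
  rw [h1]
  show e₁.symm (Algebra.norm E₁ (σw y)) = _
  rw [hc, map_mul, map_pow, AlgEquiv.commutes]

end Swap

section Final

variable {K F k : Type*} [Field K] [Field F] [Algebra K F] [Field k]
  {κ : Type*} {Fk : κ → Type*} [∀ c, Field (Fk c)] [∀ c, Algebra k (Fk c)] {ι : Type*}
  {F₁ : Type*} [Field F₁] [Algebra K F₁]

/-- **Step 2 (horizontal), final abstract theorem.** -/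
theorem step2_final (N : GraphSetup K F k κ Fk ι) (c : κ) {q : ℕ} (H : HPCurve k (Fk c) q)
    [IsAlgClosed k] (hq0 : ((q : ℕ) : k) = 0)
    (hsm₁ : ∀ (Q : Place k (Fk c)) (i : ι),
      (⟨c, Q⟩ : Σ c, Place k (Fk c)) = ⟨N.src i, N.s₁ i⟩ → H.IsEnd Q)
    (hsm₂ : ∀ (Q : Place k (Fk c)) (i : ι),
      (⟨c, Q⟩ : Σ c, Place k (Fk c)) = ⟨N.tgt i, N.s₂ i⟩ → H.IsEnd Q)
    (ψ : F₁ →ₐ[K] F)
    {E₁ : Type*} [Field E₁] [Algebra k E₁] [Algebra E₁ (Fk c)] [IsScalarTower k E₁ (Fk c)]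
    {x₁ : E₁} (hgen₁ : k⟮x₁⟯ = ⊤) (hx₁ : algebraMap E₁ (Fk c) x₁ = H.X1)
    (hres : ∀ y : F₁, ψ y ∈ (N.S c).Ov → ∃ z : E₁, (N.S c).red (ψ y) = algebraMap E₁ (Fk c) z)
    (hnorm : ∀ t : F, t ∈ (N.S c).Ov → t⁻¹ ∈ (N.S c).Ov →
      (N.S c).red (ψ (normAlong ψ t)) = algebraMap E₁ (Fk c) (Algebra.norm E₁ ((N.S c).red t)))
    (w : F ≃ₐ[K] F) (σw : Fk c ≃ₐ[k] Fk c) (hσw : σw H.X2 = H.X1)
    (hw : ∀ f : F, f ∈ (N.S c).Ov → w f ∈ (N.S c).Ov ∧ (N.S c).red (w f) = σw ((N.S c).red f))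
    (n : ℕ) (hn : n ≠ 0) {g : F} (hg : g ≠ 0) (hdvd : ∀ P : Place K F, (n : ℤ) ∣ P.ord g)
    (hinv : ∀ (f : F) (a : K), f ∈ (N.S c).Ov → f⁻¹ ∈ (N.S c).Ov → g = algebraMap K F a * f →
      ∀ σ ∈ H.galK, ∃ (b : k) (v : Fk c),
        σ ((N.S c).red f) = algebraMap k (Fk c) b * v ^ n * (N.S c).red f)
    (h1 : ∃ (u : F₁) (a : K), a ≠ 0 ∧ normAlong ψ g = algebraMap K F₁ a * u ^ n)
    (h2 : ∃ (u : F₁) (a : K), a ≠ 0 ∧ normAlong ψ (w g) = algebraMap K F₁ a * u ^ n) :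
    N.IsPowAt n c (g ^ (q + 1)) := by
  have hq1 : ((q + 1 : ℕ) : k) ≠ 0 := hp_succ_ne_zero hq0
  haveI := H.finiteDimensional_of_gen_X1 hgen₁ hx₁
  -- scale `g`
  obtain ⟨a₀, ha₀, hfO, hfO'⟩ := (N.S c).scale g hg
  have ha₀F : algebraMap K F a₀ ≠ 0 := by
    rwa [Ne, map_eq_zero_iff _ (algebraMap K F).injective]
  rw [← div_eq_mul_inv] at hfO hfO'
  set f := g / algebraMap K F a₀ with hfdef
  have hf0 : f ≠ 0 := div_ne_zero hg ha₀F
  have hgf : g = algebraMap K F a₀ * f := by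
    rw [hfdef]
    field_simp
  -- the first norm
  obtain ⟨c₁, u₁, hN₁⟩ := s2f_norm (N.S c) ψ hres hnorm n hn ha₀ hf0 hfO hfO' hgf h1
  -- the second norm
  have hwf : w f ∈ (N.S c).Ov := (hw f hfO).1
  have hwf' : (w f)⁻¹ ∈ (N.S c).Ov := by
    rw [← map_inv₀]
    exact (hw f⁻¹ hfO').1
  have hwf0 : w f ≠ 0 := (map_ne_zero w.toRingEquiv.toRingHom).mpr hf0
  have hwg : w g = algebraMap K F a₀ * w f := by
    rw [hgf, map_mul, AlgEquiv.commutes]
  obtain ⟨c₂', u₂', hN₂'⟩ := s2f_norm (N.S c) ψ hres hnorm n hn ha₀ hwf0 hwf hwf' hwg h2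
  rw [(hw f hfO).2] at hN₂'
  obtain ⟨c₂, u₂, hN₂⟩ := s2f_norm_swap H σw hσw hgen₁ hx₁ n _ ⟨c₂', u₂', hN₂'⟩
  -- the second rational subfield
  have hgen₂ : k⟮(⟨H.X2, IntermediateField.mem_adjoin_simple_self k H.X2⟩ : ↥(k⟮H.X2⟯))⟯ = ⊤ := by
    apply hp_adjoin_subtype_eq_top
    rw [Set.image_singleton]
  exact isPowAt_hor_char N c H hq0 hsm₁ hsm₂ hgen₁ hx₁ hgen₂ rfl n hg hdvd ha₀ hfO hfO' hgf
    (hinv f a₀ hfO hfO' hgf) c₁ c₂ u₁ u₂ hN₁ hN₂

end Final

end Fermat.Agent.S36G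
end
end MergeWrap_S36_G_Step2Final

section MergeWrap_S36_HPVal_Swap -- from S36/HPVal/Swap.lean

set_option autoImplicit false
set_option linter.style.haveILetI false
set_option linter.unusedSectionVars false
set_option linter.unusedVariables false
set_option synthInstance.maxHeartbeats 400000

noncomputable section
attribute [local instance 10000] SubalgebraClass.toAlgebra HahnSeries.powerSeriesAlgebra

namespace Fermat.Agent.S36G

open ModularCurve AlgebraicCurve IntermediateField Fermat.Agent.F3 Fermat.Agent.F3G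
  Fermat.Agent.GaussInt Fermat.Agent.Deuring Fermat.Agent.BadRed Fermat.Agent.HPVal Fermat.Agent.HP

local notation "Qb" => AlgebraicClosure ℚ

/-- the hypotheses on `w` (true for the Atkin–Lehner involution `w_{q²}`). -/
structure WpswHyp (M₀ q : ℕ) [NeZero M₀] [NeZero q]
    (w : FBar (M₀ * q * q) ≃ₐ[Qb] FBar (M₀ * q * q)) : Prop where
  fix1 : ∀ g : FBar M₀, w (wpdIota1 M₀ q g) = wpdIota1 M₀ q g
  swap0 : ∀ g : FBar M₀, w (wpIota0 M₀ q g) = wpIota2 M₀ q g
  swap2 : ∀ g : FBar M₀, w (wpIota2 M₀ q g) = wpIota0 M₀ q g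

section Abstract

variable {M₀ q : ℕ} [NeZero M₀] [NeZero q] {A : ValuationSubring Qb}
  {S0 : Fermat.Agent.S18Key.RedSetup Qb (FBar M₀) (IsLocalRing.ResidueField A)
    ↥(modularFunctionFieldFullC (IsLocalRing.ResidueField A) M₀)}
  {P : Place (IsLocalRing.ResidueField A)
    ↥(modularFunctionFieldFullC (IsLocalRing.ResidueField A) M₀)}
  {FkP : Type} [Field FkP] [Algebra (IsLocalRing.ResidueField A) FkP]
  (O : WPOut M₀ q A S0 P FkP)

/-- `w` fixes `Y`, swaps `W` and `Zc`. -/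
theorem WpswHyp.map_Y {w : FBar (M₀ * q * q) ≃ₐ[Qb] FBar (M₀ * q * q)} (hw : WpswHyp M₀ q w)
    (t : FBar M₀) (a ϖ : Qb) : w (wpY M₀ q t a ϖ) = wpY M₀ q t a ϖ := by
  rw [wpY, map_div₀, map_sub, hw.fix1, AlgEquiv.commutes, AlgEquiv.commutes]

theorem WpswHyp.map_W {w : FBar (M₀ * q * q) ≃ₐ[Qb] FBar (M₀ * q * q)} (hw : WpswHyp M₀ q w)
    (t : FBar M₀) (a ϖ : Qb) : w (wpW M₀ q t a ϖ) = wpZ M₀ q t a ϖ := by
  rw [wpW, wpZ, map_div₀, map_sub, hw.swap0, AlgEquiv.commutes, AlgEquiv.commutes]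

theorem WpswHyp.map_Z {w : FBar (M₀ * q * q) ≃ₐ[Qb] FBar (M₀ * q * q)} (hw : WpswHyp M₀ q w)
    (t : FBar M₀) (a ϖ : Qb) : w (wpZ M₀ q t a ϖ) = wpW M₀ q t a ϖ := by
  rw [wpW, wpZ, map_div₀, map_sub, hw.swap2, AlgEquiv.commutes, AlgEquiv.commutes]

/-- **`Y` is generic for `O_{w_P}`**: a polynomial in `Y` with coefficients in `A`, one of them a
unit, is a unit of `O_{w_P}` (its reduction is a non-zero polynomial in the transcendental `Ȳ`). -/
theorem wpsw_generic (hY : Transcendental (IsLocalRing.ResidueField A) O.H.Yf) :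
    WPGeneric A O.S.Ov (wpY M₀ q O.t O.a O.ϖ) := by
  intro G hG hGu
  set Y := wpY M₀ q O.t O.a O.ϖ with hYdef
  have hGS : ∀ i, G.coeff i ∈ O.S.A := fun i => by rw [O.A_eq]; exact hG i
  have hpow : ∀ i : ℕ, Y ^ i ∈ O.S.Ov := fun i => pow_mem O.Y_mem i
  have haev : Polynomial.aeval Y G = ∑ i ∈ Finset.range (G.natDegree + 1), G.coeff i • Y ^ i := by
    rw [Polynomial.aeval_eq_sum_range]
  have hmem : Polynomial.aeval Y G ∈ O.S.Ov := by
    rw [haev]
    exact sum_smul_mem_Ov O.S _ _ _ hGS hpow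
  -- the reduced polynomial
  set Gb : Polynomial (IsLocalRing.ResidueField A) :=
    ∑ i ∈ Finset.range (G.natDegree + 1),
      Polynomial.monomial i (O.S.res ⟨G.coeff i, hGS i⟩) with hGb
  have hred : O.S.red (Polynomial.aeval Y G) = Polynomial.aeval O.H.Yf Gb := by
    rw [haev, red_sum_smul O.S _ _ _ hGS hpow, hGb, map_sum]
    refine Finset.sum_congr rfl fun i _ => ?_
    rw [Polynomial.aeval_monomial, O.S.red_pow O.Y_mem, O.red_Y, Algebra.smul_def]
  have hGb0 : Gb ≠ 0 := by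
    obtain ⟨i, hi0, hiu⟩ := hGu
    intro h0
    have hcoef : Gb.coeff i = O.S.res ⟨G.coeff i, hGS i⟩ := by
      rw [hGb, Polynomial.finsetSum_coeff]
      have hi : i ∈ Finset.range (G.natDegree + 1) := by
        rw [Finset.mem_range]
        exact Nat.lt_succ_of_le (Polynomial.le_natDegree_of_ne_zero hi0)
      rw [Finset.sum_eq_single i]
      · rw [Polynomial.coeff_monomial, if_pos rfl]
      · intro j _ hj
        rw [Polynomial.coeff_monomial, if_neg hj]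
      · intro h
        exact absurd hi h
    rw [h0, Polynomial.coeff_zero] at hcoef
    -- the residue of a unit is not zero
    have hiuS : (G.coeff i)⁻¹ ∈ O.S.A := by rw [O.A_eq]; exact hiu
    have h1 : O.S.res ⟨G.coeff i, hGS i⟩ * O.S.res ⟨(G.coeff i)⁻¹, hiuS⟩ = 1 := by
      rw [← map_mul]
      have : (⟨G.coeff i, hGS i⟩ : O.S.A) * ⟨(G.coeff i)⁻¹, hiuS⟩ = 1 :=
        Subtype.ext (mul_inv_cancel₀ hi0)
      rw [this, map_one]
    rw [← hcoef, zero_mul] at h1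
    exact zero_ne_one h1
  have hne : O.S.red (Polynomial.aeval Y G) ≠ 0 := by
    rw [hred]
    exact fun h => hGb0 ((transcendental_iff.mp hY) Gb h)
  exact ⟨hmem, O.S.inv_mem_of_red_ne_zero hne⟩

/-- the transported valuation ring `w⁻¹ (O_{w_P})`. -/
def wpswOv (w : FBar (M₀ * q * q) ≃ₐ[Qb] FBar (M₀ * q * q)) :
    ValuationSubring (FBar (M₀ * q * q)) :=
  O.S.Ov.comap (w : FBar (M₀ * q * q) →+* FBar (M₀ * q * q))

theorem mem_wpswOv (w : FBar (M₀ * q * q) ≃ₐ[Qb] FBar (M₀ * q * q)) (f : FBar (M₀ * q * q)) :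
    f ∈ wpswOv O w ↔ w f ∈ O.S.Ov := Iff.rfl

/-- **`w` stabilises `O_{w_P}`** (uniqueness export). -/
theorem wpsw_comap_eq (hFk0 : Fermat.Agent.RR.IsRRField (IsLocalRing.ResidueField A)
      ↥(modularFunctionFieldFullC (IsLocalRing.ResidueField A) M₀))
    (hY : Transcendental (IsLocalRing.ResidueField A) O.H.Yf)
    {w : FBar (M₀ * q * q) ≃ₐ[Qb] FBar (M₀ * q * q)} (hw : WpswHyp M₀ q w) :
    wpswOv O w = O.S.Ov := by
  apply O.uniq
  · intro c
    rw [mem_wpswOv, AlgEquiv.commutes, O.S.mem_Ov_iff, O.A_eq]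
  · intro g hg
    have hreg : 0 ≤ O.P'.ord (S0.red g) := ord_red_nonneg_of_mem hg
    refine ⟨?_, ?_⟩
    · obtain ⟨c, hc⟩ := Fermat.Agent.BadRed.Gluing.exists_valAt hFk0 O.P' hreg
      rw [mem_wpswOv, hw.fix1]
      exact (O.old1 g hg c hc).1
    · intro h0
      have h1 := O.old1 g hg 0 h0
      rw [map_zero] at h1
      rw [ValuationSubring.mem_nonunits_iff_or]
      by_cases hz : wpdIota1 M₀ q g = 0
      · exact Or.inl hz
      · refine Or.inr ?_
        rw [mem_wpswOv, map_inv₀, hw.fix1]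
        exact (O.S.red_eq_zero_iff h1.1 hz).mp h1.2
  · intro G hG hGu
    have h := wpsw_generic O hY G hG hGu
    have hfix : w (Polynomial.aeval (wpY M₀ q O.t O.a O.ϖ) G) =
        Polynomial.aeval (wpY M₀ q O.t O.a O.ϖ) G := by
      have h2 := Polynomial.aeval_algHom_apply
        (w : FBar (M₀ * q * q) →ₐ[Qb] FBar (M₀ * q * q)) (wpY M₀ q O.t O.a O.ϖ) G
      have h3 : (w : FBar (M₀ * q * q) →ₐ[Qb] FBar (M₀ * q * q)) (wpY M₀ q O.t O.a O.ϖ) =
          wpY M₀ q O.t O.a O.ϖ := hw.map_Y O.t O.a O.ϖ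
      rw [h3] at h2
      exact h2.symm
    refine ⟨?_, ?_⟩
    · rw [mem_wpswOv, hfix]; exact h.1
    · rw [mem_wpswOv, map_inv₀, hfix]; exact h.2

/-- `w`, as a semilinear automorphism, is stable for `w_P`. -/
theorem wpsw_stable (hFk0 : Fermat.Agent.RR.IsRRField (IsLocalRing.ResidueField A)
      ↥(modularFunctionFieldFullC (IsLocalRing.ResidueField A) M₀))
    (hY : Transcendental (IsLocalRing.ResidueField A) O.H.Yf)
    {w : FBar (M₀ * q * q) ≃ₐ[Qb] FBar (M₀ * q * q)} (hw : WpswHyp M₀ q w) :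
    WpiStable O.S (SemilinearAut.ofAlgAut w) := by
  intro f
  have h := wpsw_comap_eq O hFk0 hY hw
  have h1 : f ∈ O.S.Ov ↔ f ∈ wpswOv O w := by rw [h]
  rw [h1, mem_wpswOv]
  rfl

theorem wpsw_inertial (w : FBar (M₀ * q * q) ≃ₐ[Qb] FBar (M₀ * q * q)) :
    WpiInertial O.S (SemilinearAut.ofAlgAut w) := by
  intro a ha
  exact ⟨ha, rfl⟩

/-- **(SWAP)**: `w` induces a `k`-automorphism `σ` of the residue field `k(H_P)` with
`red (w f) = σ (red f)` on `O_{w_P}`, `σ X₁ = X₂`, `σ X₂ = X₁`, `σ Y = Y`. -/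
theorem wpsw_exists (hFk0 : Fermat.Agent.RR.IsRRField (IsLocalRing.ResidueField A)
      ↥(modularFunctionFieldFullC (IsLocalRing.ResidueField A) M₀))
    (hY : Transcendental (IsLocalRing.ResidueField A) O.H.Yf)
    {w : FBar (M₀ * q * q) ≃ₐ[Qb] FBar (M₀ * q * q)} (hw : WpswHyp M₀ q w) :
    ∃ σ : FkP ≃ₐ[IsLocalRing.ResidueField A] FkP,
      (∀ f ∈ O.S.Ov, w f ∈ O.S.Ov ∧ O.S.red (w f) = σ (O.S.red f)) ∧
      σ O.H.X1 = O.H.X2 ∧ σ O.H.X2 = O.H.X1 ∧ σ O.H.Yf = O.H.Yf := by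
  obtain ⟨σ, hσ⟩ := wpi_exists_resEquiv (wpsw_stable O hFk0 hY hw) (wpsw_inertial O w)
  have hσ' : ∀ f ∈ O.S.Ov, w f ∈ O.S.Ov ∧ O.S.red (w f) = σ (O.S.red f) := fun f hf => hσ f hf
  refine ⟨σ, hσ', ?_, ?_, ?_⟩
  · rw [← O.red_W, ← (hσ' _ O.W_mem).2, hw.map_W, O.red_Z]
  · rw [← O.red_Z, ← (hσ' _ O.Z_mem).2, hw.map_Z, O.red_W]
  · rw [← O.red_Y, ← (hσ' _ O.Y_mem).2, hw.map_Y]

end Abstract

end Fermat.Agent.S36G
end
end MergeWrap_S36_HPVal_Swap

section MergeWrap_S36_HPVal_SwapMod -- from S36/HPVal/SwapMod.lean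

set_option autoImplicit false
set_option linter.style.haveILetI false
set_option linter.unusedSectionVars false

noncomputable section
attribute [local instance 10000] SubalgebraClass.toAlgebra HahnSeries.powerSeriesAlgebra

namespace Fermat.Agent.S36G

open ModularCurve AlgebraicCurve Fermat.Agent.F3 Fermat.Agent.F3G Fermat.Agent.GaussInt
  Fermat.Agent.AtkinLehner Fermat.Agent.Kronecker Fermat.Agent.BadRed Fermat.Agent.HeckeComm

local notation "Qb" => AlgebraicClosure ℚ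

set_option synthInstance.maxHeartbeats 400000

section AL

variable {M₀ q : ℕ} [NeZero M₀] [NeZero q]

/-- **`w_{q²} ∘ ι₀ = ι₂`** on `F_{M₀}`. -/
theorem swapMod_iota0 (D : ALData) (hQ : D.Q = q * q) (hR : D.R = M₀)
    (hM : M₀ * q * q = D.Q * D.R) (x : FBar M₀) :
    wAt D hM (wpIota0 M₀ q x) = wpIota2 M₀ q x := by
  let Φ₁ : FBar M₀ →+* FBar (M₀ * q * q) :=
    ((wAt D hM : FBar (M₀ * q * q) ≃ₐ[Qb] FBar (M₀ * q * q)) :
      FBar (M₀ * q * q) →+* FBar (M₀ * q * q)).comp (wpIota0 M₀ q).toRingHom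
  let Φ₂ : FBar M₀ →+* FBar (M₀ * q * q) := (wpIota2 M₀ q).toRingHom
  have key : Φ₁ = Φ₂ := by
    apply ringHom_ext_FBar
    · intro c
      show wAt D hM (wpIota0 M₀ q (algebraMap Qb _ c)) = wpIota2 M₀ q (algebraMap Qb _ c)
      rw [AlgHom.commutes, AlgEquiv.commutes, AlgHom.commutes]
    · intro d hdne hd
      show wAt D hM (wpIota0 M₀ q (jdBar M₀ d hd)) = wpIota2 M₀ q (jdBar M₀ d hd)
      obtain ⟨f₂, hf₂⟩ := hd
      haveI : NeZero (1 * d) := ⟨by rw [one_mul]; exact NeZero.ne d⟩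
      haveI : NeZero (q * q * d) :=
        ⟨mul_ne_zero (mul_ne_zero (NeZero.ne q) (NeZero.ne q)) (NeZero.ne d)⟩
      haveI : NeZero (q * d) := ⟨mul_ne_zero (NeZero.ne q) (NeZero.ne d)⟩
      apply Subtype.ext
      have h := coe_wAt_of_coe_gen D hM 1 (q * q) d f₂ (by rw [one_mul, hQ]) (by rw [hR, hf₂])
        (wpIota0 M₀ q (jdBar M₀ d ⟨f₂, hf₂⟩))
        (by rw [coe_wpIota0, coe_jdBar]; exact qExpand_congr (one_mul d).symm _)
      rw [h, coe_wpIota2, coe_jdBar, qExpand_qExpand, qExpand_qExpand]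
  exact RingHom.congr_fun key x

/-- **`w_{q²} ∘ ι₂ = ι₀`** on `F_{M₀}`. -/
theorem swapMod_iota2 (D : ALData) (hQ : D.Q = q * q) (hR : D.R = M₀)
    (hM : M₀ * q * q = D.Q * D.R) (x : FBar M₀) :
    wAt D hM (wpIota2 M₀ q x) = wpIota0 M₀ q x := by
  rw [← swapMod_iota0 D hQ hR hM x, wAt_wAt]

/-- **`w_{q²} ∘ ι₁ = ι₁`** on `F_{M₀}`. -/
theorem swapMod_iota1 (D : ALData) (hQ : D.Q = q * q) (hR : D.R = M₀)
    (hM : M₀ * q * q = D.Q * D.R) (x : FBar M₀) :
    wAt D hM (wpdIota1 M₀ q x) = wpdIota1 M₀ q x := by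
  let Φ₁ : FBar M₀ →+* FBar (M₀ * q * q) :=
    ((wAt D hM : FBar (M₀ * q * q) ≃ₐ[Qb] FBar (M₀ * q * q)) :
      FBar (M₀ * q * q) →+* FBar (M₀ * q * q)).comp (wpdIota1 M₀ q).toRingHom
  let Φ₂ : FBar M₀ →+* FBar (M₀ * q * q) := (wpdIota1 M₀ q).toRingHom
  have key : Φ₁ = Φ₂ := by
    apply ringHom_ext_FBar
    · intro c
      show wAt D hM (wpdIota1 M₀ q (algebraMap Qb _ c)) = wpdIota1 M₀ q (algebraMap Qb _ c)
      rw [AlgHom.commutes, AlgEquiv.commutes]
    · intro d hdne hd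
      show wAt D hM (wpdIota1 M₀ q (jdBar M₀ d hd)) = wpdIota1 M₀ q (jdBar M₀ d hd)
      obtain ⟨f₂, hf₂⟩ := hd
      haveI : NeZero (q * d) := ⟨mul_ne_zero (NeZero.ne q) (NeZero.ne d)⟩
      apply Subtype.ext
      have h := coe_wAt_of_coe_gen D hM q q d f₂ (by rw [hQ]) (by rw [hR, hf₂])
        (wpdIota1 M₀ q (jdBar M₀ d ⟨f₂, hf₂⟩))
        (by rw [coe_wpdIota1, coe_jdBar, qExpand_qExpand])
      rw [h, coe_wpdIota1, coe_jdBar, qExpand_qExpand]
  exact RingHom.congr_fun key x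

/-- `w W = Zc`. -/
theorem swapMod_W (D : ALData) (hQ : D.Q = q * q) (hR : D.R = M₀)
    (hM : M₀ * q * q = D.Q * D.R) (t : FBar M₀) (a ϖ : Qb) :
    wAt D hM (wpW M₀ q t a ϖ) = wpZ M₀ q t a ϖ := by
  unfold wpW wpZ
  rw [map_div₀, map_sub, AlgEquiv.commutes, AlgEquiv.commutes, swapMod_iota0 D hQ hR hM]

/-- `w Zc = W`. -/
theorem swapMod_Z (D : ALData) (hQ : D.Q = q * q) (hR : D.R = M₀)
    (hM : M₀ * q * q = D.Q * D.R) (t : FBar M₀) (a ϖ : Qb) :
    wAt D hM (wpZ M₀ q t a ϖ) = wpW M₀ q t a ϖ := by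
  unfold wpW wpZ
  rw [map_div₀, map_sub, AlgEquiv.commutes, AlgEquiv.commutes, swapMod_iota2 D hQ hR hM]

/-- `w Y = Y`. -/
theorem swapMod_Y (D : ALData) (hQ : D.Q = q * q) (hR : D.R = M₀)
    (hM : M₀ * q * q = D.Q * D.R) (t : FBar M₀) (a ϖ : Qb) :
    wAt D hM (wpY M₀ q t a ϖ) = wpY M₀ q t a ϖ := by
  unfold wpY
  rw [map_div₀, map_sub, AlgEquiv.commutes, AlgEquiv.commutes, swapMod_iota1 D hQ hR hM]

end AL

section Exists

variable (M₀ q : ℕ) [NeZero M₀] [NeZero q]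

/-- **SWAP, modular part**: for `q` prime, `q ∤ M₀`, there is an involution `w` of
`F = F_{M₀ q²}` over `ℚ̄`, commuting with the Galois action on the coefficients, which fixes
`ι₁`, exchanges `ι₀` and `ι₂`, fixes `Y` and exchanges `W` and `Zc` (for every datum). -/
theorem swapMod_exists (hq : q.Prime) (hqM : ¬ q ∣ M₀) :
    ∃ w : FBar (M₀ * q * q) ≃ₐ[Qb] FBar (M₀ * q * q),
      (∀ x, w (w x) = x) ∧
      (∀ (σ : Qb ≃ₐ[ℚ] Qb) (x : FBar (M₀ * q * q)),
        w (galFun (M₀ * q * q) σ x) = galFun (M₀ * q * q) σ (w x)) ∧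
      (∀ g : FBar M₀, w (wpIota0 M₀ q g) = wpIota2 M₀ q g) ∧
      (∀ g : FBar M₀, w (wpdIota1 M₀ q g) = wpdIota1 M₀ q g) ∧
      (∀ g : FBar M₀, w (wpIota2 M₀ q g) = wpIota0 M₀ q g) ∧
      (∀ (t : FBar M₀) (a ϖ : Qb), w (wpW M₀ q t a ϖ) = wpZ M₀ q t a ϖ) ∧
      (∀ (t : FBar M₀) (a ϖ : Qb), w (wpZ M₀ q t a ϖ) = wpW M₀ q t a ϖ) ∧
      (∀ (t : FBar M₀) (a ϖ : Qb), w (wpY M₀ q t a ϖ) = wpY M₀ q t a ϖ) := by
  have hcop : Nat.Coprime (q * q) M₀ :=
    Nat.Coprime.mul_left ((Nat.Prime.coprime_iff_not_dvd hq).mpr hqM)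
      ((Nat.Prime.coprime_iff_not_dvd hq).mpr hqM)
  obtain ⟨D, hQ, hR⟩ := ALData.exists_of_coprime (Q := q * q) (R := M₀)
    (Nat.mul_pos hq.pos hq.pos) (Nat.pos_of_ne_zero (NeZero.ne M₀)) hcop
  have hM : M₀ * q * q = D.Q * D.R := by rw [hQ, hR]; ring
  exact ⟨wAt D hM, wAt_wAt D hM, wAt_galFun D hM, swapMod_iota0 D hQ hR hM,
    swapMod_iota1 D hQ hR hM, swapMod_iota2 D hQ hR hM, swapMod_W D hQ hR hM,
    swapMod_Z D hQ hR hM, swapMod_Y D hQ hR hM⟩

end Exists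

end Fermat.Agent.S36G
end
end MergeWrap_S36_HPVal_SwapMod

section MergeWrap_S36_HPVal_SwapWire -- from S36/HPVal/SwapWire.lean

set_option autoImplicit false
set_option linter.style.haveILetI false
set_option linter.unusedSectionVars false
set_option linter.unusedVariables false
set_option synthInstance.maxHeartbeats 400000

noncomputable section
attribute [local instance 10000] SubalgebraClass.toAlgebra HahnSeries.powerSeriesAlgebra

namespace Fermat.Agent.S36G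

open ModularCurve AlgebraicCurve IntermediateField Fermat.Agent.F3 Fermat.Agent.F3G
  Fermat.Agent.GaussInt Fermat.Agent.Deuring Fermat.Agent.BadRed Fermat.Agent.HPVal Fermat.Agent.HP
  Fermat.Agent.AtkinLehner

local notation "Qb" => AlgebraicClosure ℚ

section Wire

variable {M₀ q : ℕ} [NeZero M₀] [NeZero q] {A : ValuationSubring Qb}
  {S0 : Fermat.Agent.S18Key.RedSetup Qb (FBar M₀) (IsLocalRing.ResidueField A)
    ↥(modularFunctionFieldFullC (IsLocalRing.ResidueField A) M₀)}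
  {P : Place (IsLocalRing.ResidueField A)
    ↥(modularFunctionFieldFullC (IsLocalRing.ResidueField A) M₀)}
  {FkP : Type} [Field FkP] [Algebra (IsLocalRing.ResidueField A) FkP]

/-- the Atkin–Lehner involution `w_{q²}` satisfies the hypotheses of (SWAP). -/
theorem wpswHyp_wAt (D : ALData) (hQ : D.Q = q * q) (hR : D.R = M₀)
    (hM : M₀ * q * q = D.Q * D.R) : WpswHyp M₀ q (wAt D hM) where
  fix1 := swapMod_iota1 D hQ hR hM
  swap0 := swapMod_iota0 D hQ hR hM
  swap2 := swapMod_iota2 D hQ hR hM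

/-- `Ȳ` is transcendental over the residue field. -/
theorem swapWire_transc (hq : q.Prime) (hA : A.LiesOverPrime q) (O : WPOut M₀ q A S0 P FkP) :
    Transcendental (IsLocalRing.ResidueField A) O.H.Yf := by
  haveI : IsAlgClosed (IsLocalRing.ResidueField A) := isAlgClosed_residue A
  haveI : CharP (IsLocalRing.ResidueField A) q :=
    Fermat.Agent.GaussIntFP.charP_residue_of_liesOver A hq hA
  have hq1 : ((q + 1 : ℕ) : IsLocalRing.ResidueField A) ≠ 0 := by
    rw [Nat.cast_add, CharP.cast_eq_zero, zero_add, Nat.cast_one]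
    exact one_ne_zero
  exact O.H.Yf_transcendental hq1

/-- the Riemann–Roch library applies to `F_{M₀}` mod `q`. -/
theorem swapWire_isRRField (M₀ : ℕ) [NeZero M₀] (A : ValuationSubring Qb) :
    Fermat.Agent.RR.IsRRField (IsLocalRing.ResidueField A)
      ↥(modularFunctionFieldFullC (IsLocalRing.ResidueField A) M₀) := by
  haveI : IsAlgClosed (IsLocalRing.ResidueField A) := isAlgClosed_residue A
  exact Fermat.Agent.RRMod.isRRField_fullC' (IsLocalRing.ResidueField A) M₀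

/-- `Y` is generic for `O_{w_P}`. -/
theorem swapWire_generic (hq : q.Prime) (hA : A.LiesOverPrime q) (O : WPOut M₀ q A S0 P FkP) :
    WPGeneric A O.S.Ov (wpY M₀ q O.t O.a O.ϖ) :=
  wpsw_generic O (swapWire_transc hq hA O)

/-- **`w_{q²}` stabilises `O_{w_P}`**. -/
theorem swapWire_mem_iff (hq : q.Prime) (hA : A.LiesOverPrime q) (O : WPOut M₀ q A S0 P FkP)
    (D : ALData) (hQ : D.Q = q * q) (hR : D.R = M₀) (hM : M₀ * q * q = D.Q * D.R)
    (f : FBar (M₀ * q * q)) : wAt D hM f ∈ O.S.Ov ↔ f ∈ O.S.Ov := by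
  have h := wpsw_comap_eq O (swapWire_isRRField M₀ A) (swapWire_transc hq hA O)
    (wpswHyp_wAt D hQ hR hM)
  rw [← mem_wpswOv O (wAt D hM) f, h]

/-- **(SWAP)** for `w = w_{q²}`: `w` induces a `k`-automorphism `σ` of the residue field
`k(H_P)` with `red (w f) = σ (red f)` on `O_{w_P}`, `σ X₁ = X₂`, `σ X₂ = X₁`, `σ Ȳ = Ȳ`. -/
theorem swapWire_final (hq : q.Prime) (hA : A.LiesOverPrime q) (O : WPOut M₀ q A S0 P FkP)
    (D : ALData) (hQ : D.Q = q * q) (hR : D.R = M₀) (hM : M₀ * q * q = D.Q * D.R) :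
    ∃ σ : FkP ≃ₐ[IsLocalRing.ResidueField A] FkP,
      (∀ f ∈ O.S.Ov, wAt D hM f ∈ O.S.Ov ∧ O.S.red (wAt D hM f) = σ (O.S.red f)) ∧
      σ O.H.X1 = O.H.X2 ∧ σ O.H.X2 = O.H.X1 ∧ σ O.H.Yf = O.H.Yf :=
  wpsw_exists O (swapWire_isRRField M₀ A) (swapWire_transc hq hA O) (wpswHyp_wAt D hQ hR hM)

/-- **(SWAP)**, with the involution existentially quantified. -/
theorem swapWire_exists (hq : q.Prime) (hqM : ¬ q ∣ M₀) (hA : A.LiesOverPrime q)
    (O : WPOut M₀ q A S0 P FkP) :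
    ∃ (w : FBar (M₀ * q * q) ≃ₐ[Qb] FBar (M₀ * q * q))
      (σ : FkP ≃ₐ[IsLocalRing.ResidueField A] FkP),
      (∀ x, w (w x) = x) ∧
      (∀ (τ : Qb ≃ₐ[ℚ] Qb) (x : FBar (M₀ * q * q)),
        w (galFun (M₀ * q * q) τ x) = galFun (M₀ * q * q) τ (w x)) ∧
      WpswHyp M₀ q w ∧
      (∀ f, w f ∈ O.S.Ov ↔ f ∈ O.S.Ov) ∧
      (∀ f ∈ O.S.Ov, O.S.red (w f) = σ (O.S.red f)) ∧
      σ O.H.X1 = O.H.X2 ∧ σ O.H.X2 = O.H.X1 ∧ σ O.H.Yf = O.H.Yf := by
  have hcop : Nat.Coprime (q * q) M₀ :=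
    Nat.Coprime.mul_left ((Nat.Prime.coprime_iff_not_dvd hq).mpr hqM)
      ((Nat.Prime.coprime_iff_not_dvd hq).mpr hqM)
  obtain ⟨D, hQ, hR⟩ := ALData.exists_of_coprime (Q := q * q) (R := M₀)
    (Nat.mul_pos hq.pos hq.pos) (Nat.pos_of_ne_zero (NeZero.ne M₀)) hcop
  have hM : M₀ * q * q = D.Q * D.R := by rw [hQ, hR]; ring
  obtain ⟨σ, h1, h2, h3, h4⟩ := swapWire_final hq hA O D hQ hR hM
  exact ⟨wAt D hM, σ, wAt_wAt D hM, wAt_galFun D hM, wpswHyp_wAt D hQ hR hM,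
    swapWire_mem_iff hq hA O D hQ hR hM, fun f hf => (h1 f hf).2, h2, h3, h4⟩

end Wire

end Fermat.Agent.S36G
end
end MergeWrap_S36_HPVal_SwapWire

section MergeWrap_S36_G_Step2ModH -- from S36/G/Step2ModH.lean

set_option autoImplicit false
set_option linter.style.haveILetI false
set_option linter.unusedSectionVars false
set_option linter.unusedVariables false
set_option synthInstance.maxHeartbeats 400000
set_option maxHeartbeats 1000000

/-!
# Cluster G (S36), Step 2 (horizontal): the MODULAR instance of `step2_final`  (helper38, hedge)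

`O : WPOut M₀ q A S0 P (Fk c)` the output of block W-P at a supersingular place `P`, `N` a
`GraphSetup` on `F = FBar (M₀ q q)` whose valuation at the vertex `c` is `w_P` (`N.S c = O.S`).
All the inputs of `step2_final` (`S36/G/Step2Final.lean`) are on main:

* (R1), (N3) : `wpsq_alpha_mem`, `wpsq_normRed_alpha` (`S36/Norm/HorSqueeze.lean`);
* (SWAP)     : `swapWire_final` (`S36/HPVal/SwapWire.lean`);
* (INERT)    : `wpm_hinv_out_of_fixedFun` (`S36/HPVal/InertFinal.lean`).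

Hence

* `s2mh_level`    : `D.Q = q ^ 2`, `M₀ q q = D.Q D.R` ⟹ `D.Q = q q`, `D.R = M₀`;
* `s2mh_hor_at`   : `N.IsPowAt n c (g ^ (q + 1))` at ONE vertex `c` with `N.S c = O.S`, from the
                    two (ENDS) hypotheses `hsm₁`, `hsm₂` of `step2_final`;
* `s2mh_hor`      : **the hypothesis `hhor` of `step12_modular_one`** (`S36/G/Step12D0.lean`) on the
                    modular graph `K_{|Vert|, s}`: the only inputs are the family of `WPOut`s, the
                    identifications `N.S (hor P) = (O P).S`, `N.src i = nodSrc i` and (ENDS) at the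
                    targets.
-/

noncomputable section

namespace Fermat.Agent.S36G

open ModularCurve AlgebraicCurve IntermediateField Fermat.Agent.F3 Fermat.Agent.F3G
  Fermat.Agent.GaussInt Fermat.Agent.Deuring Fermat.Agent.BadRed Fermat.Agent.BadRedG
  Fermat.Agent.HPVal Fermat.Agent.HP Fermat.Agent.AtkinLehner Fermat.Agent.RR

local notation "Qb" => AlgebraicClosure ℚ

/-- level bookkeeping: `D.Q = q ^ 2` and `M₀ q q = D.Q D.R` give `D.Q = q q` and `D.R = M₀`. -/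
theorem s2mh_level {M₀ q : ℕ} (hq : q.Prime) (D : ALData) (hM : M₀ * q * q = D.Q * D.R)
    (hDQ : D.Q = q ^ 2) : D.Q = q * q ∧ D.R = M₀ := by
  refine ⟨by rw [hDQ, pow_two], ?_⟩
  have hqq : 0 < q * q := Nat.mul_pos hq.pos hq.pos
  have h1 : q * q * D.R = q * q * M₀ := by
    calc q * q * D.R = q ^ 2 * D.R := by ring
      _ = D.Q * D.R := by rw [hDQ]
      _ = M₀ * q * q := hM.symm
      _ = q * q * M₀ := by ring
  exact Nat.eq_of_mul_eq_mul_left hqq h1

section At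

variable {M₀ q : ℕ} [NeZero M₀] [NeZero q] {A : ValuationSubring Qb}
  {S0 : Fermat.Agent.S18Key.RedSetup Qb (FBar M₀) (IsLocalRing.ResidueField A)
    ↥(modularFunctionFieldFullC (IsLocalRing.ResidueField A) M₀)}
  {P : Place (IsLocalRing.ResidueField A)
    ↥(modularFunctionFieldFullC (IsLocalRing.ResidueField A) M₀)}
  {κ ι : Type*} {Fk : κ → Type} [∀ c, Field (Fk c)]
  [∀ c, Algebra (IsLocalRing.ResidueField A) (Fk c)]

/-- **Step 2 at one horizontal vertex**: if the valuation of the graph at `c` is `w_P`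
(`N.S c = O.S`) and the branch points of `N` on `c` are ends of `H_P`, then `g ^ (q + 1)` is, up
to a constant, an `n`-th power on `c`, for every `g` as in `CoreFunAt`. -/
theorem s2mh_hor_at (hq : q.Prime) (hqM : ¬ q ∣ M₀) (hA : A.LiesOverPrime q)
    (hS0 : IsGaussRed M₀ A S0)
    (N : GraphSetup Qb (FBar (M₀ * q * q)) (IsLocalRing.ResidueField A) κ Fk ι) (c : κ)
    (O : WPOut M₀ q A S0 P (Fk c)) (hS : N.S c = O.S)
    (hsm₁ : ∀ (Q : Place (IsLocalRing.ResidueField A) (Fk c)) (i : ι),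
      (⟨c, Q⟩ : Σ c, Place (IsLocalRing.ResidueField A) (Fk c)) = ⟨N.src i, N.s₁ i⟩ →
        O.H.IsEnd Q)
    (hsm₂ : ∀ (Q : Place (IsLocalRing.ResidueField A) (Fk c)) (i : ι),
      (⟨c, Q⟩ : Σ c, Place (IsLocalRing.ResidueField A) (Fk c)) = ⟨N.tgt i, N.s₂ i⟩ →
        O.H.IsEnd Q)
    (D : ALData) (hM : M₀ * q * q = D.Q * D.R) (hDQ : D.Q = q ^ 2)
    (n : ℕ) (hn : n ≠ 0) {g : FBar (M₀ * q * q)} (hg : g ≠ 0)
    (hdvd : ∀ v : Place Qb (FBar (M₀ * q * q)), (n : ℤ) ∣ v.ord g)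
    (hfix : InertiaFixedFun (M₀ * q * q) A n g)
    (h1 : IsCPow n (normAlong (heckeAlphaBar Qb (M₀ * q) q) g))
    (h2 : IsCPow n (normAlong (heckeAlphaBar Qb (M₀ * q) q) (wAt D hM g))) :
    N.IsPowAt n c (g ^ (q + 1)) := by
  haveI : IsAlgClosed (IsLocalRing.ResidueField A) := isAlgClosed_residue A
  haveI : CharP (IsLocalRing.ResidueField A) q :=
    Fermat.Agent.GaussIntFP.charP_residue_of_liesOver A hq hA
  have hq0 : ((q : ℕ) : IsLocalRing.ResidueField A) = 0 := CharP.cast_eq_zero _ q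
  obtain ⟨hQ, hR⟩ := s2mh_level hq D hM hDQ
  obtain ⟨σ, hσ, hσ1, hσ2, -⟩ := swapWire_final hq hA O D hQ hR hM
  -- the rational subfield `E₁ = k(X₁)`
  have hgen₁ : (IsLocalRing.ResidueField A)⟮(⟨O.H.X1,
      IntermediateField.mem_adjoin_simple_self (IsLocalRing.ResidueField A) O.H.X1⟩ :
        ↥((IsLocalRing.ResidueField A)⟮O.H.X1⟯))⟯ = ⊤ := by
    apply hp_adjoin_subtype_eq_top
    rw [Set.image_singleton]
  refine step2_final N c O.H hq0 hsm₁ hsm₂ (heckeAlphaBar Qb (M₀ * q) q)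
    (E₁ := ↥((IsLocalRing.ResidueField A)⟮O.H.X1⟯)) hgen₁ rfl ?_ ?_ (wAt D hM) σ hσ2 ?_ n hn hg
    hdvd ?_ h1 h2
  · -- (R1)
    intro y hy
    rw [hS] at hy ⊢
    exact ⟨⟨_, wpsq_alpha_mem O hq hqM hA y hy⟩, rfl⟩
  · -- (N3)
    intro t ht _
    rw [hS] at ht ⊢
    exact (wpsq_normRed_alpha O hq hqM hA t ht).2
  · -- (SWAP)
    intro f hf
    rw [hS] at hf ⊢
    exact hσ f hf
  · -- (INERT)
    intro f a hf hf' hgf
    rw [hS] at hf hf' ⊢
    exact wpm_hinv_out_of_fixedFun O hq hA hqM hS0 n hg hfix f a hf hf' hgf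

end At

section Mod

variable {M₀ q : ℕ} [NeZero M₀] [NeZero q] {A : ValuationSubring Qb}
  {S0 : Fermat.Agent.S18Key.RedSetup Qb (FBar M₀) (IsLocalRing.ResidueField A)
    ↥(modularFunctionFieldFullC (IsLocalRing.ResidueField A) M₀)}
  {Mid SS : Type} {Fk : Vtx Mid SS → Type} [∀ c, Field (Fk c)]
  [∀ c, Algebra (IsLocalRing.ResidueField A) (Fk c)]

/-- **Step 2 on the modular graph**: the hypothesis `hhor` of `step12_modular_one`
(`S36/G/Step12D0.lean`).  Inputs: for every supersingular point `P` the output `O P` of block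
W-P with `N.S (hor P) = (O P).S`; the sources of the nodes are vertical; the branch points on
`hor P` at the targets are ends of `H_P`. -/
theorem s2mh_hor (hq : q.Prime) (hqM : ¬ q ∣ M₀) (hA : A.LiesOverPrime q)
    (hS0 : IsGaussRed M₀ A S0)
    (N : GraphSetup Qb (FBar (M₀ * q * q)) (IsLocalRing.ResidueField A) (Vtx Mid SS) Fk
      (Nod Mid SS))
    (hsrc : ∀ i, N.src i = nodSrc i)
    (Pl : SS → Place (IsLocalRing.ResidueField A)
      ↥(modularFunctionFieldFullC (IsLocalRing.ResidueField A) M₀))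
    (O : ∀ P : SS, WPOut M₀ q A S0 (Pl P) (Fk (Vtx.hor P)))
    (hS : ∀ P : SS, N.S (Vtx.hor P) = (O P).S)
    (hends : ∀ (P : SS) (Q : Place (IsLocalRing.ResidueField A) (Fk (Vtx.hor P)))
      (i : Nod Mid SS),
      (⟨Vtx.hor P, Q⟩ : Σ c, Place (IsLocalRing.ResidueField A) (Fk c)) = ⟨N.tgt i, N.s₂ i⟩ →
        (O P).H.IsEnd Q)
    (n : ℕ) (hn : n ≠ 0)
    (D : ALData) (hM : M₀ * q * q = D.Q * D.R) (hDQ : D.Q = q ^ 2) :
    ∀ g : FBar (M₀ * q * q), g ≠ 0 →
      (∀ v : Place Qb (FBar (M₀ * q * q)), (n : ℤ) ∣ v.ord g) →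
      InertiaFixedFun (M₀ * q * q) A n g →
      IsCPow n (normAlong (heckeAlphaBar Qb (M₀ * q) q) g) →
      IsCPow n (normAlong (heckeAlphaBar Qb (M₀ * q) q) (wAt D hM g)) →
      ∀ P : SS, N.IsPowAt n (Vtx.hor P) (g ^ (q + 1)) := by
  intro g hg hdvd hfix h1 h2 P
  refine s2mh_hor_at hq hqM hA hS0 N (Vtx.hor P) (O P) (hS P) ?_ (hends P) D hM hDQ n hn hg
    hdvd hfix h1 h2
  intro Q i h
  exfalso
  have h1' : Vtx.hor P = N.src i := congrArg Sigma.fst h
  rw [hsrc i] at h1'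
  unfold nodSrc at h1'
  cases h1'

end Mod

end Fermat.Agent.S36G
end
end MergeWrap_S36_G_Step2ModH

section MergeWrap_S36_G_Step12Final -- from S36/G/Step12Final.lean

set_option autoImplicit false
set_option linter.style.haveILetI false
set_option linter.unusedSectionVars false
set_option linter.unusedVariables false
set_option synthInstance.maxHeartbeats 400000
set_option maxHeartbeats 1000000

/-!
# Cluster G (S36), Steps 1 + 2: the field `hStep12` of `CoreBundle`, FINAL  (helper60)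

`N` a `GraphSetup` on `F = FBar (M₀ q q)` of shape `K_{|Vert|, s}` whose constant reductions are
`vtxFamily S_∞ (valSetupZeroAt D₀ hM₀ S_∞) I.S (fun P => (O P).S)`: `S_∞` a Gauss reduction,
`I : IgPack M₀ q A` the Igusa pair, `O P : WPOut ..` the outputs of block W-P.  Then

* `step12_final` : for EVERY `n ≠ 0`, every `D` with `D.Q = q ^ 2` and every `g` as in `CoreFunAt`,
  `g ^ ((q - 1) * (q + 1))` is, up to constants, an `n`-th power in all the residue fields: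
  exactly the field `hStep12` of `CoreBundle (M₀ * q) q A` (`S36/G/CoreBundle.lean`) with
  `c₁ = (q - 1) * (q + 1)` (`step12_c₁_ne_zero`).

Step 1 = `step1_vert_all` (helper66, helper17, helper63, helper60), Step 2 = `s2mh_hor` (helper38,
from helper48's `step2_final`).  The only inputs left are those of the bundle itself:
`hsrc`, `hN` (both `rfl` for the seed of MG-INST) and (ENDS) `hends`.
-/

noncomputable section

namespace Fermat.Agent.S36G

open ModularCurve AlgebraicCurve Fermat.Agent.F3 Fermat.Agent.F3G Fermat.Agent.GaussInt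
  Fermat.Agent.AtkinLehner Fermat.Agent.Kronecker Fermat.Agent.BadRed Fermat.Agent.BadRedG
  Fermat.Agent.Deuring Fermat.Agent.HPVal Fermat.Agent.HP Fermat.Agent.RR

local notation "Qb" => AlgebraicClosure ℚ

attribute [local instance 10000] SubalgebraClass.toAlgebra HahnSeries.powerSeriesAlgebra

variable {M₀ q : ℕ} [NeZero M₀] [NeZero q] {SS : Type}

/-- the exponent of Steps 1, 2 is not zero. -/
theorem step12_c₁_ne_zero (hq : q.Prime) : (q - 1) * (q + 1) ≠ 0 := by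
  have h2 := hq.two_le
  exact Nat.mul_ne_zero (by omega) (by omega)

/-- **Steps 1 + 2, final form**: the field `hStep12` of `CoreBundle (M₀ * q) q A`. -/
theorem step12_final (hq : q.Prime) (hqM : ¬ q ∣ M₀) (hν2 : nuTwo M₀ = 0)
    (hν3 : nuThree M₀ = 0) (A : ValuationSubring Qb) (hA : A.LiesOverPrime q)
    {S0 : Fermat.Agent.S18Key.RedSetup Qb (FBar M₀) (IsLocalRing.ResidueField A)
      ↥(modularFunctionFieldFullC (IsLocalRing.ResidueField A) M₀)}
    (hS0 : IsGaussRed M₀ A S0)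
    {FkP : SS → Type} [∀ P, Field (FkP P)] [∀ P, Algebra (IsLocalRing.ResidueField A) (FkP P)]
    (N : GraphSetup Qb (FBar (M₀ * q * q)) (IsLocalRing.ResidueField A)
      (Vtx (Fin (midCard q)) SS)
      (FkOf (modularFunctionFieldFullC (IsLocalRing.ResidueField A) M₀)
        (fun _ : Fin (midCard q) => ↥(igField (IsLocalRing.ResidueField A) M₀)) FkP)
      (Nod (Fin (midCard q)) SS))
    (hsrc : ∀ i, N.src i = nodSrc i)
    (Soo : ValSetup Qb (FBar (M₀ * q * q)) (IsLocalRing.ResidueField A)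
      (modularFunctionFieldFullC (IsLocalRing.ResidueField A) M₀))
    (hSoo : IsGaussSetup (M₀ * q * q) M₀ A Soo)
    (D₀ : ALData) (hM₀ : M₀ * q * q = D₀.Q * D₀.R) (hD₀ : D₀.Q = q ^ 2)
    (I : IgPack M₀ q A)
    (Pl : SS → Place (IsLocalRing.ResidueField A)
      ↥(modularFunctionFieldFullC (IsLocalRing.ResidueField A) M₀))
    (O : ∀ P : SS, WPOut M₀ q A S0 (Pl P) (FkP P))
    (hN : N.S = vtxFamily Soo (valSetupZeroAt D₀ hM₀ Soo) I.S (fun P => (O P).S))
    (hends : ∀ (P : SS) (Q : Place (IsLocalRing.ResidueField A) (FkP P))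
      (i : Nod (Fin (midCard q)) SS),
      (⟨Vtx.hor P, Q⟩ : Σ c, Place (IsLocalRing.ResidueField A)
        (FkOf (modularFunctionFieldFullC (IsLocalRing.ResidueField A) M₀)
          (fun _ : Fin (midCard q) => ↥(igField (IsLocalRing.ResidueField A) M₀)) FkP c)) =
        ⟨N.tgt i, N.s₂ i⟩ → (O P).H.IsEnd Q) :
    ∀ n : ℕ, n ≠ 0 →
      ∀ (D : ALData) (hM : M₀ * q * q = D.Q * D.R), D.Q = q ^ 2 →
        ∀ g : FBar (M₀ * q * q), g ≠ 0 →
          (∀ v : Place Qb (FBar (M₀ * q * q)), (n : ℤ) ∣ v.ord g) →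
          InertiaFixedFun (M₀ * q * q) A n g →
          IsCPow n (normAlong (heckeAlphaBar Qb (M₀ * q) q) g) →
          IsCPow n (normAlong (heckeAlphaBar Qb (M₀ * q) q) (wAt D hM g)) →
          ∀ c, N.IsPowAt n c (g ^ ((q - 1) * (q + 1))) := by
  intro n hn
  refine step12_of_pack hq hqM hν2 hν3 A hA N n Soo hSoo D₀ hM₀ hD₀ I (fun P => (O P).S) hN ?_
  exact s2mh_hor hq hqM hA hS0 N hsrc Pl O (fun P => by rw [hN]; rfl) hends n hn D₀ hM₀ hD₀

/-- the same from `AuxGood23 q M₀`. -/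
theorem step12_final_aux (hq : q.Prime) (hqM : ¬ q ∣ M₀) (hgood : AuxGood23 q M₀)
    (A : ValuationSubring Qb) (hA : A.LiesOverPrime q)
    {S0 : Fermat.Agent.S18Key.RedSetup Qb (FBar M₀) (IsLocalRing.ResidueField A)
      ↥(modularFunctionFieldFullC (IsLocalRing.ResidueField A) M₀)}
    (hS0 : IsGaussRed M₀ A S0)
    {FkP : SS → Type} [∀ P, Field (FkP P)] [∀ P, Algebra (IsLocalRing.ResidueField A) (FkP P)]
    (N : GraphSetup Qb (FBar (M₀ * q * q)) (IsLocalRing.ResidueField A)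
      (Vtx (Fin (midCard q)) SS)
      (FkOf (modularFunctionFieldFullC (IsLocalRing.ResidueField A) M₀)
        (fun _ : Fin (midCard q) => ↥(igField (IsLocalRing.ResidueField A) M₀)) FkP)
      (Nod (Fin (midCard q)) SS))
    (hsrc : ∀ i, N.src i = nodSrc i)
    (Soo : ValSetup Qb (FBar (M₀ * q * q)) (IsLocalRing.ResidueField A)
      (modularFunctionFieldFullC (IsLocalRing.ResidueField A) M₀))
    (hSoo : IsGaussSetup (M₀ * q * q) M₀ A Soo)
    (D₀ : ALData) (hM₀ : M₀ * q * q = D₀.Q * D₀.R) (hD₀ : D₀.Q = q ^ 2)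
    (I : IgPack M₀ q A)
    (Pl : SS → Place (IsLocalRing.ResidueField A)
      ↥(modularFunctionFieldFullC (IsLocalRing.ResidueField A) M₀))
    (O : ∀ P : SS, WPOut M₀ q A S0 (Pl P) (FkP P))
    (hN : N.S = vtxFamily Soo (valSetupZeroAt D₀ hM₀ Soo) I.S (fun P => (O P).S))
    (hends : ∀ (P : SS) (Q : Place (IsLocalRing.ResidueField A) (FkP P))
      (i : Nod (Fin (midCard q)) SS),
      (⟨Vtx.hor P, Q⟩ : Σ c, Place (IsLocalRing.ResidueField A)
        (FkOf (modularFunctionFieldFullC (IsLocalRing.ResidueField A) M₀)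
          (fun _ : Fin (midCard q) => ↥(igField (IsLocalRing.ResidueField A) M₀)) FkP c)) =
        ⟨N.tgt i, N.s₂ i⟩ → (O P).H.IsEnd Q) :
    ∀ n : ℕ, n ≠ 0 →
      ∀ (D : ALData) (hM : M₀ * q * q = D.Q * D.R), D.Q = q ^ 2 →
        ∀ g : FBar (M₀ * q * q), g ≠ 0 →
          (∀ v : Place Qb (FBar (M₀ * q * q)), (n : ℤ) ∣ v.ord g) →
          InertiaFixedFun (M₀ * q * q) A n g →
          IsCPow n (normAlong (heckeAlphaBar Qb (M₀ * q) q) g) →
          IsCPow n (normAlong (heckeAlphaBar Qb (M₀ * q) q) (wAt D hM g)) →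
          ∀ c, N.IsPowAt n c (g ^ ((q - 1) * (q + 1))) :=
  step12_final hq hqM (auxGood23_nuTwo hgood) (auxGood23_nuThree hgood) A hA hS0 N hsrc Soo hSoo
    D₀ hM₀ hD₀ I Pl O hN hends

end Fermat.Agent.S36G
end
end MergeWrap_S36_G_Step12Final

section MergeWrap_S36_G_Step2ModEnds -- from S36/G/Step2ModEnds.lean

set_option autoImplicit false
set_option linter.style.haveILetI false
set_option linter.unusedSectionVars false
set_option linter.unusedVariables false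

/-!
# Cluster G (S36), Step 2 (horizontal): the (ENDS) bridge  (helper38)

The hypothesis `hsm₂` of `step2_final` (`S36/G/Step2Final.lean`) asks that the branch points of
the modular graph on a horizontal component `H_P` are ENDS of `H_P` in the sense of `Lib/HP`
(`HPCurve.IsEnd v := v.ord X₁ ≠ 0`).  On the modular seed the branch points on `H_P` are the points
of `E.PJA ∪ E.PJM ∪ E.PJ2` (`ModEndsInput`, `S36/G/SeedInput.lean`), i.e. the zeros of
`red_P (ϖ₁ / u₁)` and of `red_P u₂`.  With the two reductions of SEED-UP (`EndsRed1`, `EndsRed2`,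
`S36/Seed/Ends.lean`) these are the poles and the zeros of `X₁`:

* `s2me_isEnd_of_pos1` : a zero of `red_P x₁`, `red_P x₁ = c (X₁ ^ 12)⁻¹`, is an end;
* `s2me_isEnd_of_pos2` : a zero of `red_P x₂`, `red_P x₂ = c X₁ ^ 12`, is an end;
* `s2me_isEnd`         : every point of `E.PJA ∪ E.PJM ∪ E.PJ2` on `hor P` is an end of `H_P`.
-/

noncomputable section

open AlgebraicCurve

namespace Fermat.Agent.S36G

open Fermat.Agent.RR Fermat.Agent.Deuring Fermat.Agent.BadRed Fermat.Agent.BadRedG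
  Fermat.Agent.HP

variable {K F k : Type} [Field K] [Field F] [Algebra K F] [Field k] [IsAlgClosed k]
  {Mid SS : Type}
  {Fk0 : Type} [Field Fk0] [Algebra k Fk0]
  {FkM : Mid → Type} [∀ m, Field (FkM m)] [∀ m, Algebra k (FkM m)]
  {FkP : SS → Type} [∀ P, Field (FkP P)] [∀ P, Algebra k (FkP P)]
  {S : ∀ c : Vtx Mid SS, ValSetup K F k (FkOf Fk0 FkM FkP c)}
  {q : ℕ} {H : ∀ P : SS, HPCurve k (FkOf Fk0 FkM FkP (Vtx.hor P)) q}

/-- a zero of `red_P x₁ = c (X₁ ^ 12)⁻¹` is a pole of `X₁`, hence an end of `H_P`. -/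
theorem s2me_isEnd_of_pos1 {x1 : F} (hx1 : EndsRed1 S H x1) (P : SS)
    (Q : Place k (FkOf Fk0 FkM FkP (Vtx.hor P)))
    (h : 0 < Q.ord ((S (Vtx.hor P)).red x1)) : (H P).IsEnd Q := by
  unfold HPCurve.IsEnd
  rw [hx1.ord P Q] at h
  intro h0
  rw [h0] at h
  simp at h

/-- a zero of `red_P x₂ = c X₁ ^ 12` is a zero of `X₁`, hence an end of `H_P`. -/
theorem s2me_isEnd_of_pos2 {x2 : F} (hx2 : EndsRed2 S H x2) (P : SS)
    (Q : Place k (FkOf Fk0 FkM FkP (Vtx.hor P)))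
    (h : 0 < Q.ord ((S (Vtx.hor P)).red x2)) : (H P).IsEnd Q := by
  unfold HPCurve.IsEnd
  rw [hx2.ord P Q] at h
  intro h0
  rw [h0] at h
  simp at h

section Input

variable [Fintype Mid] [Fintype SS] (E : ModEndsInput K F k Mid SS Fk0 FkM FkP)
  {H' : ∀ P : SS, HPCurve k (FkOf Fk0 FkM FkP (Vtx.hor P)) q}

/-- **(ENDS)**: the points of `E.PJA ∪ E.PJM ∪ E.PJ2` on the horizontal component `hor P` are
ends of `H_P`. -/
theorem s2me_isEnd (hx1 : EndsRed1 E.S H' (algebraMap K F E.ϖ1 / E.u1))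
    (hx2 : EndsRed2 E.S H' E.u2) (P : SS) (Q : Place k (FkOf Fk0 FkM FkP (Vtx.hor P)))
    (h : (⟨Vtx.hor P, Q⟩ : Σ c, Place k (FkOf Fk0 FkM FkP c)) ∈ E.PJA ∨
      (⟨Vtx.hor P, Q⟩ : Σ c, Place k (FkOf Fk0 FkM FkP c)) ∈ E.PJM ∨
      (⟨Vtx.hor P, Q⟩ : Σ c, Place k (FkOf Fk0 FkM FkP c)) ∈ E.PJ2) : (H' P).IsEnd Q := by
  rcases h with h | h | h
  · exact s2me_isEnd_of_pos1 hx1 P Q ((E.mem_PJ1 _).mp (E.PJA_sub_PJ1 h)).2
  · exact s2me_isEnd_of_pos1 hx1 P Q ((E.mem_PJ1 _).mp ((E.mem_PJM _).mp h).1).2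
  · exact s2me_isEnd_of_pos2 hx2 P Q ((E.mem_PJ2 _).mp h).2

end Input

end Fermat.Agent.S36G
end
end MergeWrap_S36_G_Step2ModEnds

section MergeWrap_S36_G_CbiStep12 -- from S36/G/CbiStep12.lean

set_option autoImplicit false
set_option linter.unusedSectionVars false
set_option linter.style.haveILetI false
set_option linter.unusedVariables false
set_option synthInstance.maxHeartbeats 400000
set_option maxHeartbeats 1600000

/-!
# Cluster G (S36), CB-INST, junction STEP12 for the modular seed  (helper62)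

The field `hStep12` of `CoreBundle (M₀ * q) q A` (`S36/G/CoreBundle.lean`), in the shape
`CboStep12 M₀ q A N n` of `S36/G/CoreBundleOf.lean`, for the graph
`N := (E.ymodSeed hn hb h12 hu2 hD₀ hdeg hgenus).graphSetup` of the modular seed (SEED v3,
`S36/Seed/Main.lean`), `E : ModEndsInput ..` with
`E.S = vtxFamily S_∞ (valSetupZeroAt D₀ hM₀ S_∞) I.S (fun P => (O P).S)`.

Inputs (all on main): Steps 1 + 2, final form (`step12_final`, helper60, on `step12_of_pack` and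
helper38's `s2mh_hor`), the (ENDS) bridge (`s2me_isEnd`, helper38), `edy_hx1`, `edy_hN`
(helper15).  The only hypothesis on the horizontal side is the SEED-UP shape
`hx2 : EndsRed2 E.S (fun P => (O P).H) E.u2`.

* `cbi_hends`   : (abstract) the branch points of `N` on `hor P` at the targets are ends of `H_P`;
* `cbi_hStep12` : **`CboStep12 M₀ q A N n`**.
-/

noncomputable section

open AlgebraicCurve Fermat.Agent.RR Fermat.Agent.Deuring

namespace Fermat.Agent.S36G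

open ModularCurve Fermat.Agent.F3 Fermat.Agent.F3G Fermat.Agent.GaussInt
  Fermat.Agent.AtkinLehner Fermat.Agent.Kronecker Fermat.Agent.BadRed Fermat.Agent.BadRedG
  Fermat.Agent.HP Fermat.Agent.HPVal

local notation "Qb" => AlgebraicClosure ℚ

attribute [local instance] Fermat.Agent.GaussInt.isAlgClosed_residue
  Fermat.Agent.GaussInt.infinite_residue

attribute [local instance 10000] SubalgebraClass.toAlgebra HahnSeries.powerSeriesAlgebra

/-! ### (ENDS) for the graph of the modular seed (abstract) -/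

section Ends

variable {K F k : Type} [Field K] [Field F] [Algebra K F] [Field k] [IsAlgClosed k]
  {Mid SS : Type} [Fintype Mid] [Fintype SS] [Nonempty SS]
  {Fk0 : Type} [Field Fk0] [Algebra k Fk0]
  {FkM : Mid → Type} [∀ m, Field (FkM m)] [∀ m, Algebra k (FkM m)]
  {FkP : SS → Type} [∀ P, Field (FkP P)] [∀ P, Algebra k (FkP P)]
  (E : ModEndsInput K F k Mid SS Fk0 FkM FkP)
  {q : ℕ} (H : ∀ P : SS, HPCurve k (FkOf Fk0 FkM FkP (Vtx.hor P)) q)
  {b : K} {nn : ℕ}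

/-- **(ENDS)** for the graph of the modular seed: the branch points on `hor P` at the targets are
ends of `H_P`. -/
theorem cbi_hends (hn : 2 ≤ nn) (hb : E.ϖ1 ^ nn = b) (h12 : E.ϖ1 * E.ϖ2 = b)
    (hu2 : E.u2 = E.u1 / algebraMap K F E.ϖ1)
    (hD₀ : E.D₀ = poleDiv (E.S (Vtx.vert Vrt.oo)).hF (E.ymodX b nn))
    (hdeg : Divisor.degree (poleDiv (E.S (Vtx.vert Vrt.oo)).hF (E.ymodX b nn)) ≤
      ∑ c, Divisor.degree (poleDiv (E.S c).hFk ((E.S c).red (E.ymodX b nn))))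
    (hgenus : genusFF K F + Fintype.card (Vtx Mid SS) ≤
      (∑ c, genusFF k (FkOf Fk0 FkM FkP c)) + Fintype.card (Nod Mid SS) + 1)
    (hx2 : EndsRed2 E.S H E.u2)
    (P : SS) (Q : Place k (FkOf Fk0 FkM FkP (Vtx.hor P))) (i : Nod Mid SS)
    (h : (⟨Vtx.hor P, Q⟩ : Σ c, Place k (FkOf Fk0 FkM FkP c)) =
      ⟨(E.ymodSeed hn hb h12 hu2 hD₀ hdeg hgenus).graphSetup.tgt i,
        (E.ymodSeed hn hb h12 hu2 hD₀ hdeg hgenus).graphSetup.s₂ i⟩) :
    (H P).IsEnd Q := by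
  have hmem := E.toMatchInput.ptH_mem i
  rw [← edy_hN hn hb h12 hu2 hD₀ hdeg hgenus i, ← h] at hmem
  exact s2me_isEnd E (H' := H) (edy_hx1 hu2 hx2) hx2 P Q hmem

end Ends

/-! ### the junction -/

section Step12

variable {M₀ q : ℕ} [NeZero M₀] [NeZero q] {A : ValuationSubring Qb}
  {SS : Type} [Fintype SS] [Nonempty SS]
  {FkP : SS → Type} [∀ P, Field (FkP P)] [∀ P, Algebra (IsLocalRing.ResidueField A) (FkP P)]
  (E : ModEndsInput Qb (FBar (M₀ * q * q)) (IsLocalRing.ResidueField A) (Fin (midCard q)) SS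
    ↥(modularFunctionFieldFullC (IsLocalRing.ResidueField A) M₀)
    (fun _ : Fin (midCard q) => ↥(igField (IsLocalRing.ResidueField A) M₀)) FkP)
  {S0 : Fermat.Agent.S18Key.RedSetup Qb (FBar M₀) (IsLocalRing.ResidueField A)
    ↥(modularFunctionFieldFullC (IsLocalRing.ResidueField A) M₀)}
  {Pl : SS → Place (IsLocalRing.ResidueField A)
    ↥(modularFunctionFieldFullC (IsLocalRing.ResidueField A) M₀)}
  (O : ∀ P : SS, WPOut M₀ q A S0 (Pl P) (FkP P))
  {b : Qb} {nn : ℕ}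

/-- **junction STEP12 for the modular seed**: the field `hStep12` of `CoreBundle`. -/
theorem cbi_hStep12 (hq : q.Prime) (hqM : ¬ q ∣ M₀) (hν2 : nuTwo M₀ = 0)
    (hν3 : nuThree M₀ = 0) (hA : A.LiesOverPrime q) (hS0 : IsGaussRed M₀ A S0)
    (Soo : ValSetup Qb (FBar (M₀ * q * q)) (IsLocalRing.ResidueField A)
      (modularFunctionFieldFullC (IsLocalRing.ResidueField A) M₀))
    (hSoo : IsGaussSetup (M₀ * q * q) M₀ A Soo)
    (D₀ : ALData) (hM₀ : M₀ * q * q = D₀.Q * D₀.R) (hDQ : D₀.Q = q ^ 2)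
    (I : IgPack M₀ q A)
    (hES : E.S = vtxFamily Soo (valSetupZeroAt D₀ hM₀ Soo) I.S (fun P => (O P).S))
    (hn : 2 ≤ nn) (hb : E.ϖ1 ^ nn = b) (h12 : E.ϖ1 * E.ϖ2 = b)
    (hu2 : E.u2 = E.u1 / algebraMap Qb (FBar (M₀ * q * q)) E.ϖ1)
    (hD₀ : E.D₀ = poleDiv (E.S (Vtx.vert Vrt.oo)).hF (E.ymodX b nn))
    (hdeg : Divisor.degree (poleDiv (E.S (Vtx.vert Vrt.oo)).hF (E.ymodX b nn)) ≤
      ∑ c, Divisor.degree (poleDiv (E.S c).hFk ((E.S c).red (E.ymodX b nn))))
    (hgenus : genusFF Qb (FBar (M₀ * q * q)) + Fintype.card (Vtx (Fin (midCard q)) SS) ≤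
      (∑ c, genusFF (IsLocalRing.ResidueField A)
        (FkOf ↥(modularFunctionFieldFullC (IsLocalRing.ResidueField A) M₀)
          (fun _ : Fin (midCard q) => ↥(igField (IsLocalRing.ResidueField A) M₀)) FkP c)) +
        Fintype.card (Nod (Fin (midCard q)) SS) + 1)
    (hx2 : EndsRed2 E.S (fun P => (O P).H) E.u2)
    (n : ℕ) (hn0 : n ≠ 0) :
    CboStep12 M₀ q A (E.ymodSeed hn hb h12 hu2 hD₀ hdeg hgenus).graphSetup n :=
  step12_final hq hqM hν2 hν3 A hA hS0 (E.ymodSeed hn hb h12 hu2 hD₀ hdeg hgenus).graphSetup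
    (fun _ => rfl) Soo hSoo D₀ hM₀ hDQ I Pl O hES
    (fun P Q i h => cbi_hends E (fun P => (O P).H) hn hb h12 hu2 hD₀ hdeg hgenus hx2 P Q i h)
    n hn0

end Step12

end Fermat.Agent.S36G
end
end MergeWrap_S36_G_CbiStep12

section MergeWrap_S36_G_CoreBundleEnds -- from S36/G/CoreBundleEnds.lean

set_option autoImplicit false
set_option linter.style.haveILetI false
set_option linter.unusedSectionVars false
set_option linter.unusedVariables false
set_option synthInstance.maxHeartbeats 400000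
set_option maxHeartbeats 1600000

noncomputable section

open AlgebraicCurve Fermat.Agent.RR Fermat.Agent.Deuring

namespace Fermat.Agent.S36G

open ModularCurve Fermat.Agent.F3 Fermat.Agent.F3G Fermat.Agent.GaussInt
  Fermat.Agent.AtkinLehner Fermat.Agent.Kronecker Fermat.Agent.BadRed Fermat.Agent.BadRedG
  Fermat.Agent.HP Fermat.Agent.HPVal

local notation "Qb" => AlgebraicClosure ℚ

attribute [local instance] Fermat.Agent.GaussInt.isAlgClosed_residue
  Fermat.Agent.GaussInt.infinite_residue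

attribute [local instance 10000] SubalgebraClass.toAlgebra HahnSeries.powerSeriesAlgebra

/-- `ϖ1 * ϖ2 = b` for `ϖ1 = ϖ ^ 12`, `ϖ2 = q ^ 12 / ϖ ^ 12`, `b = (ϖ ^ 12) ^ (q + 1)`. -/
theorem cbi_h12 {q : ℕ} {ϖ : Qb} (h0 : ϖ ≠ 0) (hϖ : ϖ ^ (q + 1) = (q : Qb)) :
    ϖ ^ 12 * ((q : Qb) ^ 12 / ϖ ^ 12) = (ϖ ^ 12) ^ (q + 1) := by
  have h1 : ϖ ^ 12 ≠ 0 := pow_ne_zero 12 h0
  rw [mul_div_cancel₀ _ h1, ← pow_mul, mul_comm 12 (q + 1), pow_mul, hϖ]

/-- `b = q ^ 12`. -/
theorem cbi_hbq {q : ℕ} {ϖ : Qb} (hϖ : ϖ ^ (q + 1) = (q : Qb)) :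
    (ϖ ^ 12) ^ (q + 1) = (q : Qb) ^ 12 := by
  rw [← pow_mul, mul_comm 12 (q + 1), pow_mul, hϖ]

/-- `ϖ2 = ϖ ^ (12 q)`. -/
theorem cbi_hϖ2 {q : ℕ} {ϖ : Qb} (h0 : ϖ ≠ 0) (hϖ : ϖ ^ (q + 1) = (q : Qb)) :
    (q : Qb) ^ 12 / ϖ ^ 12 = ϖ ^ (12 * q) := by
  have h1 : ϖ ^ 12 ≠ 0 := pow_ne_zero 12 h0
  rw [div_eq_iff h1, ← hϖ, ← pow_mul, ← pow_add]
  congr 1
  ring

/-- `ϖ ≠ 0`. -/
theorem cbi_ϖ_ne {q : ℕ} (hq : q.Prime) {ϖ : Qb} (hϖ : ϖ ^ (q + 1) = (q : Qb)) : ϖ ≠ 0 := by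
  intro h
  rw [h, zero_pow (Nat.succ_ne_zero q)] at hϖ
  exact (Nat.cast_ne_zero.mpr hq.ne_zero) hϖ.symm

section Ends

variable {M₀ q : ℕ} [NeZero M₀] [NeZero q] [hN₁ : NeZero (M₀ * q)] {A : ValuationSubring Qb}
  {SS : Type} [Fintype SS] [Nonempty SS]
  {FkP : SS → Type} [∀ P, Field (FkP P)] [∀ P, Algebra (IsLocalRing.ResidueField A) (FkP P)]
  (E : ModEndsInput Qb (FBar (M₀ * q * q)) (IsLocalRing.ResidueField A) (Fin (midCard q)) SS
    ↥(modularFunctionFieldFullC (IsLocalRing.ResidueField A) M₀)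
    (fun _ : Fin (midCard q) => ↥(igField (IsLocalRing.ResidueField A) M₀)) FkP)
  {S0 : Fermat.Agent.S18Key.RedSetup Qb (FBar M₀) (IsLocalRing.ResidueField A)
    ↥(modularFunctionFieldFullC (IsLocalRing.ResidueField A) M₀)}
  {Pl : SS → Place (IsLocalRing.ResidueField A)
    ↥(modularFunctionFieldFullC (IsLocalRing.ResidueField A) M₀)}
  (O : ∀ P : SS, WPOut M₀ q A S0 (Pl P) (FkP P))

/-- **the bundle from the junction outputs** for a `ModEndsInput` of the modular shape. -/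
theorem cbi_of_ends (hq : q.Prime) (hqM : ¬ q ∣ M₀) (hA : A.LiesOverPrime q)
    (hν2 : nuTwo M₀ = 0) (hν3 : nuThree M₀ = 0) (hS0 : IsGaussRed M₀ A S0)
    (Soo : ValSetup Qb (FBar (M₀ * q * q)) (IsLocalRing.ResidueField A)
      (modularFunctionFieldFullC (IsLocalRing.ResidueField A) M₀))
    (hSoo : IsGaussSetup (M₀ * q * q) M₀ A Soo)
    (D₀ : ALData) (hM₀ : M₀ * q * q = D₀.Q * D₀.R) (hDQ : D₀.Q = q ^ 2)
    (I : IgPack M₀ q A)
    (hES : E.S = vtxFamily Soo (valSetupZeroAt D₀ hM₀ Soo) I.S (fun P => (O P).S))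
    (hu1 : E.u1 = uF (M₀ * q * q) q (nsm_dvd (M₀ * q) q))
    (huA : E.uA = uF2 (M₀ * q * q) q (satc_sq_dvd (M₀ * q) q (Dvd.intro_left M₀ rfl)))
    (hu2 : E.u2 = E.u1 / algebraMap Qb (FBar (M₀ * q * q)) E.ϖ1)
    {ϖ : Qb} (hϖ : ϖ ^ (q + 1) = (q : Qb))
    (h1 : E.ϖ1 = ϖ ^ 12) (h2 : E.ϖ2 = (q : Qb) ^ 12 / ϖ ^ 12)
    (hD₀ : E.D₀ = poleDiv (E.S (Vtx.vert Vrt.oo)).hF (E.ymodX ((ϖ ^ 12) ^ (q + 1)) (q + 1)))
    (hgenus : genusFF Qb (FBar (M₀ * q * q)) + Fintype.card (Vtx (Fin (midCard q)) SS) ≤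
      (∑ c, genusFF (IsLocalRing.ResidueField A)
        (FkOf ↥(modularFunctionFieldFullC (IsLocalRing.ResidueField A) M₀)
          (fun _ : Fin (midCard q) => ↥(igField (IsLocalRing.ResidueField A) M₀)) FkP c)) +
        Fintype.card (Nod (Fin (midCard q)) SS) + 1)
    (hxA : EndsRedA E.S (fun P => (O P).H)
      (algebraMap Qb (FBar (M₀ * q * q)) E.ϖA / E.uA))
    (hx2 : EndsRed2 E.S (fun P => (O P).H) E.u2)
    (ι : SS → Place (IsLocalRing.ResidueField A)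
      ↥(modularFunctionFieldFullC (IsLocalRing.ResidueField A) M₀))
    (hpv : haveI : Fact q.Prime := ⟨hq⟩
      haveI : CharP (IsLocalRing.ResidueField A) q :=
        Fermat.Agent.FrobTrace.charP_residueField A hA
      ∀ P v, E.pv P v = sevPv M₀ q hq hqM (IsLocalRing.ResidueField A) FkP ι P v)
    (hSS : ∀ P, IsSSPlace (IsLocalRing.ResidueField A) M₀ q (ι P))
    (hno : ∀ P, ∀ u : ↥(modularFunctionFieldFullC (IsLocalRing.ResidueField A) M₀),
      (u : LaurentSeries (IsLocalRing.ResidueField A)) = ssFun (IsLocalRing.ResidueField A) q →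
        (ι P).ord u = 12) :
    Nonempty (CoreBundle (M₀ * q) q A) := by
  haveI : Fact q.Prime := ⟨hq⟩
  haveI : CharP (IsLocalRing.ResidueField A) q := Fermat.Agent.FrobTrace.charP_residueField A hA
  have hϖ0 : ϖ ≠ 0 := cbi_ϖ_ne hq hϖ
  have hn : 2 ≤ q + 1 := by have := hq.one_lt; omega
  have hb : E.ϖ1 ^ (q + 1) = (ϖ ^ 12) ^ (q + 1) := by rw [h1]
  have h12 : E.ϖ1 * E.ϖ2 = (ϖ ^ 12) ^ (q + 1) := by rw [h1, h2]; exact cbi_h12 hϖ0 hϖ
  have hdeg := E.ymodX_hdeg hn hb h12 hu2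
  have hEA : (E.S (Vtx.vert Vrt.oo)).A = A :=
    cbo_hEA E Soo (valSetupZeroAt D₀ hM₀ Soo) I.S (fun P => (O P).S) hES hSoo
  refine nonempty_coreBundleOfEnds E hq hqM hA hn hb h12 hu2 hD₀ hdeg hgenus hEA D₀ hM₀ hDQ
    ?_ ?_ ?_
  · -- STEP12
    intro n hn0 _
    exact cbi_hStep12 E O hq hqM hν2 hν3 hA hS0 Soo hSoo D₀ hM₀ hDQ I hES hn hb h12 hu2 hD₀
      hdeg hgenus hx2 n hn0
  · -- COC
    intro n hn0 _
    exact cboNorm_of_ends E hn hb h12 hu2 hD₀ hdeg hgenus hq hqM hA hν2 hν3 D₀ hM₀ hDQ O I hSoo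
      hES hxA hx2 ι hpv hSS hno hu1 huA n _
  · -- F3
    intro n _ _
    exact f3a_hact E hq hqM hA (igMidDistinct_aux M₀ q hν2 hν3) (igMidSetupExists_aux M₀ q hν2 hν3)
      I hSoo D₀ hM₀ hS0 O hES (nsm_dvd (M₀ * q) q) hu1 hu2 hϖ0 (Nat.succ_pos q) hϖ h1
      ((h2.trans (cbi_hϖ2 hϖ0 hϖ))) (cbi_hbq hϖ) (q + 1) n

end Ends

end Fermat.Agent.S36G
end
end MergeWrap_S36_G_CoreBundleEnds

section MergeWrap_S36_Reg_RegNode -- from S36/Reg/RegNode.lean

set_option autoImplicit false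
set_option linter.unusedSectionVars false
set_option linter.unusedVariables false

noncomputable section

open AlgebraicCurve Fermat.Agent.RR Fermat.Agent.Deuring Fermat.Agent.BadRed Fermat.Agent.EKp
  Fermat.Agent.PeuD

namespace Fermat.Agent.S36RegN

variable {K F k Fk₁ Fk₂ : Type*} [Field K] [Field F] [Algebra K F]
  [Field k] [Field Fk₁] [Algebra k Fk₁] [Field Fk₂] [Algebra k Fk₂] {ι : Type*} [Fintype ι]

variable {N : NodalSeed K F k Fk₁ Fk₂ ι}

/-- a nonzero function of order `0` has a nonzero value. -/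
theorem ne_zero_of_valAt_of_ord_eq_zero {k' F' : Type*} [Field k'] [Field F'] [Algebra k' F']
    {Q : Place k' F'} {g : F'} {d : k'} (hg : g ≠ 0) (hord : Q.ord g = 0) (h : ValAt Q g d) :
    d ≠ 0 := by
  rintro rfl
  rcases h with h | h
  · rw [map_zero] at h
    exact hg h
  · rw [map_zero, sub_zero] at h
    omega

/-- division by a nonzero constant does not change the orders. -/
theorem regNode_ord_div_const (P : Place K F) (f : F) {c : K} (hc : c ≠ 0) :
    P.ord (f / algebraMap K F c) = P.ord f := by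
  rcases eq_or_ne f 0 with rfl | hf
  · rw [zero_div]
  have hca : algebraMap K F c ≠ 0 := (map_ne_zero (algebraMap K F)).mpr hc
  rw [div_eq_mul_inv, P.ord_mul hf (inv_ne_zero hca), P.ord_inv,
    Fermat.Agent.S24Res.ord_algebraMap, neg_zero, add_zero]

theorem regNode_ord_pow {K' F' : Type*} [Field K'] [Field F'] [Algebra K' F'] (Q : Place K' F')
    (f : F') (n : ℕ) : Q.ord (f ^ n) = n * Q.ord f := by
  have := Q.ord_zpow f (n : ℤ)
  rwa [zpow_natCast] at this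

/-- the auxiliary function `f = (θ / c) ^ ε u ^ a` of `regNode`: membership, reductions and the
common nonzero value at the node. -/
theorem regNode_aux [Infinite k] {u : F} {ϖ : K} {ε a : ℕ} {i : ι}
    (hu₁ : N.S₁.red u ≠ 0) (hw₂ : N.S₂.red (algebraMap K F ϖ * u⁻¹) ≠ 0)
    (hε₂ : (N.s₂ i).ord (N.S₂.red (algebraMap K F ϖ * u⁻¹)) = ε)
    (hu : NoPoleAtNode N i u)
    {θ : F} (hθ : NoPoleAtNode N i θ) {c : K} (hc : c ≠ 0) (hcϖ : c ^ ε = ϖ ^ a)
    (h₁ : θ / algebraMap K F c ∈ N.S₁.Ov)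
    (h₂ : N.S₂.red θ ≠ 0) (ha : (N.s₂ i).ord (N.S₂.red θ) = a) :
    (θ / algebraMap K F c) ^ ε * u ^ a ∈ N.S₁.Ov ∧
      (θ / algebraMap K F c) ^ ε * u ^ a ∈ N.S₂.Ov ∧
      NoPoleAtNode N i ((θ / algebraMap K F c) ^ ε * u ^ a) ∧
      ∃ d : k, d ≠ 0 ∧ NodeValAt N i ((θ / algebraMap K F c) ^ ε * u ^ a) d := by
  classical
  have hθ0 : θ ≠ 0 := N.S₂.ne_zero_of_red_ne_zero h₂
  have hu0 : u ≠ 0 := N.S₁.ne_zero_of_red_ne_zero hu₁
  have hw0 : algebraMap K F ϖ * u⁻¹ ≠ 0 := N.S₂.ne_zero_of_red_ne_zero hw₂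
  have hϖF : algebraMap K F ϖ ≠ 0 := left_ne_zero_of_mul hw0
  have hcF : algebraMap K F c ≠ 0 := (map_ne_zero (algebraMap K F)).mpr hc
  have hθm₂ : θ ∈ N.S₂.Ov := N.S₂.mem_of_red_ne_zero h₂
  have hum₁ : u ∈ N.S₁.Ov := N.S₁.mem_of_red_ne_zero hu₁
  have hwm₂ : algebraMap K F ϖ * u⁻¹ ∈ N.S₂.Ov := N.S₂.mem_of_red_ne_zero hw₂
  have hwi₂ : (algebraMap K F ϖ * u⁻¹)⁻¹ ∈ N.S₂.Ov := N.S₂.inv_mem_of_red_ne_zero hw₂
  set f : F := (θ / algebraMap K F c) ^ ε * u ^ a with hf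
  -- the second shape of `f`
  have hf' : f = θ ^ ε * ((algebraMap K F ϖ * u⁻¹)⁻¹) ^ a := by
    have hcε : algebraMap K F c ^ ε = algebraMap K F ϖ ^ a := by
      rw [← map_pow, ← map_pow, hcϖ]
    rw [hf, div_pow, hcε, mul_inv, inv_inv, mul_pow, inv_pow]
    field_simp
  have hf₁ : f ∈ N.S₁.Ov := mul_mem (pow_mem h₁ ε) (pow_mem hum₁ a)
  have hf₂ : f ∈ N.S₂.Ov := by
    rw [hf']
    exact mul_mem (pow_mem hθm₂ ε) (pow_mem hwi₂ a)
  have hpole : NoPoleAtNode N i f := by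
    intro P hP
    have h1 : 0 ≤ P.ord θ := hθ P hP
    have h2 : 0 ≤ P.ord u := hu P hP
    have h3 : P.ord (θ / algebraMap K F c) = P.ord θ := regNode_ord_div_const P θ hc
    rw [hf, P.ord_mul (pow_ne_zero _ (div_ne_zero hθ0 hcF)) (pow_ne_zero _ hu0),
      regNode_ord_pow, regNode_ord_pow, h3]
    positivity
  -- the reduction on the second side has order `0` at the node
  have hred₂ : N.S₂.red f =
      N.S₂.red θ ^ ε * ((N.S₂.red (algebraMap K F ϖ * u⁻¹))⁻¹) ^ a := by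
    rw [hf', N.S₂.red_mul (pow_mem hθm₂ ε) (pow_mem hwi₂ a), N.S₂.red_pow hθm₂,
      N.S₂.red_pow hwi₂, N.S₂.red_inv hwm₂ hwi₂ hw0]
  have hred₂0 : N.S₂.red f ≠ 0 := by
    rw [hred₂]
    exact mul_ne_zero (pow_ne_zero _ h₂) (pow_ne_zero _ (inv_ne_zero hw₂))
  have hord₂ : (N.s₂ i).ord (N.S₂.red f) = 0 := by
    rw [hred₂, (N.s₂ i).ord_mul (pow_ne_zero _ h₂) (pow_ne_zero _ (inv_ne_zero hw₂)),
      regNode_ord_pow, regNode_ord_pow, (N.s₂ i).ord_inv, ha, hε₂]
    ring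
  obtain ⟨-, -, d, hd⟩ := node_loc hf₁ hf₂ hpole
  exact ⟨hf₁, hf₂, hpole, d, ne_zero_of_valAt_of_ord_eq_zero hred₂0 hord₂ hd.2, hd⟩

/-- **REG (node form)**: integrality on the first side forces the exact slope. -/
theorem regNode [Infinite k] {u : F} {ϖ : K} {ε a : ℕ} {i : ι} (hε : 0 < ε)
    (hu₁ : N.S₁.red u ≠ 0) (hw₂ : N.S₂.red (algebraMap K F ϖ * u⁻¹) ≠ 0)
    (hε₁ : (N.s₁ i).ord (N.S₁.red u) = ε)
    (hε₂ : (N.s₂ i).ord (N.S₂.red (algebraMap K F ϖ * u⁻¹)) = ε)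
    (hu : NoPoleAtNode N i u)
    {θ : F} (hθ : NoPoleAtNode N i θ) {c : K} (hc : c ≠ 0) (hcϖ : c ^ ε = ϖ ^ a)
    (h₁ : θ / algebraMap K F c ∈ N.S₁.Ov)
    (h₂ : N.S₂.red θ ≠ 0) (ha : (N.s₂ i).ord (N.S₂.red θ) = a) :
    N.S₁.red (θ / algebraMap K F c) ≠ 0 ∧
      (N.s₁ i).ord (N.S₁.red (θ / algebraMap K F c)) = -(a : ℤ) := by
  classical
  obtain ⟨hf₁, hf₂, hpole, d, hd0, hd⟩ :=
    regNode_aux hu₁ hw₂ hε₂ hu hθ hc hcϖ h₁ h₂ ha
  have hum₁ : u ∈ N.S₁.Ov := N.S₁.mem_of_red_ne_zero hu₁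
  have hred₁ : N.S₁.red ((θ / algebraMap K F c) ^ ε * u ^ a) =
      N.S₁.red (θ / algebraMap K F c) ^ ε * N.S₁.red u ^ a := by
    rw [N.S₁.red_mul (pow_mem h₁ ε) (pow_mem hum₁ a), N.S₁.red_pow h₁, N.S₁.red_pow hum₁]
  have hord₁ := Gluing.ord_eq_zero_of_valAt hd.1 hd0
  have hne₁ : N.S₁.red ((θ / algebraMap K F c) ^ ε * u ^ a) ≠ 0 := by
    intro h0
    have hd1 : ValAt (N.s₁ i) (N.S₁.red ((θ / algebraMap K F c) ^ ε * u ^ a)) d := hd.1
    rw [h0] at hd1
    exact hd0 (hd1.unique (valAt_zero _))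
  rw [hred₁] at hord₁ hne₁
  have hδ : N.S₁.red (θ / algebraMap K F c) ≠ 0 := by
    intro h0
    rw [h0, zero_pow hε.ne', zero_mul] at hne₁
    exact hne₁ rfl
  refine ⟨hδ, ?_⟩
  rw [(N.s₁ i).ord_mul (pow_ne_zero _ hδ) (pow_ne_zero _ hu₁), regNode_ord_pow, regNode_ord_pow,
    hε₁] at hord₁
  have hε' : (0 : ℤ) < ε := by exact_mod_cast hε
  have h3 : (ε : ℤ) * ((N.s₁ i).ord (N.S₁.red (θ / algebraMap K F c)) + a) = 0 := by
    rw [mul_add]
    linarith [mul_comm (a : ℤ) (ε : ℤ)]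
  rcases mul_eq_zero.mp h3 with h | h
  · omega
  · omega

/-- **REG (node form), by-product**: `θ` has no zero at the places of type N with node `i`. -/
theorem regNode_noDiv [Infinite k] {u : F} {ϖ : K} {ε a : ℕ} {i : ι} (hε : 0 < ε)
    (hu₁ : N.S₁.red u ≠ 0) (hw₂ : N.S₂.red (algebraMap K F ϖ * u⁻¹) ≠ 0)
    (hε₂ : (N.s₂ i).ord (N.S₂.red (algebraMap K F ϖ * u⁻¹)) = ε)
    (hu : NoPoleAtNode N i u)
    {θ : F} (hθ : NoPoleAtNode N i θ) {c : K} (hc : c ≠ 0) (hcϖ : c ^ ε = ϖ ^ a)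
    (h₁ : θ / algebraMap K F c ∈ N.S₁.Ov)
    (h₂ : N.S₂.red θ ≠ 0) (ha : (N.s₂ i).ord (N.S₂.red θ) = a) :
    NoDivAtNode N i θ := by
  classical
  obtain ⟨hf₁, hf₂, hpole, d, hd0, hd⟩ :=
    regNode_aux hu₁ hw₂ hε₂ hu hθ hc hcϖ h₁ h₂ ha
  have hθ0 : θ ≠ 0 := N.S₂.ne_zero_of_red_ne_zero h₂
  have hu0 : u ≠ 0 := N.S₁.ne_zero_of_red_ne_zero hu₁
  have hcF : algebraMap K F c ≠ 0 := (map_ne_zero (algebraMap K F)).mpr hc
  intro P hP
  have h1 : 0 ≤ P.ord θ := hθ P hP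
  by_contra hne
  have hpos : 0 < P.ord θ := lt_of_le_of_ne h1 (Ne.symm hne)
  have h2 : 0 ≤ P.ord u := hu P hP
  have h3 : P.ord (θ / algebraMap K F c) = P.ord θ := regNode_ord_div_const P θ hc
  have hford : 0 < P.ord ((θ / algebraMap K F c) ^ ε * u ^ a) := by
    rw [P.ord_mul (pow_ne_zero _ (div_ne_zero hθ0 hcF)) (pow_ne_zero _ hu0),
      regNode_ord_pow, regNode_ord_pow, h3]
    have hε' : (0 : ℤ) < ε := by exact_mod_cast hε
    have : 0 < (ε : ℤ) * P.ord θ := mul_pos hε' hpos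
    have : 0 ≤ (a : ℤ) * P.ord u := mul_nonneg (by positivity) h2
    omega
  have hval : ValAt P ((θ / algebraMap K F c) ^ ε * u ^ a) 0 :=
    Or.inr (by rwa [map_zero, sub_zero])
  obtain ⟨hcA, hv⟩ := eval_loc hf₁ hf₂ hpole hP hval
  have e0 : N.S₁.res ⟨0, hcA⟩ = 0 := map_zero N.S₁.res
  rw [e0] at hv
  exact hd0 (hd.unique hv)

end Fermat.Agent.S36RegN
end
end MergeWrap_S36_Reg_RegNode

section MergeWrap_S36_Seed_UNode -- from S36/Seed/UNode.lean

set_option autoImplicit false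
set_option linter.style.haveILetI false
set_option linter.unusedSectionVars false
set_option linter.unusedVariables false
set_option synthInstance.maxHeartbeats 400000
set_option maxHeartbeats 1000000

noncomputable section

namespace Fermat.Agent.S36G

open IntermediateField ModularCurve AlgebraicCurve Fermat.Agent.F3 Fermat.Agent.F3G
  Fermat.Agent.GaussInt Fermat.Agent.AtkinLehner Fermat.Agent.Deuring Fermat.Agent.RR
  Fermat.Agent.BadRed Fermat.Agent.EKp Fermat.Agent.PeuD Fermat.Agent.S36RegN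

local notation "Qb" => AlgebraicClosure ℚ
attribute [local instance 10000] SubalgebraClass.toAlgebra HahnSeries.powerSeriesAlgebra

attribute [local instance] Fermat.Agent.BadRed.fwFintype

/-! ### the functions -/

section Defs

variable (D : ALData) [NeZero D.Q] [NeZero D.R] [NeZero (D.Q * D.R)]

/-- `θ = t₁ - t₀ ^ q`. -/
def unodeTheta (t : modularFunctionFieldBar D.R) : modularFunctionFieldBar (D.Q * D.R) :=
  betaQ D t - alphaQ D t ^ D.Q

/-- `Z = t₀ - t₁ ^ q`. -/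
def unodeZ (t : modularFunctionFieldBar D.R) : modularFunctionFieldBar (D.Q * D.R) :=
  alphaQ D t - betaQ D t ^ D.Q

/-- `H = (θ / q) ^ 12 u₁`. -/
def unodeH (t : modularFunctionFieldBar D.R) : modularFunctionFieldBar (D.Q * D.R) :=
  (unodeTheta D t / algebraMap Qb (modularFunctionFieldBar (D.Q * D.R)) (D.Q : Qb)) ^ 12 * fwU D

/-- `R = - (θ / q) Z`. -/
def unodeR (t : modularFunctionFieldBar D.R) : modularFunctionFieldBar (D.Q * D.R) :=
  -(unodeTheta D t / algebraMap Qb (modularFunctionFieldBar (D.Q * D.R)) (D.Q : Qb) * unodeZ D t)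

/-- `u₁ R ^ 12 = H Z ^ 12`. -/
theorem unode_rel (t : modularFunctionFieldBar D.R) :
    fwU D * unodeR D t ^ 12 = unodeH D t * unodeZ D t ^ 12 := by
  unfold unodeH unodeR
  ring

/-- `θ Z = - q R`. -/
theorem unode_theta_mul_Z (hq : D.Q.Prime) (t : modularFunctionFieldBar D.R) :
    unodeTheta D t * unodeZ D t =
      -(algebraMap Qb (modularFunctionFieldBar (D.Q * D.R)) (D.Q : Qb) * unodeR D t) := by
  have hq0 : algebraMap Qb (modularFunctionFieldBar (D.Q * D.R)) (D.Q : Qb) ≠ 0 :=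
    (map_ne_zero _).mpr (by exact_mod_cast hq.ne_zero)
  unfold unodeR
  field_simp

theorem atkinLehner_unodeTheta (t : modularFunctionFieldBar D.R) :
    atkinLehner D (unodeTheta D t) = unodeZ D t := by
  unfold unodeTheta unodeZ
  rw [map_sub, map_pow, atkinLehner_betaQ, atkinLehner_alphaQ]

theorem atkinLehner_unodeZ (t : modularFunctionFieldBar D.R) :
    atkinLehner D (unodeZ D t) = unodeTheta D t := by
  unfold unodeTheta unodeZ
  rw [map_sub, map_pow, atkinLehner_betaQ, atkinLehner_alphaQ]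

/-- `R` is fixed by `w_q`. -/
theorem atkinLehner_unodeR (t : modularFunctionFieldBar D.R) :
    atkinLehner D (unodeR D t) = unodeR D t := by
  unfold unodeR
  rw [map_neg, map_mul, map_div₀, atkinLehner_unodeTheta, atkinLehner_unodeZ, AlgEquiv.commutes]
  unfold unodeTheta unodeZ
  ring

/-- `w_q H = (Z / q) ^ 12 (q ^ 12 / u₁)` in the form `(Z / q) ^ 12 w_q u₁`. -/
theorem atkinLehner_unodeH (t : modularFunctionFieldBar D.R) :
    atkinLehner D (unodeH D t) =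
      (unodeZ D t / algebraMap Qb (modularFunctionFieldBar (D.Q * D.R)) (D.Q : Qb)) ^ 12 *
        atkinLehner D (fwU D) := by
  unfold unodeH
  rw [map_mul, map_pow, map_div₀, atkinLehner_unodeTheta, AlgEquiv.commutes]

end Defs

/-- the order of a fixed function at the place transported by the inverse. -/
theorem unode_ord_inv_smul_of_fixed {K' F' : Type*} [Field K'] [Field F'] [Algebra K' F']
    (g : SemilinearAut K' F') (Q : Place K' F') (f : F') (hf : g • f = f) :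
    (g⁻¹ • Q).ord f = Q.ord f := by
  have h1 := SemilinearAut.ord_smul g⁻¹ Q (g • f)
  rw [inv_smul_smul] at h1
  rw [h1, hf]

/-! ### the node values -/

section Main

variable (D : ALData) [NeZero D.Q] [NeZero D.R] [NeZero (D.Q * D.R)]
  (A : ValuationSubring Qb) (hq : D.Q.Prime) (hA : A.LiesOverPrime D.Q) (hqR : ¬ D.Q ∣ D.R)
  [Fact D.Q.Prime] [CharP (IsLocalRing.ResidueField A) D.Q]
  [PerfectRing (IsLocalRing.ResidueField A) D.Q]

/-- **the local hypotheses of UP-NV at the node `i`.** -/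
structure UNodeHyp (haux : AuxLevelOK D.Q D.R) (t : modularFunctionFieldBar D.R)
    (z : LaurentSeries A) (i : kpIota D A hq hA hqR) : Prop where
  /-- `t` has an integral Frobenius-stable expansion -/
  frob : IsFrobInt D A t z
  /-- `α t` has no pole at the places of type N with node `i` -/
  pole_alpha : NoPoleAtNode (kpSeed D A hq hA hqR haux) i (alphaQ D t)
  /-- `β t` has no pole at the places of type N with node `i` -/
  pole_beta : NoPoleAtNode (kpSeed D A hq hA hqR haux) i (betaQ D t)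
  /-- `t̄ - t̄ ^ (q²)` has a simple zero at the supersingular place `i.1` -/
  ord : i.1.ord ((kpS D A hq hA hqR).red (alphaQ D t) -
    (kpS D A hq hA hqR).red (alphaQ D t) ^ (D.Q ^ 2)) = 1
  /-- `ε_i = 12` -/
  eps : kpEps D A hq hA hqR i = 12

variable {D A hq hA hqR}
variable {haux : AuxLevelOK D.Q D.R} {t : modularFunctionFieldBar D.R} {z : LaurentSeries A}
  {i : kpIota D A hq hA hqR}

namespace UNodeHyp

/-- the global form of the two pole conditions. -/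
theorem of_global (hF : IsFrobInt D A t z)
    (hnp : ∀ P : Place Qb (modularFunctionFieldBar (D.Q * D.R)),
      (kpSeed D A hq hA hqR haux).rmap P = none →
        0 ≤ P.ord (alphaQ D t) ∧ 0 ≤ P.ord (betaQ D t))
    (hord : i.1.ord ((kpS D A hq hA hqR).red (alphaQ D t) -
      (kpS D A hq hA hqR).red (alphaQ D t) ^ (D.Q ^ 2)) = 1)
    (heps : kpEps D A hq hA hqR i = 12) : UNodeHyp D A hq hA hqR haux t z i :=
  ⟨hF, fun P hP => (hnp P hP.1).1, fun P hP => (hnp P hP.1).2, hord, heps⟩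

variable (h : UNodeHyp D A hq hA hqR haux t z i)

include h

theorem theta_noPole : NoPoleAtNode (kpSeed D A hq hA hqR haux) i (unodeTheta D t) := by
  intro P hP
  have h1 := Fermat.Agent.S24Res.mem_of_ord_nonneg P (h.pole_alpha P hP)
  have h2 := Fermat.Agent.S24Res.mem_of_ord_nonneg P (h.pole_beta P hP)
  exact Fermat.Agent.S24Res.ord_nonneg_of_mem P (sub_mem h2 (pow_mem h1 _))

theorem Z_noPole : NoPoleAtNode (kpSeed D A hq hA hqR haux) i (unodeZ D t) := by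
  intro P hP
  have h1 := Fermat.Agent.S24Res.mem_of_ord_nonneg P (h.pole_alpha P hP)
  have h2 := Fermat.Agent.S24Res.mem_of_ord_nonneg P (h.pole_beta P hP)
  exact Fermat.Agent.S24Res.ord_nonneg_of_mem P (sub_mem h1 (pow_mem h2 _))

/-- `t̄ - t̄ ^ (q²)` is fixed by the Frobenius of the coefficients. -/
theorem frobAut_smul_tbar :
    frobAut (IsLocalRing.ResidueField A) D.R D.Q •
        ((kpS D A hq hA hqR).red (alphaQ D t) -
          (kpS D A hq hA hqR).red (alphaQ D t) ^ (D.Q ^ 2)) =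
      (kpS D A hq hA hqR).red (alphaQ D t) -
        (kpS D A hq hA hqR).red (alphaQ D t) ^ (D.Q ^ 2) := by
  have hx : frobAut (IsLocalRing.ResidueField A) D.R D.Q •
      (kpS D A hq hA hqR).red (alphaQ D t) = (kpS D A hq hA hqR).red (alphaQ D t) := by
    apply Subtype.ext
    rw [coe_frobAut_smul]
    exact h.frob.coeffMap_frobenius_red_alpha (isGaussSetup_gaussSetupBad D hq hqR A hA)
  rw [smul_sub, smul_pow', hx]

/-- the order of `t̄ - t̄ ^ (q²)` at the second branch `τ⁻¹ P`. -/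
theorem ord_inv :
    ((frobAut (IsLocalRing.ResidueField A) D.R D.Q)⁻¹ • i.1).ord
        ((kpS D A hq hA hqR).red (alphaQ D t) -
          (kpS D A hq hA hqR).red (alphaQ D t) ^ (D.Q ^ 2)) = 1 := by
  exact (unode_ord_inv_smul_of_fixed _ i.1 _ h.frobAut_smul_tbar).trans h.ord

theorem tbar_ne_zero :
    (kpS D A hq hA hqR).red (alphaQ D t) -
      (kpS D A hq hA hqR).red (alphaQ D t) ^ (D.Q ^ 2) ≠ 0 := by
  intro h0
  have := h.ord
  rw [h0, Place.ord_zero] at this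
  exact absurd this (by norm_num)

end UNodeHyp

/-- `ord (-f) = ord f`. -/
theorem unode_ord_neg {K' F' : Type*} [Field K'] [Field F'] [Algebra K' F'] (Q : Place K' F')
    (f : F') : Q.ord (-f) = Q.ord f := by
  rcases eq_or_ne f 0 with rfl | hf
  · rw [neg_zero]
  have h1 : (-f) = algebraMap K' F' (-1) * f := by
    rw [map_neg, map_one, neg_one_mul]
  have h2 : algebraMap K' F' (-1 : K') ≠ 0 := (map_ne_zero _).mpr (by norm_num)
  rw [h1, Q.ord_mul h2 hf, Fermat.Agent.S24Res.ord_algebraMap, zero_add]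

/-- **UP-NV for `H = (θ / q) ^ 12 u₁`**: `H ∈ O_∞ ∩ O_0`, no pole of type N at the node `i`,
and the two reductions take the same NONZERO value on the two branches of the node. -/
theorem unode_H (h : UNodeHyp D A hq hA hqR haux t z i) :
    unodeH D t ∈ (kpS D A hq hA hqR).Ov ∧
      atkinLehner D (unodeH D t) ∈ (kpS D A hq hA hqR).Ov ∧
      NoPoleAtNode (kpSeed D A hq hA hqR haux) i (unodeH D t) ∧
      ∃ d : IsLocalRing.ResidueField A, d ≠ 0 ∧
        ValAt i.1 ((kpS D A hq hA hqR).red (unodeH D t)) d ∧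
        ValAt ((frobAut (IsLocalRing.ResidueField A) D.R D.Q)⁻¹ • i.1)
          ((kpS D A hq hA hqR).red (atkinLehner D (unodeH D t))) d := by
  haveI := infinite_residue A
  have hS := isGaussSetup_gaussSetupBad D hq hqR A hA
  have hq0 : (D.Q : Qb) ≠ 0 := by exact_mod_cast hq.ne_zero
  have hε₂ : ((kpSeed D A hq hA hqR haux).s₂ i).ord
      ((kpSeed D A hq hA hqR haux).S₂.red
        (algebraMap Qb (modularFunctionFieldBar (D.Q * D.R)) (fwPi D) * (fwU D)⁻¹)) =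
      ((12 : ℕ) : ℤ) := by
    rw [wu_eps₂, h.eps]
  have h₂ : (kpSeed D A hq hA hqR haux).S₂.red (unodeTheta D t) ≠ 0 := by
    show (valSetupZero D (kpS D A hq hA hqR)).red (betaQ D t - alphaQ D t ^ D.Q) ≠ 0
    rw [h.frob.red_zero_theta hS]
    exact h.tbar_ne_zero
  have ha : ((kpSeed D A hq hA hqR haux).s₂ i).ord
      ((kpSeed D A hq hA hqR haux).S₂.red (unodeTheta D t)) = ((1 : ℕ) : ℤ) := by
    show ((frobAut (IsLocalRing.ResidueField A) D.R D.Q)⁻¹ • i.1).ord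
      ((valSetupZero D (kpS D A hq hA hqR)).red (betaQ D t - alphaQ D t ^ D.Q)) = _
    rw [h.frob.red_zero_theta hS, h.ord_inv, Nat.cast_one]
  have h₁ : unodeTheta D t / algebraMap Qb (modularFunctionFieldBar (D.Q * D.R)) (D.Q : Qb) ∈
      (kpSeed D A hq hA hqR haux).S₁.Ov := h.frob.delta_mem hS hA
  obtain ⟨hf₁, hf₂, hpole, d, hd0, hd⟩ :=
    regNode_aux (N := kpSeed D A hq hA hqR haux) (u := fwU D) (ϖ := fwPi D) (ε := 12) (a := 1)
      (i := i) (wu_red₁_ne D A hq hA hqR haux) (wu_red₂_ne D A hq hA hqR haux) hε₂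
      (wu_noDiv D A hq hA hqR haux i).noPole h.theta_noPole hq0 (by rw [pow_one]) h₁ h₂ ha
  rw [pow_one] at hf₁ hf₂ hpole hd
  refine ⟨hf₁, hf₂, hpole, d, hd0, hd.1, ?_⟩
  have h2 := hd.2
  rwa [show (kpSeed D A hq hA hqR haux).S₂.red
      ((unodeTheta D t / algebraMap Qb (modularFunctionFieldBar (D.Q * D.R)) (D.Q : Qb)) ^ 12 *
        fwU D) = (kpS D A hq hA hqR).red (atkinLehner D
      ((unodeTheta D t / algebraMap Qb (modularFunctionFieldBar (D.Q * D.R)) (D.Q : Qb)) ^ 12 *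
        fwU D)) from valSetupZero_red D _ _] at h2

/-- the slope: `red_∞ (θ / q)` has a SIMPLE POLE at the supersingular place `i.1`. -/
theorem unode_delta (h : UNodeHyp D A hq hA hqR haux t z i) :
    (kpS D A hq hA hqR).red
        (unodeTheta D t / algebraMap Qb (modularFunctionFieldBar (D.Q * D.R)) (D.Q : Qb)) ≠ 0 ∧
      i.1.ord ((kpS D A hq hA hqR).red
        (unodeTheta D t / algebraMap Qb (modularFunctionFieldBar (D.Q * D.R)) (D.Q : Qb))) =
        -1 := by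
  haveI := infinite_residue A
  have hS := isGaussSetup_gaussSetupBad D hq hqR A hA
  have hq0 : (D.Q : Qb) ≠ 0 := by exact_mod_cast hq.ne_zero
  have hε₁ : ((kpSeed D A hq hA hqR haux).s₁ i).ord
      ((kpSeed D A hq hA hqR haux).S₁.red (fwU D)) = ((12 : ℕ) : ℤ) := by
    rw [wu_eps₁, h.eps]
  have hε₂ : ((kpSeed D A hq hA hqR haux).s₂ i).ord
      ((kpSeed D A hq hA hqR haux).S₂.red
        (algebraMap Qb (modularFunctionFieldBar (D.Q * D.R)) (fwPi D) * (fwU D)⁻¹)) =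
      ((12 : ℕ) : ℤ) := by
    rw [wu_eps₂, h.eps]
  have h₂ : (kpSeed D A hq hA hqR haux).S₂.red (unodeTheta D t) ≠ 0 := by
    show (valSetupZero D (kpS D A hq hA hqR)).red (betaQ D t - alphaQ D t ^ D.Q) ≠ 0
    rw [h.frob.red_zero_theta hS]
    exact h.tbar_ne_zero
  have ha : ((kpSeed D A hq hA hqR haux).s₂ i).ord
      ((kpSeed D A hq hA hqR haux).S₂.red (unodeTheta D t)) = ((1 : ℕ) : ℤ) := by
    show ((frobAut (IsLocalRing.ResidueField A) D.R D.Q)⁻¹ • i.1).ord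
      ((valSetupZero D (kpS D A hq hA hqR)).red (betaQ D t - alphaQ D t ^ D.Q)) = _
    rw [h.frob.red_zero_theta hS, h.ord_inv, Nat.cast_one]
  have h₁ : unodeTheta D t / algebraMap Qb (modularFunctionFieldBar (D.Q * D.R)) (D.Q : Qb) ∈
      (kpSeed D A hq hA hqR haux).S₁.Ov := h.frob.delta_mem hS hA
  have key := regNode (N := kpSeed D A hq hA hqR haux) (u := fwU D) (ϖ := fwPi D) (ε := 12)
    (a := 1) (i := i) (by norm_num) (wu_red₁_ne D A hq hA hqR haux)
    (wu_red₂_ne D A hq hA hqR haux) hε₁ hε₂ (wu_noDiv D A hq hA hqR haux i).noPole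
    h.theta_noPole hq0 (by rw [pow_one]) h₁ h₂ ha
  refine ⟨key.1, ?_⟩
  have := key.2
  rw [Nat.cast_one] at this
  exact this

/-- **UP-NV for `R = - (θ / q) Z`** (`w_q R = R`): `R ∈ O_∞ ∩ O_0`, no pole of type N at the node
`i`, and its reduction takes the same NONZERO value on the two branches of the node. -/
theorem unode_R (h : UNodeHyp D A hq hA hqR haux t z i) :
    unodeR D t ∈ (kpS D A hq hA hqR).Ov ∧
      NoPoleAtNode (kpSeed D A hq hA hqR haux) i (unodeR D t) ∧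
      ∃ d : IsLocalRing.ResidueField A, d ≠ 0 ∧
        ValAt i.1 ((kpS D A hq hA hqR).red (unodeR D t)) d ∧
        ValAt ((frobAut (IsLocalRing.ResidueField A) D.R D.Q)⁻¹ • i.1)
          ((kpS D A hq hA hqR).red (unodeR D t)) d := by
  haveI := infinite_residue A
  have hS := isGaussSetup_gaussSetupBad D hq hqR A hA
  have hq0 : (D.Q : Qb) ≠ 0 := by exact_mod_cast hq.ne_zero
  have hδ : unodeTheta D t / algebraMap Qb (modularFunctionFieldBar (D.Q * D.R)) (D.Q : Qb) ∈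
      (kpS D A hq hA hqR).Ov := h.frob.delta_mem hS hA
  have hZ : unodeZ D t ∈ (kpS D A hq hA hqR).Ov :=
    sub_mem (h.frob.alpha_mem hS) (pow_mem (h.frob.beta_mem hS) _)
  have hR₁ : unodeR D t ∈ (kpS D A hq hA hqR).Ov := neg_mem (mul_mem hδ hZ)
  have hR₂ : unodeR D t ∈ (kpSeed D A hq hA hqR haux).S₂.Ov := by
    show unodeR D t ∈ (valSetupZero D (kpS D A hq hA hqR)).Ov
    rw [mem_valSetupZero_Ov, atkinLehner_unodeR]
    exact hR₁
  have hpole : NoPoleAtNode (kpSeed D A hq hA hqR haux) i (unodeR D t) := by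
    intro P hP
    have h1 : 0 ≤ P.ord (unodeTheta D t /
        algebraMap Qb (modularFunctionFieldBar (D.Q * D.R)) (D.Q : Qb)) := by
      rw [regNode_ord_div_const P _ hq0]
      exact h.theta_noPole P hP
    have h2 : 0 ≤ P.ord (unodeZ D t) := h.Z_noPole P hP
    exact Fermat.Agent.S24Res.ord_nonneg_of_mem P
      (neg_mem (mul_mem (Fermat.Agent.S24Res.mem_of_ord_nonneg P h1)
        (Fermat.Agent.S24Res.mem_of_ord_nonneg P h2)))
  obtain ⟨-, -, d, hd⟩ := node_loc (N := kpSeed D A hq hA hqR haux) (i := i) hR₁ hR₂ hpole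
  -- the order of the first reduction at the node is `-1 + 1 = 0`
  obtain ⟨hδ0, hδord⟩ := unode_delta h
  have hredZ : (kpS D A hq hA hqR).red (unodeZ D t) =
      (kpS D A hq hA hqR).red (alphaQ D t) -
        (kpS D A hq hA hqR).red (alphaQ D t) ^ (D.Q ^ 2) := h.frob.red_Z hS
  have hZ0 : (kpS D A hq hA hqR).red (unodeZ D t) ≠ 0 := by
    rw [hredZ]
    exact h.tbar_ne_zero
  have hred : (kpS D A hq hA hqR).red (unodeR D t) =
      -((kpS D A hq hA hqR).red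
          (unodeTheta D t / algebraMap Qb (modularFunctionFieldBar (D.Q * D.R)) (D.Q : Qb)) *
        (kpS D A hq hA hqR).red (unodeZ D t)) := by
    unfold unodeR
    rw [(kpS D A hq hA hqR).red_neg (mul_mem hδ hZ), (kpS D A hq hA hqR).red_mul hδ hZ]
  have hR0 : (kpS D A hq hA hqR).red (unodeR D t) ≠ 0 := by
    rw [hred]
    exact neg_ne_zero.mpr (mul_ne_zero hδ0 hZ0)
  have hord : i.1.ord ((kpS D A hq hA hqR).red (unodeR D t)) = 0 := by
    rw [hred, unode_ord_neg, i.1.ord_mul hδ0 hZ0, hδord, hredZ, h.ord]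
    norm_num
  have hd0 : d ≠ 0 := ne_zero_of_valAt_of_ord_eq_zero hR0 hord hd.1
  refine ⟨hR₁, hpole, d, hd0, hd.1, ?_⟩
  have h2 := hd.2
  rwa [show (kpSeed D A hq hA hqR haux).S₂.red (unodeR D t) =
      (kpS D A hq hA hqR).red (atkinLehner D (unodeR D t)) from valSetupZero_red D _ _,
    atkinLehner_unodeR] at h2

end Main

end Fermat.Agent.S36G
end
end MergeWrap_S36_Seed_UNode

section MergeWrap_S36_Seed_UNodeWire -- from S36/Seed/UNodeWire.lean

set_option autoImplicit false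
set_option linter.style.haveILetI false
set_option linter.unusedSectionVars false
set_option linter.unusedVariables false
set_option synthInstance.maxHeartbeats 400000
set_option maxHeartbeats 1000000

noncomputable section

namespace Fermat.Agent.S36G

open IntermediateField ModularCurve AlgebraicCurve Fermat.Agent.F3 Fermat.Agent.F3G
  Fermat.Agent.GaussInt Fermat.Agent.AtkinLehner Fermat.Agent.Deuring Fermat.Agent.RR
  Fermat.Agent.BadRed Fermat.Agent.EKp Fermat.Agent.PeuD Fermat.Agent.S36RegN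

local notation "Qb" => AlgebraicClosure ℚ
attribute [local instance 10000] SubalgebraClass.toAlgebra HahnSeries.powerSeriesAlgebra

attribute [local instance] Fermat.Agent.BadRed.fwFintype

section Wire

variable (D : ALData) [NeZero D.Q] [NeZero D.R] [NeZero (D.Q * D.R)]
  (A : ValuationSubring Qb) (hq : D.Q.Prime) (hA : A.LiesOverPrime D.Q) (hqR : ¬ D.Q ∣ D.R)
  [Fact D.Q.Prime] [CharP (IsLocalRing.ResidueField A) D.Q]
  [PerfectRing (IsLocalRing.ResidueField A) D.Q]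

/-! ### `IsFrobInt` from a rational integral expansion -/

include hA in
/-- a rational function with `A`-integral `q`-expansion has an integral Frobenius-stable
expansion. -/
theorem unode_isFrobInt_of_rat (t : modularFunctionFieldBar D.R) (t0 : LaurentSeries ℚ)
    (ht : (t : LaurentSeries Qb) = coeffEmb Qb t0)
    (hint : ∀ n : ℤ, algebraMap ℚ Qb (t0.coeff n) ∈ A) :
    IsFrobInt D A t (Fermat.Agent.S36.kctLift A t0 hint) := by
  refine isFrobInt_of_rat D A hA t _ ?_ ?_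
  · rw [Fermat.Agent.S36.emb_kctLift, ht]
  · intro n
    refine ⟨t0.coeff n, ?_⟩
    have h1 : (((Fermat.Agent.S36.kctLift A t0 hint).coeff n : A) : Qb) =
        algebraMap ℚ Qb (t0.coeff n) := rfl
    rw [h1]
    exact eq_ratCast (algebraMap ℚ Qb) (t0.coeff n)

/-! ### supersingular places are nodes -/

variable {D A}

/-- the function `ū₁ = ssFun` is positive at a supersingular place. -/
theorem unode_pos_of_isSSPlace
    {Q : Place (IsLocalRing.ResidueField A)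
      (modularFunctionFieldFullC (IsLocalRing.ResidueField A) D.R)}
    (hss : IsSSPlace (IsLocalRing.ResidueField A) D.R D.Q Q) :
    0 < Q.ord ((kpS D A hq hA hqR).red (fwU D)) := by
  obtain ⟨u, hu, hpos⟩ := hss
  have e : u = (kpS D A hq hA hqR).red (fwU D) :=
    Subtype.ext (hu.trans (fw_coe_red_uF D A hq hA (kpS D A hq hA hqR)
      (isGaussSetup_gaussSetupBad D hq hqR A hA)).symm)
  rwa [← e]

/-- a supersingular place, as a node of the modular seed. -/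
def unodeNode
    (Q : Place (IsLocalRing.ResidueField A)
      (modularFunctionFieldFullC (IsLocalRing.ResidueField A) D.R))
    (hss : IsSSPlace (IsLocalRing.ResidueField A) D.R D.Q Q) : kpIota D A hq hA hqR :=
  ⟨Q, unode_pos_of_isSSPlace hq hA hqR hss⟩

theorem unodeNode_val
    (Q : Place (IsLocalRing.ResidueField A)
      (modularFunctionFieldFullC (IsLocalRing.ResidueField A) D.R))
    (hss : IsSSPlace (IsLocalRing.ResidueField A) D.R D.Q Q) :
    (unodeNode hq hA hqR Q hss).1 = Q := rfl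

/-- `ε = 12` at a supersingular place without elliptic points. -/
theorem unode_eps_of_hno
    (Q : Place (IsLocalRing.ResidueField A)
      (modularFunctionFieldFullC (IsLocalRing.ResidueField A) D.R))
    (hss : IsSSPlace (IsLocalRing.ResidueField A) D.R D.Q Q)
    (hno : ∀ u : modularFunctionFieldFullC (IsLocalRing.ResidueField A) D.R,
      (u : LaurentSeries (IsLocalRing.ResidueField A)) =
        ssFun (IsLocalRing.ResidueField A) D.Q → Q.ord u = 12) :
    kpEps D A hq hA hqR (unodeNode hq hA hqR Q hss) = 12 := by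
  have h1 := hno ((kpS D A hq hA hqR).red (fwU D))
    (fw_coe_red_uF D A hq hA (kpS D A hq hA hqR) (isGaussSetup_gaussSetupBad D hq hqR A hA))
  have h2 := kpEps_cast D A hq hA hqR (unodeNode hq hA hqR Q hss)
  rw [unodeNode_val, h1] at h2
  exact_mod_cast h2

/-! ### the reduction of `α t` -/

/-- `red_∞ (α t) = S0.red t`. -/
theorem unode_red_alpha_eq
    {S0 : Fermat.Agent.S18Key.RedSetup Qb (FBar D.R) (IsLocalRing.ResidueField A)
      ↥(modularFunctionFieldFullC (IsLocalRing.ResidueField A) D.R)}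
    (hG : IsGaussRed D.R A S0) {t : modularFunctionFieldBar D.R} {z : LaurentSeries A}
    (hF : IsFrobInt D A t z) :
    t ∈ S0.Ov ∧ (kpS D A hq hA hqR).red (alphaQ D t) = S0.red t := by
  have hmem : emb A z ∈ modularFunctionFieldBar D.R := by
    rw [hF.emb_eq]
    exact t.2
  have ht : t ∈ S0.Ov := by
    rw [hG.mem_iff, ← hF.emb_eq]
    exact emb_mem_gaussSub hmem
  refine ⟨ht, Subtype.ext ?_⟩
  rw [hF.coe_red_alpha (isGaussSetup_gaussSetupBad D hq hqR A hA), hG.coe_red t ht, ← hF.emb_eq,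
    gaussResFun_emb hmem]

/-- the field `ord` of `UNodeHyp` from "`t̄ - c` is a uniformiser at `Q`, `c ∈ 𝔽_{q²}`". -/
theorem unode_ord_of_unif {t : modularFunctionFieldBar D.R}
    (Q : Place (IsLocalRing.ResidueField A)
      (modularFunctionFieldFullC (IsLocalRing.ResidueField A) D.R))
    {c : IsLocalRing.ResidueField A} (hc : c ^ (D.Q ^ 2) = c)
    (hord : Q.ord ((kpS D A hq hA hqR).red (alphaQ D t) -
      algebraMap (IsLocalRing.ResidueField A)
        (modularFunctionFieldFullC (IsLocalRing.ResidueField A) D.R) c) = 1) :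
    Q.ord ((kpS D A hq hA hqR).red (alphaQ D t) -
      (kpS D A hq hA hqR).red (alphaQ D t) ^ (D.Q ^ 2)) = 1 :=
  reg_ord_sub_pow D.Q Q hc hord

/-! ### the assembly -/

/-- **`UNodeHyp` at a supersingular place `Q`**. -/
theorem unodeHyp_of_place (haux : AuxLevelOK D.Q D.R) {t : modularFunctionFieldBar D.R}
    {z : LaurentSeries A} (hF : IsFrobInt D A t z)
    (hpoles : ∀ Q' : Place Qb (modularFunctionFieldBar D.R),
      0 ≤ Q'.ord (Fermat.Agent.S24.jBar D.R) → 0 ≤ Q'.ord t)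
    (Q : Place (IsLocalRing.ResidueField A)
      (modularFunctionFieldFullC (IsLocalRing.ResidueField A) D.R))
    (hss : IsSSPlace (IsLocalRing.ResidueField A) D.R D.Q Q)
    (hno : ∀ u : modularFunctionFieldFullC (IsLocalRing.ResidueField A) D.R,
      (u : LaurentSeries (IsLocalRing.ResidueField A)) =
        ssFun (IsLocalRing.ResidueField A) D.Q → Q.ord u = 12)
    {c : IsLocalRing.ResidueField A} (hc : c ^ (D.Q ^ 2) = c)
    (hord : Q.ord ((kpS D A hq hA hqR).red (alphaQ D t) -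
      algebraMap (IsLocalRing.ResidueField A)
        (modularFunctionFieldFullC (IsLocalRing.ResidueField A) D.R) c) = 1) :
    UNodeHyp D A hq hA hqR haux t z (unodeNode hq hA hqR Q hss) :=
  UNodeHyp.of_global hF (fun P hP => reg_noPole D A hq hA hqR haux t hpoles P hP)
    (unode_ord_of_unif hq hA hqR Q hc hord) (unode_eps_of_hno hq hA hqR Q hss hno)

/-- **UP-NV for `H` at a supersingular place `Q`.** -/
theorem unode_H_at (haux : AuxLevelOK D.Q D.R) {t : modularFunctionFieldBar D.R}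
    {z : LaurentSeries A} (hF : IsFrobInt D A t z)
    (hpoles : ∀ Q' : Place Qb (modularFunctionFieldBar D.R),
      0 ≤ Q'.ord (Fermat.Agent.S24.jBar D.R) → 0 ≤ Q'.ord t)
    (Q : Place (IsLocalRing.ResidueField A)
      (modularFunctionFieldFullC (IsLocalRing.ResidueField A) D.R))
    (hss : IsSSPlace (IsLocalRing.ResidueField A) D.R D.Q Q)
    (hno : ∀ u : modularFunctionFieldFullC (IsLocalRing.ResidueField A) D.R,
      (u : LaurentSeries (IsLocalRing.ResidueField A)) =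
        ssFun (IsLocalRing.ResidueField A) D.Q → Q.ord u = 12)
    {c : IsLocalRing.ResidueField A} (hc : c ^ (D.Q ^ 2) = c)
    (hord : Q.ord ((kpS D A hq hA hqR).red (alphaQ D t) -
      algebraMap (IsLocalRing.ResidueField A)
        (modularFunctionFieldFullC (IsLocalRing.ResidueField A) D.R) c) = 1) :
    unodeH D t ∈ (kpS D A hq hA hqR).Ov ∧
      atkinLehner D (unodeH D t) ∈ (kpS D A hq hA hqR).Ov ∧
      ∃ d : IsLocalRing.ResidueField A, d ≠ 0 ∧
        ValAt Q ((kpS D A hq hA hqR).red (unodeH D t)) d ∧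
        ValAt ((frobAut (IsLocalRing.ResidueField A) D.R D.Q)⁻¹ • Q)
          ((kpS D A hq hA hqR).red (atkinLehner D (unodeH D t))) d := by
  obtain ⟨h1, h2, -, d, hd0, hd1, hd2⟩ :=
    unode_H (unodeHyp_of_place hq hA hqR haux hF hpoles Q hss hno hc hord)
  exact ⟨h1, h2, d, hd0, hd1, hd2⟩

/-- **UP-NV for `R` at a supersingular place `Q`.** -/
theorem unode_R_at (haux : AuxLevelOK D.Q D.R) {t : modularFunctionFieldBar D.R}
    {z : LaurentSeries A} (hF : IsFrobInt D A t z)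
    (hpoles : ∀ Q' : Place Qb (modularFunctionFieldBar D.R),
      0 ≤ Q'.ord (Fermat.Agent.S24.jBar D.R) → 0 ≤ Q'.ord t)
    (Q : Place (IsLocalRing.ResidueField A)
      (modularFunctionFieldFullC (IsLocalRing.ResidueField A) D.R))
    (hss : IsSSPlace (IsLocalRing.ResidueField A) D.R D.Q Q)
    (hno : ∀ u : modularFunctionFieldFullC (IsLocalRing.ResidueField A) D.R,
      (u : LaurentSeries (IsLocalRing.ResidueField A)) =
        ssFun (IsLocalRing.ResidueField A) D.Q → Q.ord u = 12)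
    {c : IsLocalRing.ResidueField A} (hc : c ^ (D.Q ^ 2) = c)
    (hord : Q.ord ((kpS D A hq hA hqR).red (alphaQ D t) -
      algebraMap (IsLocalRing.ResidueField A)
        (modularFunctionFieldFullC (IsLocalRing.ResidueField A) D.R) c) = 1) :
    unodeR D t ∈ (kpS D A hq hA hqR).Ov ∧
      ∃ d : IsLocalRing.ResidueField A, d ≠ 0 ∧
        ValAt Q ((kpS D A hq hA hqR).red (unodeR D t)) d ∧
        ValAt ((frobAut (IsLocalRing.ResidueField A) D.R D.Q)⁻¹ • Q)
          ((kpS D A hq hA hqR).red (unodeR D t)) d := by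
  obtain ⟨h1, -, d, hd0, hd1, hd2⟩ :=
    unode_R (unodeHyp_of_place hq hA hqR haux hF hpoles Q hss hno hc hord)
  exact ⟨h1, d, hd0, hd1, hd2⟩

/-- the Gauss form of a reduction at `v_∞`. -/
theorem unode_gauss {y : modularFunctionFieldBar (D.Q * D.R)}
    (hy : y ∈ (kpS D A hq hA hqR).Ov) :
    (y : LaurentSeries Qb) ∈ gaussSub A (modularFunctionFieldBar (D.Q * D.R)) ∧
      (((kpS D A hq hA hqR).red y :
          modularFunctionFieldFullC (IsLocalRing.ResidueField A) D.R) :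
          LaurentSeries (IsLocalRing.ResidueField A)) =
        gaussResFun A (modularFunctionFieldBar (D.Q * D.R)) (y : LaurentSeries Qb) :=
  ⟨((isGaussSetup_gaussSetupBad D hq hqR A hA).mem_iff y).mp hy,
    (isGaussSetup_gaussSetupBad D hq hqR A hA).coe_red y hy⟩

end Wire

/-! ### cuspidal poles -/

section Poles

variable (D : ALData) [NeZero D.Q] [NeZero D.R] [NeZero (D.Q * D.R)]

/-- `α t`, `β t` and `u₁` at a place where `α j` has no pole. -/
theorem unode_ord_nonneg_of_jBar (hq : D.Q.Prime) {t : modularFunctionFieldBar D.R}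
    (hpoles : ∀ Q' : Place Qb (modularFunctionFieldBar D.R),
      0 ≤ Q'.ord (Fermat.Agent.S24.jBar D.R) → 0 ≤ Q'.ord t)
    (w : Place Qb (modularFunctionFieldBar (D.Q * D.R)))
    (hw : 0 ≤ w.ord (alphaQ D (Fermat.Agent.S24.jBar D.R))) :
    0 ≤ w.ord (alphaQ D t) ∧ 0 ≤ w.ord (betaQ D t) ∧ w.ord (fwU D) = 0 := by
  have hint := regNoPole_isIntegral D.R t hpoles
  have hj : 0 ≤ w.ord (Fermat.Agent.S24.jBar (D.Q * D.R)) := by
    rwa [Fermat.Agent.R38.key_alphaQ_jBar] at hw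
  have hβj : 0 ≤ w.ord (betaQ D (Fermat.Agent.S24.jBar D.R)) := by
    by_contra hneg
    rw [not_le] at hneg
    have h1 := Fermat.Agent.R38.key_ord_jBar_of_betaQ D hq w hneg
    omega
  refine ⟨regNoPole_ord_nonneg_of_isIntegral (alphaQ D) w hint hw,
    regNoPole_ord_nonneg_of_isIntegral (betaQ D) w hint hβj, ?_⟩
  by_contra hne
  have := (ord_jBar_neg_iff_uF hq (Dvd.intro _ rfl) w).mpr hne
  omega

/-- `H` has cuspidal poles. -/
theorem unode_H_poles (hq : D.Q.Prime) {t : modularFunctionFieldBar D.R}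
    (hpoles : ∀ Q' : Place Qb (modularFunctionFieldBar D.R),
      0 ≤ Q'.ord (Fermat.Agent.S24.jBar D.R) → 0 ≤ Q'.ord t)
    (w : Place Qb (modularFunctionFieldBar (D.Q * D.R)))
    (hw : 0 ≤ w.ord (alphaQ D (Fermat.Agent.S24.jBar D.R))) :
    0 ≤ w.ord (unodeH D t) := by
  obtain ⟨h1, h2, h3⟩ := unode_ord_nonneg_of_jBar D hq hpoles w hw
  have hq0 : (D.Q : Qb) ≠ 0 := by exact_mod_cast hq.ne_zero
  have hθ : 0 ≤ w.ord (unodeTheta D t /
      algebraMap Qb (modularFunctionFieldBar (D.Q * D.R)) (D.Q : Qb)) := by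
    rw [regNode_ord_div_const w _ hq0]
    exact Fermat.Agent.S24Res.ord_nonneg_of_mem w
      (sub_mem (Fermat.Agent.S24Res.mem_of_ord_nonneg w h2)
        (pow_mem (Fermat.Agent.S24Res.mem_of_ord_nonneg w h1) _))
  exact Fermat.Agent.S24Res.ord_nonneg_of_mem w
    (mul_mem (pow_mem (Fermat.Agent.S24Res.mem_of_ord_nonneg w hθ) _)
      (Fermat.Agent.S24Res.mem_of_ord_nonneg w h3.ge))

/-- `R` has cuspidal poles. -/
theorem unode_R_poles (hq : D.Q.Prime) {t : modularFunctionFieldBar D.R}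
    (hpoles : ∀ Q' : Place Qb (modularFunctionFieldBar D.R),
      0 ≤ Q'.ord (Fermat.Agent.S24.jBar D.R) → 0 ≤ Q'.ord t)
    (w : Place Qb (modularFunctionFieldBar (D.Q * D.R)))
    (hw : 0 ≤ w.ord (alphaQ D (Fermat.Agent.S24.jBar D.R))) :
    0 ≤ w.ord (unodeR D t) := by
  obtain ⟨h1, h2, h3⟩ := unode_ord_nonneg_of_jBar D hq hpoles w hw
  have hq0 : (D.Q : Qb) ≠ 0 := by exact_mod_cast hq.ne_zero
  have hθ : 0 ≤ w.ord (unodeTheta D t /
      algebraMap Qb (modularFunctionFieldBar (D.Q * D.R)) (D.Q : Qb)) := by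
    rw [regNode_ord_div_const w _ hq0]
    exact Fermat.Agent.S24Res.ord_nonneg_of_mem w
      (sub_mem (Fermat.Agent.S24Res.mem_of_ord_nonneg w h2)
        (pow_mem (Fermat.Agent.S24Res.mem_of_ord_nonneg w h1) _))
  have hZ : unodeZ D t ∈ w.toValuationSubring :=
    sub_mem (Fermat.Agent.S24Res.mem_of_ord_nonneg w h1)
      (pow_mem (Fermat.Agent.S24Res.mem_of_ord_nonneg w h2) _)
  exact Fermat.Agent.S24Res.ord_nonneg_of_mem w
    (neg_mem (mul_mem (Fermat.Agent.S24Res.mem_of_ord_nonneg w hθ) hZ))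

/-- `w_q H` has cuspidal poles (`w_q u₁ = q ^ 12 / u₁` has no zero and no pole where `u₁` has
none). -/
theorem unode_wH_poles (hq : D.Q.Prime) {t : modularFunctionFieldBar D.R}
    (hpoles : ∀ Q' : Place Qb (modularFunctionFieldBar D.R),
      0 ≤ Q'.ord (Fermat.Agent.S24.jBar D.R) → 0 ≤ Q'.ord t)
    (w : Place Qb (modularFunctionFieldBar (D.Q * D.R)))
    (hw : 0 ≤ w.ord (alphaQ D (Fermat.Agent.S24.jBar D.R))) :
    0 ≤ w.ord (atkinLehner D (unodeH D t)) := by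
  obtain ⟨h1, h2, h3⟩ := unode_ord_nonneg_of_jBar D hq hpoles w hw
  have hwu : 0 ≤ w.ord (atkinLehner D (fwU D)) := by
    rw [Fermat.Agent.R38.key_ord_uF_atkinLehner, h3, neg_zero]
  have hq0 : (D.Q : Qb) ≠ 0 := by exact_mod_cast hq.ne_zero
  have hZ : 0 ≤ w.ord (unodeZ D t /
      algebraMap Qb (modularFunctionFieldBar (D.Q * D.R)) (D.Q : Qb)) := by
    rw [regNode_ord_div_const w _ hq0]
    exact Fermat.Agent.S24Res.ord_nonneg_of_mem w
      (sub_mem (Fermat.Agent.S24Res.mem_of_ord_nonneg w h1)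
        (pow_mem (Fermat.Agent.S24Res.mem_of_ord_nonneg w h2) _))
  rw [atkinLehner_unodeH]
  exact Fermat.Agent.S24Res.ord_nonneg_of_mem w
    (mul_mem (pow_mem (Fermat.Agent.S24Res.mem_of_ord_nonneg w hZ) _)
      (Fermat.Agent.S24Res.mem_of_ord_nonneg w hwu))

end Poles

end Fermat.Agent.S36G
end
end MergeWrap_S36_Seed_UNodeWire

section MergeWrap_S36_Seed_UNodeAdapt -- from S36/Seed/UNodeAdapt.lean

set_option autoImplicit false
set_option linter.style.haveILetI false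
set_option linter.unusedSectionVars false
set_option linter.unusedVariables false
set_option synthInstance.maxHeartbeats 400000
set_option maxHeartbeats 1000000

noncomputable section

namespace Fermat.Agent.S36G

open IntermediateField ModularCurve AlgebraicCurve Fermat.Agent.F3 Fermat.Agent.F3G
  Fermat.Agent.GaussInt Fermat.Agent.AtkinLehner Fermat.Agent.Deuring Fermat.Agent.RR
  Fermat.Agent.BadRed Fermat.Agent.EKp Fermat.Agent.PeuD Fermat.Agent.S36RegN

local notation "Qb" => AlgebraicClosure ℚ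
attribute [local instance 10000] SubalgebraClass.toAlgebra HahnSeries.powerSeriesAlgebra

attribute [local instance] Fermat.Agent.BadRed.fwFintype

/-! ### the two languages -/

section Cast

variable (D : ALData) [NeZero D.Q] [NeZero D.R] [NeZero (D.Q * D.R)]

theorem unodeA_coe_const (N : ℕ) [NeZero N] (c : Qb) :
    ((algebraMap Qb (modularFunctionFieldBar N) c : modularFunctionFieldBar N) :
      LaurentSeries Qb) = algebraMap Qb (LaurentSeries Qb) c := rfl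

theorem unodeA_coe_theta (t : FBar D.R) :
    ((uhTheta D.R D.Q t : FBar (D.R * D.Q)) : LaurentSeries Qb) =
      ((unodeTheta D t : FBar (D.Q * D.R)) : LaurentSeries Qb) := by
  rw [coe_uhTheta]
  unfold unodeTheta
  rw [AddSubgroupClass.coe_sub, IntermediateField.coe_pow, coe_betaQ, coe_alphaQ]

theorem unodeA_coe_Z (t : FBar D.R) :
    ((uhZ D.R D.Q t : FBar (D.R * D.Q)) : LaurentSeries Qb) =
      ((unodeZ D t : FBar (D.Q * D.R)) : LaurentSeries Qb) := by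
  rw [coe_uhZ]
  unfold unodeZ
  rw [AddSubgroupClass.coe_sub, IntermediateField.coe_pow, coe_betaQ, coe_alphaQ]

theorem unodeA_castF_theta (hM : D.R * D.Q = D.Q * D.R) (t : FBar D.R) :
    castF hM (uhTheta D.R D.Q t) = unodeTheta D t :=
  Subtype.ext (by rw [coe_castF]; exact unodeA_coe_theta D t)

theorem unodeA_castF_Z (hM : D.R * D.Q = D.Q * D.R) (t : FBar D.R) :
    castF hM (uhZ D.R D.Q t) = unodeZ D t :=
  Subtype.ext (by rw [coe_castF]; exact unodeA_coe_Z D t)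

theorem unodeA_castF_U (hM : D.R * D.Q = D.Q * D.R) :
    castF hM (uhU D.R D.Q) = fwU D :=
  Subtype.ext (by rw [coe_castF]; rfl)

/-- `H` in the two languages. -/
theorem unodeA_castF_H (hM : D.R * D.Q = D.Q * D.R) (t : FBar D.R) :
    castF hM (uhH D.R D.Q t) = unodeH D t := by
  unfold uhH unodeH
  rw [map_mul, map_pow, map_div₀, AlgEquiv.commutes, unodeA_castF_theta, unodeA_castF_U]

/-- `R` in the two languages. -/
theorem unodeA_castF_R (hM : D.R * D.Q = D.Q * D.R) (t : FBar D.R) :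
    castF hM (uhR D.R D.Q t) = unodeR D t := by
  unfold uhR unodeR
  rw [map_neg, map_mul, map_div₀, AlgEquiv.commutes, unodeA_castF_theta, unodeA_castF_Z]

/-- the Gauss data of `y` at the level `D.R * D.Q` from those of `castF hM y` at `v_∞`. -/
theorem unodeA_gauss (A : ValuationSubring Qb) (hq : D.Q.Prime) (hA : A.LiesOverPrime D.Q)
    (hqR : ¬ D.Q ∣ D.R) [Fact D.Q.Prime] [CharP (IsLocalRing.ResidueField A) D.Q]
    [PerfectRing (IsLocalRing.ResidueField A) D.Q]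
    (hM : D.R * D.Q = D.Q * D.R) (y : FBar (D.R * D.Q))
    (hy : castF hM y ∈ (kpS D A hq hA hqR).Ov) :
    (y : LaurentSeries Qb) ∈ gaussSub A (modularFunctionFieldBar (D.R * D.Q)) ∧
      (((kpS D A hq hA hqR).red (castF hM y) :
          modularFunctionFieldFullC (IsLocalRing.ResidueField A) D.R) :
          LaurentSeries (IsLocalRing.ResidueField A)) =
        gaussResFun A (modularFunctionFieldBar (D.R * D.Q)) (y : LaurentSeries Qb) := by
  have hFB : modularFunctionFieldBar (D.R * D.Q) = modularFunctionFieldBar (D.Q * D.R) :=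
    congrArg modularFunctionFieldBar hM
  have e1 : gaussSub A (modularFunctionFieldBar (D.R * D.Q)) =
      gaussSub A (modularFunctionFieldBar (D.Q * D.R)) := by rw [hFB]
  have e2 : ∀ x : LaurentSeries Qb, gaussResFun A (modularFunctionFieldBar (D.R * D.Q)) x =
      gaussResFun A (modularFunctionFieldBar (D.Q * D.R)) x := fun x => by rw [hFB]
  obtain ⟨h1, h2⟩ := unode_gauss hq hA hqR hy
  rw [coe_castF] at h1 h2
  rw [e1, e2]
  exact ⟨h1, h2⟩

/-- the same for `w y`. -/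
theorem unodeA_gauss_wAt (A : ValuationSubring Qb) (hq : D.Q.Prime) (hA : A.LiesOverPrime D.Q)
    (hqR : ¬ D.Q ∣ D.R) [Fact D.Q.Prime] [CharP (IsLocalRing.ResidueField A) D.Q]
    [PerfectRing (IsLocalRing.ResidueField A) D.Q]
    (hM : D.R * D.Q = D.Q * D.R) (y : FBar (D.R * D.Q))
    (hy : atkinLehner D (castF hM y) ∈ (kpS D A hq hA hqR).Ov) :
    ((wAt D hM y : FBar (D.R * D.Q)) : LaurentSeries Qb) ∈
        gaussSub A (modularFunctionFieldBar (D.R * D.Q)) ∧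
      (((kpS D A hq hA hqR).red (atkinLehner D (castF hM y)) :
          modularFunctionFieldFullC (IsLocalRing.ResidueField A) D.R) :
          LaurentSeries (IsLocalRing.ResidueField A)) =
        gaussResFun A (modularFunctionFieldBar (D.R * D.Q))
          ((wAt D hM y : FBar (D.R * D.Q)) : LaurentSeries Qb) := by
  have hFB : modularFunctionFieldBar (D.R * D.Q) = modularFunctionFieldBar (D.Q * D.R) :=
    congrArg modularFunctionFieldBar hM
  have e1 : gaussSub A (modularFunctionFieldBar (D.R * D.Q)) =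
      gaussSub A (modularFunctionFieldBar (D.Q * D.R)) := by rw [hFB]
  have e2 : ∀ x : LaurentSeries Qb, gaussResFun A (modularFunctionFieldBar (D.R * D.Q)) x =
      gaussResFun A (modularFunctionFieldBar (D.Q * D.R)) x := fun x => by rw [hFB]
  obtain ⟨h1, h2⟩ := unode_gauss hq hA hqR hy
  rw [coe_wAt, e1, e2]
  exact ⟨h1, h2⟩

end Cast

/-! ### cuspidal poles at the level `M₀ q` -/

section Poles

variable (M₀ q : ℕ) [NeZero M₀] [NeZero q]

theorem unodeA_alpha_jBar :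
    heckeAlphaBar Qb M₀ q (Fermat.Agent.S24.jBar M₀) = Fermat.Agent.S24.jBar (M₀ * q) := by
  apply Subtype.ext
  rw [coe_heckeAlphaBar]
  rfl

/-- `α₀ t`, `β₀ t` are regular and `u₁` is a unit where `α₀ j` has no pole. -/
theorem unodeA_poles (hq : q.Prime) (hqM : ¬ q ∣ M₀) (t : FBar M₀)
    (hpoles : ∀ Q' : Place Qb (FBar M₀), 0 ≤ Q'.ord (Fermat.Agent.S24.jBar M₀) → 0 ≤ Q'.ord t)
    (w : Place Qb (FBar (M₀ * q)))
    (hw : 0 ≤ w.ord (heckeAlphaBar Qb M₀ q (Fermat.Agent.S24.jBar M₀))) :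
    0 ≤ w.ord (heckeAlphaBar Qb M₀ q t) ∧ 0 ≤ w.ord (heckeBetaBar Qb M₀ q t) ∧
      w.ord (uhU M₀ q) = 0 := by
  refine ⟨Fermat.Agent.S36.kcp_ord_alpha M₀ q t hpoles w hw,
    Fermat.Agent.S36.kcp_ord_beta M₀ q hq hqM t hpoles w hw, ?_⟩
  rw [unodeA_alpha_jBar] at hw
  exact ord_uF_eq_zero hq (Dvd.intro_left M₀ rfl) w hw

theorem unodeA_theta_pole (hq : q.Prime) (hqM : ¬ q ∣ M₀) (t : FBar M₀)
    (hpoles : ∀ Q' : Place Qb (FBar M₀), 0 ≤ Q'.ord (Fermat.Agent.S24.jBar M₀) → 0 ≤ Q'.ord t)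
    (w : Place Qb (FBar (M₀ * q)))
    (hw : 0 ≤ w.ord (heckeAlphaBar Qb M₀ q (Fermat.Agent.S24.jBar M₀))) :
    uhTheta M₀ q t / algebraMap Qb (FBar (M₀ * q)) (q : Qb) ∈ w.toValuationSubring := by
  obtain ⟨h1, h2, h3⟩ := unodeA_poles M₀ q hq hqM t hpoles w hw
  have hq0 : (q : Qb) ≠ 0 := by exact_mod_cast hq.ne_zero
  apply Fermat.Agent.S24Res.mem_of_ord_nonneg
  rw [regNode_ord_div_const w _ hq0]
  exact Fermat.Agent.S24Res.ord_nonneg_of_mem w
    (sub_mem (Fermat.Agent.S24Res.mem_of_ord_nonneg w h2)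
      (pow_mem (Fermat.Agent.S24Res.mem_of_ord_nonneg w h1) _))

/-- the field `pole` of `UNodeGauss` for `H`. -/
theorem unodeA_H_pole (hq : q.Prime) (hqM : ¬ q ∣ M₀) (t : FBar M₀)
    (hpoles : ∀ Q' : Place Qb (FBar M₀), 0 ≤ Q'.ord (Fermat.Agent.S24.jBar M₀) → 0 ≤ Q'.ord t)
    (w : Place Qb (FBar (M₀ * q)))
    (hw : 0 ≤ w.ord (heckeAlphaBar Qb M₀ q (Fermat.Agent.S24.jBar M₀))) :
    0 ≤ w.ord (uhH M₀ q t) := by
  obtain ⟨h1, h2, h3⟩ := unodeA_poles M₀ q hq hqM t hpoles w hw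
  exact Fermat.Agent.S24Res.ord_nonneg_of_mem w
    (mul_mem (pow_mem (unodeA_theta_pole M₀ q hq hqM t hpoles w hw) _)
      (Fermat.Agent.S24Res.mem_of_ord_nonneg w h3.ge))

/-- the field `pole` of `UNodeGauss` for `R`. -/
theorem unodeA_R_pole (hq : q.Prime) (hqM : ¬ q ∣ M₀) (t : FBar M₀)
    (hpoles : ∀ Q' : Place Qb (FBar M₀), 0 ≤ Q'.ord (Fermat.Agent.S24.jBar M₀) → 0 ≤ Q'.ord t)
    (w : Place Qb (FBar (M₀ * q)))
    (hw : 0 ≤ w.ord (heckeAlphaBar Qb M₀ q (Fermat.Agent.S24.jBar M₀))) :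
    0 ≤ w.ord (uhR M₀ q t) := by
  obtain ⟨h1, h2, h3⟩ := unodeA_poles M₀ q hq hqM t hpoles w hw
  have hZ : uhZ M₀ q t ∈ w.toValuationSubring :=
    sub_mem (Fermat.Agent.S24Res.mem_of_ord_nonneg w h1)
      (pow_mem (Fermat.Agent.S24Res.mem_of_ord_nonneg w h2) _)
  exact Fermat.Agent.S24Res.ord_nonneg_of_mem w
    (neg_mem (mul_mem (unodeA_theta_pole M₀ q hq hqM t hpoles w hw) hZ))

end Poles

/-! ### the Gauss form of UP-NV -/

section Final

variable {M₀ q : ℕ} [NeZero M₀] [NeZero q] {A : ValuationSubring Qb}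
  [Fact q.Prime] [CharP (IsLocalRing.ResidueField A) q]
  [PerfectRing (IsLocalRing.ResidueField A) q]

/-- **UP-NV, Gauss form, for `H = u₁ (θ / q) ^ 12`.** -/
theorem unodeGauss_H (hq : q.Prime) (hA : A.LiesOverPrime q) (hqM : ¬ q ∣ M₀)
    (D : ALData) (hQ : D.Q = q) (hR : D.R = M₀) (hM : M₀ * q = D.Q * D.R)
    (haux : AuxLevelOK q M₀) (t : FBar M₀) (t0 : LaurentSeries ℚ)
    (ht : (t : LaurentSeries Qb) = coeffEmb Qb t0)
    (hint : ∀ n : ℤ, algebraMap ℚ Qb (t0.coeff n) ∈ A)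
    (hpoles : ∀ Q' : Place Qb (FBar M₀), 0 ≤ Q'.ord (Fermat.Agent.S24.jBar M₀) → 0 ≤ Q'.ord t)
    (Q : Place (IsLocalRing.ResidueField A)
      ↥(modularFunctionFieldFullC (IsLocalRing.ResidueField A) M₀))
    (hss : IsSSPlace (IsLocalRing.ResidueField A) M₀ q Q)
    (hno : ∀ u : ↥(modularFunctionFieldFullC (IsLocalRing.ResidueField A) M₀),
      (u : LaurentSeries (IsLocalRing.ResidueField A)) =
        ssFun (IsLocalRing.ResidueField A) q → Q.ord u = 12)
    (tbar : ↥(modularFunctionFieldFullC (IsLocalRing.ResidueField A) M₀))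
    (htb : (tbar : LaurentSeries (IsLocalRing.ResidueField A)) =
      gaussResFun A (modularFunctionFieldBar M₀) (t : LaurentSeries Qb))
    {c : IsLocalRing.ResidueField A} (hc : c ^ (q ^ 2) = c)
    (hord : Q.ord (tbar - algebraMap (IsLocalRing.ResidueField A)
      ↥(modularFunctionFieldFullC (IsLocalRing.ResidueField A) M₀) c) = 1) :
    ∃ d : IsLocalRing.ResidueField A, d ≠ 0 ∧ UNodeGauss M₀ q A D hM (uhH M₀ q t) Q d := by
  subst hQ hR
  haveI : NeZero (D.Q * D.R) := ⟨Nat.mul_ne_zero (NeZero.ne _) (NeZero.ne _)⟩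
  have hS := isGaussSetup_gaussSetupBad D hq hqM A hA
  have hF := unode_isFrobInt_of_rat D A hA t t0 ht hint
  have hmem : emb A (Fermat.Agent.S36.kctLift A t0 hint) ∈ modularFunctionFieldBar D.R := by
    rw [hF.emb_eq]
    exact t.2
  have e : tbar = (kpS D A hq hA hqM).red (alphaQ D t) := by
    apply Subtype.ext
    rw [htb, hF.coe_red_alpha hS, ← hF.emb_eq, gaussResFun_emb hmem]
  rw [e] at hord
  obtain ⟨hH₁, hH₂, d, hd0, hv1, hv2⟩ :=
    unode_H_at hq hA hqM haux hF hpoles Q hss hno hc hord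
  rw [← unodeA_castF_H D hM t] at hH₁ hH₂ hv1 hv2
  obtain ⟨g1, g2⟩ := unodeA_gauss D A hq hA hqM hM _ hH₁
  obtain ⟨g3, g4⟩ := unodeA_gauss_wAt D A hq hA hqM hM _ hH₂
  exact ⟨d, hd0, ⟨g1, g3, fun w hw => unodeA_H_pole D.R D.Q hq hqM t hpoles w hw,
    ⟨_, _, g2, g4, hv1, hv2⟩⟩⟩

/-- **UP-NV, Gauss form, for `R = - (θ / q) Z`.** -/
theorem unodeGauss_R (hq : q.Prime) (hA : A.LiesOverPrime q) (hqM : ¬ q ∣ M₀)
    (D : ALData) (hQ : D.Q = q) (hR : D.R = M₀) (hM : M₀ * q = D.Q * D.R)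
    (haux : AuxLevelOK q M₀) (t : FBar M₀) (t0 : LaurentSeries ℚ)
    (ht : (t : LaurentSeries Qb) = coeffEmb Qb t0)
    (hint : ∀ n : ℤ, algebraMap ℚ Qb (t0.coeff n) ∈ A)
    (hpoles : ∀ Q' : Place Qb (FBar M₀), 0 ≤ Q'.ord (Fermat.Agent.S24.jBar M₀) → 0 ≤ Q'.ord t)
    (Q : Place (IsLocalRing.ResidueField A)
      ↥(modularFunctionFieldFullC (IsLocalRing.ResidueField A) M₀))
    (hss : IsSSPlace (IsLocalRing.ResidueField A) M₀ q Q)
    (hno : ∀ u : ↥(modularFunctionFieldFullC (IsLocalRing.ResidueField A) M₀),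
      (u : LaurentSeries (IsLocalRing.ResidueField A)) =
        ssFun (IsLocalRing.ResidueField A) q → Q.ord u = 12)
    (tbar : ↥(modularFunctionFieldFullC (IsLocalRing.ResidueField A) M₀))
    (htb : (tbar : LaurentSeries (IsLocalRing.ResidueField A)) =
      gaussResFun A (modularFunctionFieldBar M₀) (t : LaurentSeries Qb))
    {c : IsLocalRing.ResidueField A} (hc : c ^ (q ^ 2) = c)
    (hord : Q.ord (tbar - algebraMap (IsLocalRing.ResidueField A)
      ↥(modularFunctionFieldFullC (IsLocalRing.ResidueField A) M₀) c) = 1) :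
    ∃ d : IsLocalRing.ResidueField A, d ≠ 0 ∧ UNodeGauss M₀ q A D hM (uhR M₀ q t) Q d := by
  subst hQ hR
  haveI : NeZero (D.Q * D.R) := ⟨Nat.mul_ne_zero (NeZero.ne _) (NeZero.ne _)⟩
  have hS := isGaussSetup_gaussSetupBad D hq hqM A hA
  have hF := unode_isFrobInt_of_rat D A hA t t0 ht hint
  have hmem : emb A (Fermat.Agent.S36.kctLift A t0 hint) ∈ modularFunctionFieldBar D.R := by
    rw [hF.emb_eq]
    exact t.2
  have e : tbar = (kpS D A hq hA hqM).red (alphaQ D t) := by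
    apply Subtype.ext
    rw [htb, hF.coe_red_alpha hS, ← hF.emb_eq, gaussResFun_emb hmem]
  rw [e] at hord
  obtain ⟨hR₁, d, hd0, hv1, hv2⟩ :=
    unode_R_at hq hA hqM haux hF hpoles Q hss hno hc hord
  have hR₂ : atkinLehner D (unodeR D t) ∈ (kpS D A hq hA hqM).Ov := by
    rw [atkinLehner_unodeR]
    exact hR₁
  have hv2' : ValAt ((frobAut (IsLocalRing.ResidueField A) D.R D.Q)⁻¹ • Q)
      ((kpS D A hq hA hqM).red (atkinLehner D (unodeR D t))) d := by
    rw [atkinLehner_unodeR]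
    exact hv2
  rw [← unodeA_castF_R D hM t] at hR₁ hR₂ hv1 hv2'
  obtain ⟨g1, g2⟩ := unodeA_gauss D A hq hA hqM hM _ hR₁
  obtain ⟨g3, g4⟩ := unodeA_gauss_wAt D A hq hA hqM hM _ hR₂
  exact ⟨d, hd0, ⟨g1, g3, fun w hw => unodeA_R_pole D.R D.Q hq hqM t hpoles w hw,
    ⟨_, _, g2, g4, hv1, hv2'⟩⟩⟩

end Final

end Fermat.Agent.S36G
end
end MergeWrap_S36_Seed_UNodeAdapt

section MergeWrap_S36_Seed_UHorFinal -- from S36/Seed/UHorFinal.lean

set_option autoImplicit false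
set_option linter.style.haveILetI false
set_option linter.unusedSectionVars false
set_option linter.unusedVariables false
set_option synthInstance.maxHeartbeats 400000
set_option maxHeartbeats 1000000

noncomputable section

namespace Fermat.Agent.S36G

open ModularCurve AlgebraicCurve Fermat.Agent.F3 Fermat.Agent.F3G Fermat.Agent.GaussInt
  Fermat.Agent.Deuring Fermat.Agent.BadRed Fermat.Agent.HPVal Fermat.Agent.HP Fermat.Agent.RR
  Fermat.Agent.BadRedG Fermat.Agent.AtkinLehner Fermat.Agent.S36RegN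

local notation "Qb" => AlgebraicClosure ℚ

attribute [local instance 10000] SubalgebraClass.toAlgebra HahnSeries.powerSeriesAlgebra

/-! ### the reduction of the datum is fixed by the Frobenius -/

section Frob

variable {M₀ q : ℕ} [NeZero M₀] [NeZero q] (A : ValuationSubring Qb)
  [Fact q.Prime] [CharP (IsLocalRing.ResidueField A) q]
  [PerfectRing (IsLocalRing.ResidueField A) q]

/-- `t̄` has coefficients in the prime field. -/
theorem uhf_tbar_fixed (hA : A.LiesOverPrime q) (D : ALData) (hQ : D.Q = q) (hR : D.R = M₀)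
    (t : FBar M₀) (t0 : LaurentSeries ℚ) (ht : (t : LaurentSeries Qb) = coeffEmb Qb t0)
    (hint : ∀ n : ℤ, algebraMap ℚ Qb (t0.coeff n) ∈ A)
    (tbar : ↥(modularFunctionFieldFullC (IsLocalRing.ResidueField A) M₀))
    (htb : (tbar : LaurentSeries (IsLocalRing.ResidueField A)) =
      gaussResFun A (modularFunctionFieldBar M₀) (t : LaurentSeries Qb)) :
    frobAut (IsLocalRing.ResidueField A) M₀ q • tbar = tbar := by
  subst hQ hR
  haveI : NeZero (D.Q * D.R) := ⟨Nat.mul_ne_zero (NeZero.ne _) (NeZero.ne _)⟩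
  have hF := unode_isFrobInt_of_rat D A hA t t0 ht hint
  have hmem : emb A (Fermat.Agent.S36.kctLift A t0 hint) ∈ modularFunctionFieldBar D.R := by
    rw [hF.emb_eq]
    exact t.2
  apply Subtype.ext
  rw [coe_frobAut_smul, htb, ← hF.emb_eq, gaussResFun_emb hmem]
  exact red_frobStable_coeff hF.stable

/-- transport of a uniformiser `t̄ - c` by the Frobenius. -/
theorem uhf_ord_frob
    {tbar : ↥(modularFunctionFieldFullC (IsLocalRing.ResidueField A) M₀)}
    (hfix : frobAut (IsLocalRing.ResidueField A) M₀ q • tbar = tbar)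
    (Q : Place (IsLocalRing.ResidueField A)
      ↥(modularFunctionFieldFullC (IsLocalRing.ResidueField A) M₀))
    {c : IsLocalRing.ResidueField A}
    (hord : Q.ord (tbar - algebraMap (IsLocalRing.ResidueField A)
      ↥(modularFunctionFieldFullC (IsLocalRing.ResidueField A) M₀) c) = 1) :
    (frobAut (IsLocalRing.ResidueField A) M₀ q • Q).ord
      (tbar - algebraMap (IsLocalRing.ResidueField A)
        ↥(modularFunctionFieldFullC (IsLocalRing.ResidueField A) M₀) (c ^ q)) = 1 := by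
  have e : tbar - algebraMap (IsLocalRing.ResidueField A)
      ↥(modularFunctionFieldFullC (IsLocalRing.ResidueField A) M₀) (c ^ q) =
      frobAut (IsLocalRing.ResidueField A) M₀ q •
        (tbar - algebraMap (IsLocalRing.ResidueField A)
          ↥(modularFunctionFieldFullC (IsLocalRing.ResidueField A) M₀) c) := by
    rw [smul_sub, hfix, frobAut_smul_algebraMap]
  rw [e, SemilinearAut.ord_smul]
  exact hord

end Frob

/-! ### the constancy data of the two copies -/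

section Roots

variable {M₀ q : ℕ} [NeZero M₀] [NeZero q] {A : ValuationSubring Qb}
  [Fact q.Prime] [CharP (IsLocalRing.ResidueField A) q]
  [PerfectRing (IsLocalRing.ResidueField A) q]
  {S0 : Fermat.Agent.S18Key.RedSetup Qb (FBar M₀) (IsLocalRing.ResidueField A)
    ↥(modularFunctionFieldFullC (IsLocalRing.ResidueField A) M₀)}
  {P : Place (IsLocalRing.ResidueField A)
    ↥(modularFunctionFieldFullC (IsLocalRing.ResidueField A) M₀)}
  {FkP : Type} [Field FkP] [Algebra (IsLocalRing.ResidueField A) FkP]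

/-- the constant `c = res (a ^ q)` of the centre is fixed by `x ↦ x ^ (q²)`. -/
theorem uhf_c_pow (O : WPOut M₀ q A S0 P FkP) :
    IsLocalRing.residue A ⟨O.a ^ q, pow_mem O.a_mem q⟩ ^ (q ^ 2) =
      IsLocalRing.residue A ⟨O.a ^ q, pow_mem O.a_mem q⟩ := by
  rw [← map_pow]
  congr 1
  apply Subtype.ext
  show (O.a ^ q) ^ (q ^ 2) = O.a ^ q
  rw [← pow_mul, mul_comm, pow_mul, O.a_pow]

/-- the reduction of the datum, Gauss form. -/
theorem uhf_tbar (O : WPOut M₀ q A S0 P FkP) (hG : IsGaussRed M₀ A S0) :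
    ((S0.red O.t : ↥(modularFunctionFieldFullC (IsLocalRing.ResidueField A) M₀)) :
        LaurentSeries (IsLocalRing.ResidueField A)) =
      gaussResFun A (modularFunctionFieldBar M₀) (O.t : LaurentSeries Qb) :=
  hG.coe_red O.t (O.t_mem O.P' O.ss').1

/-- **the `β`-copies of `H`, `R` are constant on `w_P`** (`u₂` side; node `= O.P'`). -/
theorem uhorFinal_roots_b (O : WPOut M₀ q A S0 P FkP)
    (hFk : IsRRField (IsLocalRing.ResidueField A)
      ↥(modularFunctionFieldFullC (IsLocalRing.ResidueField A) M₀))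
    (hG : IsGaussRed M₀ A S0) (hq : q.Prime) (hqM : ¬ q ∣ M₀) (hA : A.LiesOverPrime q)
    (haux : AuxLevelOK q M₀) (hT : UHorDatum A O.t)
    (hno : ∀ u : ↥(modularFunctionFieldFullC (IsLocalRing.ResidueField A) M₀),
      (u : LaurentSeries (IsLocalRing.ResidueField A)) =
        ssFun (IsLocalRing.ResidueField A) q → O.P'.ord u = 12) :
    ∃ dH dR : IsLocalRing.ResidueField A, dH ≠ 0 ∧ dR ≠ 0 ∧
      UHorRoot O hFk (heckeBetaBar Qb (M₀ * q) q (uhH M₀ q O.t)) dH ∧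
      UHorRoot O hFk (heckeBetaBar Qb (M₀ * q) q (uhR M₀ q O.t)) dR := by
  obtain ⟨t0, ht, hint, hpoles⟩ := hT
  obtain ⟨D, hQ, hR⟩ := ALData.exists_of_coprime hq.pos (Nat.pos_of_ne_zero (NeZero.ne M₀))
    ((Nat.Prime.coprime_iff_not_dvd hq).mpr hqM)
  have hM : M₀ * q = D.Q * D.R := by rw [hQ, hR, mul_comm]
  obtain ⟨dH, hdH, gH⟩ := unodeGauss_H hq hA hqM D hQ hR hM haux O.t t0 ht hint hpoles O.P'
    O.ss' hno (S0.red O.t) (uhf_tbar O hG) (uhf_c_pow O) O.ord_t'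
  obtain ⟨dR, hdR, gR⟩ := unodeGauss_R hq hA hqM D hQ hR hM haux O.t t0 ht hint hpoles O.P'
    O.ss' hno (S0.red O.t) (uhf_tbar O hG) (uhf_c_pow O) O.ord_t'
  obtain ⟨yH, wH, hyH, hwH, v1H, v2H⟩ := gH.val
  obtain ⟨yR, wR, hyR, hwR, v1R, v2R⟩ := gR.val
  exact ⟨dH, dR, hdH, hdR,
    uhrm_root_b O hFk hG hq hqM hA D hQ hR hM _ gH.mem gH.wmem gH.pole yH wH hyH hwH dH v1H v2H,
    uhrm_root_b O hFk hG hq hqM hA D hQ hR hM _ gR.mem gR.wmem gR.pole yR wR hyR hwR dR v1R v2R⟩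

/-- **the `α`-copies of `H`, `R` are constant on `w_P`** (`u₁` side; node `= τ • O.P'`). -/
theorem uhorFinal_roots_a (O : WPOut M₀ q A S0 P FkP)
    (hFk : IsRRField (IsLocalRing.ResidueField A)
      ↥(modularFunctionFieldFullC (IsLocalRing.ResidueField A) M₀))
    (hG : IsGaussRed M₀ A S0) (hq : q.Prime) (hqM : ¬ q ∣ M₀) (hA : A.LiesOverPrime q)
    (haux : AuxLevelOK q M₀) (hT : UHorDatum A O.t)
    (hno : ∀ u : ↥(modularFunctionFieldFullC (IsLocalRing.ResidueField A) M₀),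
      (u : LaurentSeries (IsLocalRing.ResidueField A)) =
        ssFun (IsLocalRing.ResidueField A) q →
        (frobAut (IsLocalRing.ResidueField A) M₀ q • O.P').ord u = 12) :
    ∃ dH dR : IsLocalRing.ResidueField A, dH ≠ 0 ∧ dR ≠ 0 ∧
      UHorRoot O hFk (heckeAlphaBar Qb (M₀ * q) q (uhH M₀ q O.t)) dH ∧
      UHorRoot O hFk (heckeAlphaBar Qb (M₀ * q) q (uhR M₀ q O.t)) dR := by
  obtain ⟨t0, ht, hint, hpoles⟩ := hT
  obtain ⟨D, hQ, hR⟩ := ALData.exists_of_coprime hq.pos (Nat.pos_of_ne_zero (NeZero.ne M₀))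
    ((Nat.Prime.coprime_iff_not_dvd hq).mpr hqM)
  have hM : M₀ * q = D.Q * D.R := by rw [hQ, hR, mul_comm]
  have hfix := uhf_tbar_fixed A hA D hQ hR O.t t0 ht hint (S0.red O.t) (uhf_tbar O hG)
  have hord := uhf_ord_frob A hfix O.P' O.ord_t'
  have hc : (IsLocalRing.residue A ⟨O.a ^ q, pow_mem O.a_mem q⟩ ^ q) ^ (q ^ 2) =
      IsLocalRing.residue A ⟨O.a ^ q, pow_mem O.a_mem q⟩ ^ q := by
    rw [← pow_mul, mul_comm, pow_mul, uhf_c_pow O]
  have hss := centres_isSS_frob (IsLocalRing.ResidueField A) M₀ q O.ss'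
  have hτ : frobAut (IsLocalRing.ResidueField A) M₀ q • O.P' =
      (frobAut (IsLocalRing.ResidueField A) M₀ q)⁻¹ • O.P' :=
    ssFrob_smul_eq_inv_smul hq (Nat.pos_of_ne_zero (NeZero.ne M₀)) hqM haux A hA O.P' O.ss'
  obtain ⟨dH, hdH, gH⟩ := unodeGauss_H hq hA hqM D hQ hR hM haux O.t t0 ht hint hpoles _
    hss hno (S0.red O.t) (uhf_tbar O hG) hc hord
  obtain ⟨dR, hdR, gR⟩ := unodeGauss_R hq hA hqM D hQ hR hM haux O.t t0 ht hint hpoles _
    hss hno (S0.red O.t) (uhf_tbar O hG) hc hord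
  obtain ⟨yH, wH, hyH, hwH, v1H, v2H⟩ := gH.val
  obtain ⟨yR, wR, hyR, hwR, v1R, v2R⟩ := gR.val
  rw [inv_smul_smul] at v2H v2R
  rw [hτ] at v1H v1R
  exact ⟨dH, dR, hdH, hdR,
    uhrm_root_a O hFk hG hq hqM hA D hQ hR hM _ gH.mem gH.wmem gH.pole yH wH hyH hwH dH v2H v1H,
    uhrm_root_a O hFk hG hq hqM hA D hQ hR hM _ gR.mem gR.wmem gR.pole yR wR hyR hwR dR v2R v1R⟩

/-! ### the three reductions at one `P` -/

/-- **SEED-UP (2)**: `red_P (u₁ / ϖ ^ 12) = c X₁ ^ 12`, `c ≠ 0`. -/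
theorem uhorFinal_u1 (O : WPOut M₀ q A S0 P FkP)
    (hFk : IsRRField (IsLocalRing.ResidueField A)
      ↥(modularFunctionFieldFullC (IsLocalRing.ResidueField A) M₀))
    (hG : IsGaussRed M₀ A S0) (hq : q.Prime) (hqM : ¬ q ∣ M₀) (hA : A.LiesOverPrime q)
    (haux : AuxLevelOK q M₀) (hT : UHorDatum A O.t)
    (hno : ∀ Q : Place (IsLocalRing.ResidueField A)
        ↥(modularFunctionFieldFullC (IsLocalRing.ResidueField A) M₀),
      IsSSPlace (IsLocalRing.ResidueField A) M₀ q Q →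
      ∀ u : ↥(modularFunctionFieldFullC (IsLocalRing.ResidueField A) M₀),
        (u : LaurentSeries (IsLocalRing.ResidueField A)) =
          ssFun (IsLocalRing.ResidueField A) q → Q.ord u = 12) :
    ∃ c : IsLocalRing.ResidueField A, c ≠ 0 ∧
      uF (M₀ * q * q) q (uhasm_dvd1 M₀ q) / algebraMap Qb (FBar (M₀ * q * q)) (O.ϖ ^ 12) ∈
        O.S.Ov ∧
      O.S.red (uF (M₀ * q * q) q (uhasm_dvd1 M₀ q) /
          algebraMap Qb (FBar (M₀ * q * q)) (O.ϖ ^ 12)) =
        algebraMap (IsLocalRing.ResidueField A) FkP c * O.H.X1 ^ 12 := by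
  obtain ⟨dH, dR, hdH, hdR, hH, hR⟩ := uhorFinal_roots_a O hFk hG hq hqM hA haux hT
    (hno _ (centres_isSS_frob (IsLocalRing.ResidueField A) M₀ q O.ss'))
  exact uhorAsm_u1 O hFk hq hA hdH hdR hH hR

/-- **SEED-UP (1)**: `red_P (ϖ ^ 12 / u₁) = c (X₁ ^ 12)⁻¹`, `c ≠ 0`. -/
theorem uhorFinal_u1_inv (O : WPOut M₀ q A S0 P FkP)
    (hFk : IsRRField (IsLocalRing.ResidueField A)
      ↥(modularFunctionFieldFullC (IsLocalRing.ResidueField A) M₀))
    (hG : IsGaussRed M₀ A S0) (hq : q.Prime) (hqM : ¬ q ∣ M₀) (hA : A.LiesOverPrime q)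
    (haux : AuxLevelOK q M₀) (hT : UHorDatum A O.t)
    (hno : ∀ Q : Place (IsLocalRing.ResidueField A)
        ↥(modularFunctionFieldFullC (IsLocalRing.ResidueField A) M₀),
      IsSSPlace (IsLocalRing.ResidueField A) M₀ q Q →
      ∀ u : ↥(modularFunctionFieldFullC (IsLocalRing.ResidueField A) M₀),
        (u : LaurentSeries (IsLocalRing.ResidueField A)) =
          ssFun (IsLocalRing.ResidueField A) q → Q.ord u = 12) :
    ∃ c : IsLocalRing.ResidueField A, c ≠ 0 ∧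
      algebraMap Qb (FBar (M₀ * q * q)) (O.ϖ ^ 12) / uF (M₀ * q * q) q (uhasm_dvd1 M₀ q) ∈
        O.S.Ov ∧
      O.S.red (algebraMap Qb (FBar (M₀ * q * q)) (O.ϖ ^ 12) /
          uF (M₀ * q * q) q (uhasm_dvd1 M₀ q)) =
        algebraMap (IsLocalRing.ResidueField A) FkP c * (O.H.X1 ^ 12)⁻¹ := by
  obtain ⟨dH, dR, hdH, hdR, hH, hR⟩ := uhorFinal_roots_a O hFk hG hq hqM hA haux hT
    (hno _ (centres_isSS_frob (IsLocalRing.ResidueField A) M₀ q O.ss'))
  exact uhorAsm_u1_inv O hFk hq hA hdH hdR hH hR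

/-- **SEED-UP (A)**: `red_P (ϖ ^ (12 q) / u₂) = c X₂ ^ 12`, `c ≠ 0`. -/
theorem uhorFinal_u2 (O : WPOut M₀ q A S0 P FkP)
    (hFk : IsRRField (IsLocalRing.ResidueField A)
      ↥(modularFunctionFieldFullC (IsLocalRing.ResidueField A) M₀))
    (hG : IsGaussRed M₀ A S0) (hq : q.Prime) (hqM : ¬ q ∣ M₀) (hA : A.LiesOverPrime q)
    (haux : AuxLevelOK q M₀) (hT : UHorDatum A O.t)
    (hno : ∀ Q : Place (IsLocalRing.ResidueField A)
        ↥(modularFunctionFieldFullC (IsLocalRing.ResidueField A) M₀),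
      IsSSPlace (IsLocalRing.ResidueField A) M₀ q Q →
      ∀ u : ↥(modularFunctionFieldFullC (IsLocalRing.ResidueField A) M₀),
        (u : LaurentSeries (IsLocalRing.ResidueField A)) =
          ssFun (IsLocalRing.ResidueField A) q → Q.ord u = 12) :
    ∃ c : IsLocalRing.ResidueField A, c ≠ 0 ∧
      algebraMap Qb (FBar (M₀ * q * q)) (O.ϖ ^ (12 * q)) /
        uF2 (M₀ * q * q) q (uhasm_dvd2 M₀ q) ∈ O.S.Ov ∧
      O.S.red (algebraMap Qb (FBar (M₀ * q * q)) (O.ϖ ^ (12 * q)) /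
          uF2 (M₀ * q * q) q (uhasm_dvd2 M₀ q)) =
        algebraMap (IsLocalRing.ResidueField A) FkP c * O.H.X2 ^ 12 := by
  obtain ⟨dH, dR, hdH, hdR, hH, hR⟩ := uhorFinal_roots_b O hFk hG hq hqM hA haux hT
    (hno _ O.ss')
  exact uhorAsm_u2 O hFk hq hA hdH hdR hH hR

end Roots

/-! ### the family -/

section Family

variable {M₀ q : ℕ} [NeZero M₀] [NeZero q] {A : ValuationSubring Qb}
  [Fact q.Prime] [CharP (IsLocalRing.ResidueField A) q]
  [PerfectRing (IsLocalRing.ResidueField A) q]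
  {S0 : Fermat.Agent.S18Key.RedSetup Qb (FBar M₀) (IsLocalRing.ResidueField A)
    ↥(modularFunctionFieldFullC (IsLocalRing.ResidueField A) M₀)} {ϖ : Qb}
  (W : WPFamily M₀ q A S0 ϖ)
  {Mid : Type}
  {Fk0 : Type} [Field Fk0] [Algebra (IsLocalRing.ResidueField A) Fk0]
  {FkM : Mid → Type} [∀ m, Field (FkM m)] [∀ m, Algebra (IsLocalRing.ResidueField A) (FkM m)]
  (Soo S00 : ValSetup Qb (FBar (M₀ * q * q)) (IsLocalRing.ResidueField A) Fk0)
  (Sm : ∀ m, ValSetup Qb (FBar (M₀ * q * q)) (IsLocalRing.ResidueField A) (FkM m))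
  (hFk : IsRRField (IsLocalRing.ResidueField A)
    ↥(modularFunctionFieldFullC (IsLocalRing.ResidueField A) M₀))
  (hG : IsGaussRed M₀ A S0) (hq : q.Prime) (hqM : ¬ q ∣ M₀) (hA : A.LiesOverPrime q)
  (haux : AuxLevelOK q M₀) (hT : ∀ P, UHorDatum A (W.t P))
  (hno : ∀ Q : Place (IsLocalRing.ResidueField A)
      ↥(modularFunctionFieldFullC (IsLocalRing.ResidueField A) M₀),
    IsSSPlace (IsLocalRing.ResidueField A) M₀ q Q →
    ∀ u : ↥(modularFunctionFieldFullC (IsLocalRing.ResidueField A) M₀),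
      (u : LaurentSeries (IsLocalRing.ResidueField A)) =
        ssFun (IsLocalRing.ResidueField A) q → Q.ord u = 12)

include hFk hG hq hqM hA haux hT hno

/-- **`EndsRed2`** for `x2 = u₁ / ϖ ^ 12`. -/
theorem uhorFinal_endsRed2 :
    EndsRed2 (vtxFamily Soo S00 Sm W.S) W.H
      (uF (M₀ * q * q) q (uhasm_dvd1 M₀ q) / algebraMap Qb (FBar (M₀ * q * q)) (ϖ ^ 12)) := by
  intro P
  obtain ⟨c, hc, -, hr⟩ := uhorFinal_u1 (W.O P) hFk hG hq hqM hA haux (hT P) hno
  rw [W.ϖ_eq P] at hr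
  exact ⟨c, hc, hr⟩

/-- **`EndsRed1`** for `x1 = ϖ ^ 12 / u₁`. -/
theorem uhorFinal_endsRed1 :
    EndsRed1 (vtxFamily Soo S00 Sm W.S) W.H
      (algebraMap Qb (FBar (M₀ * q * q)) (ϖ ^ 12) / uF (M₀ * q * q) q (uhasm_dvd1 M₀ q)) := by
  intro P
  obtain ⟨c, hc, -, hr⟩ := uhorFinal_u1_inv (W.O P) hFk hG hq hqM hA haux (hT P) hno
  rw [W.ϖ_eq P] at hr
  exact ⟨c, hc, hr⟩

/-- **`EndsRedA`** for `xA = ϖ ^ (12 q) / u₂`. -/
theorem uhorFinal_endsRedA :
    EndsRedA (vtxFamily Soo S00 Sm W.S) W.H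
      (algebraMap Qb (FBar (M₀ * q * q)) (ϖ ^ (12 * q)) /
        uF2 (M₀ * q * q) q (uhasm_dvd2 M₀ q)) := by
  intro P
  obtain ⟨c, hc, -, hr⟩ := uhorFinal_u2 (W.O P) hFk hG hq hqM hA haux (hT P) hno
  rw [W.ϖ_eq P] at hr
  exact ⟨c, hc, hr⟩

end Family

end Fermat.Agent.S36G
end
end MergeWrap_S36_Seed_UHorFinal

section MergeWrap_S36_G_ModularGraphEndsFinal -- from S36/G/ModularGraphEndsFinal.lean

set_option autoImplicit false
set_option linter.style.haveILetI false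
set_option linter.unusedSectionVars false
set_option linter.unusedVariables false
set_option synthInstance.maxHeartbeats 400000
set_option maxHeartbeats 1600000

noncomputable section

namespace Fermat.Agent.S36G

open IntermediateField ModularCurve AlgebraicCurve Fermat.Agent.F3 Fermat.Agent.F3G
  Fermat.Agent.GaussInt Fermat.Agent.AtkinLehner Fermat.Agent.Kronecker Fermat.Agent.BadRed
  Fermat.Agent.BadRedG Fermat.Agent.Deuring Fermat.Agent.RR Fermat.Agent.HP Fermat.Agent.HPVal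

local notation "Qb" => AlgebraicClosure ℚ

attribute [local instance 10000] SubalgebraClass.toAlgebra HahnSeries.powerSeriesAlgebra

section Leaves

variable {M₀ q : ℕ} [NeZero M₀] [NeZero q] {A : ValuationSubring Qb}
  [Fact q.Prime] [CharP (IsLocalRing.ResidueField A) q]
  [PerfectRing (IsLocalRing.ResidueField A) q] (X : ModWorld M₀ q A)

/-- `ord_Q ssFun = 12` at the supersingular places (no elliptic points). -/
theorem mge_hno (hq : q.Prime) (hqM : ¬ q ∣ M₀) (hA : A.LiesOverPrime q)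
    (haux : AuxLevelOK q M₀) (hν2 : nuTwo M₀ = 0) (hν3 : nuThree M₀ = 0)
    (Q : Place (IsLocalRing.ResidueField A)
      ↥(modularFunctionFieldFullC (IsLocalRing.ResidueField A) M₀))
    (hQ : IsSSPlace (IsLocalRing.ResidueField A) M₀ q Q)
    (u : ↥(modularFunctionFieldFullC (IsLocalRing.ResidueField A) M₀))
    (hu : (u : LaurentSeries (IsLocalRing.ResidueField A)) =
      ssFun (IsLocalRing.ResidueField A) q) : Q.ord u = 12 :=
  sev_hno_aux M₀ hq hqM hν2 hν3 haux hA Q hQ u hu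

/-- **SEED-UP (A)**: `EndsRedA` for `xA = ϖ ^ (12 q) / u₂`. -/
theorem mge_hxA (hq : q.Prime) (hqM : ¬ q ∣ M₀) (hA : A.LiesOverPrime q)
    (haux : AuxLevelOK q M₀) (hν2 : nuTwo M₀ = 0) (hν3 : nuThree M₀ = 0)
    (htd : ∀ P, WPTDat M₀ A (X.W.O P).t) :
    EndsRedA X.S (fun P => (X.W.O P).H)
      (algebraMap Qb (FBar (M₀ * q * q)) (X.ϖ ^ (12 * q)) / ModWorld.uA M₀ q) :=
  uhorFinal_endsRedA X.W X.Soo (valSetupZeroAt X.D₀ X.hM₀ X.Soo) X.I.S (wpd_hFk A M₀) X.hS0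
    hq hqM hA haux htd (mge_hno hq hqM hA haux hν2 hν3)

/-- **SEED-UP (2)**: `EndsRed2` for `x2 = u₁ / ϖ ^ 12`. -/
theorem mge_hx2 (hq : q.Prime) (hqM : ¬ q ∣ M₀) (hA : A.LiesOverPrime q)
    (haux : AuxLevelOK q M₀) (hν2 : nuTwo M₀ = 0) (hν3 : nuThree M₀ = 0)
    (htd : ∀ P, WPTDat M₀ A (X.W.O P).t) :
    EndsRed2 X.S (fun P => (X.W.O P).H)
      (ModWorld.u1 M₀ q / algebraMap Qb (FBar (M₀ * q * q)) (X.ϖ ^ 12)) :=
  uhorFinal_endsRed2 X.W X.Soo (valSetupZeroAt X.D₀ X.hM₀ X.Soo) X.I.S (wpd_hFk A M₀) X.hS0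
    hq hqM hA haux htd (mge_hno hq hqM hA haux hν2 hν3)

variable [IsAlgClosed (IsLocalRing.ResidueField A)]

/-- **field `zA`.** -/
theorem mge_zA (hq : q.Prime) (hqM : ¬ q ∣ M₀) (hA : A.LiesOverPrime q)
    (Q : Place (IsLocalRing.ResidueField A)
      (FkOf ↥(modularFunctionFieldFullC (IsLocalRing.ResidueField A) M₀)
        (fun _ : Fin (midCard q) => ↥(igField (IsLocalRing.ResidueField A) M₀)) X.W.FkP
        (Vtx.vert Vrt.oo)))
    (hQ : 0 < Q.ord ((X.S (Vtx.vert Vrt.oo)).red (ModWorld.uA M₀ q))) :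
    ∃ P, sevModPv M₀ q hq hqM (Fin (midCard q)) X.W.FkP P Vrt.oo = Q :=
  sevAt_zA q X.W.FkP X.S (sevModPv M₀ q hq hqM (Fin (midCard q)) X.W.FkP) hq hA X.hSoo
    (umid_dvd2 M₀ q) (sevModPv_surj_oo M₀ q hq hqM (Fin (midCard q)) X.W.FkP) Q hQ

/-- **field `oA`.** -/
theorem mge_oA (hq : q.Prime) (hqM : ¬ q ∣ M₀) (hA : A.LiesOverPrime q)
    (haux : AuxLevelOK q M₀) (hν2 : nuTwo M₀ = 0) (hν3 : nuThree M₀ = 0)
    (P : ModSS A M₀ q) :
    (sevModPv M₀ q hq hqM (Fin (midCard q)) X.W.FkP P Vrt.oo).ord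
      ((X.S (Vtx.vert Vrt.oo)).red (ModWorld.uA M₀ q)) = 12 * (q : ℤ) :=
  sevAt_oA q X.W.FkP X.S (sevModPv M₀ q hq hqM (Fin (midCard q)) X.W.FkP) hq hA X.hSoo
    (mge_hno hq hqM hA haux hν2 hν3) (umid_dvd2 M₀ q)
    (sevModPv_ss_oo M₀ q hq hqM (Fin (midCard q)) X.W.FkP) P

/-- **field `z1oo`.** -/
theorem mge_z1oo (hq : q.Prime) (hqM : ¬ q ∣ M₀) (hA : A.LiesOverPrime q)
    (Q : Place (IsLocalRing.ResidueField A)
      (FkOf ↥(modularFunctionFieldFullC (IsLocalRing.ResidueField A) M₀)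
        (fun _ : Fin (midCard q) => ↥(igField (IsLocalRing.ResidueField A) M₀)) X.W.FkP
        (Vtx.vert Vrt.oo)))
    (hQ : 0 < Q.ord ((X.S (Vtx.vert Vrt.oo)).red (ModWorld.u1 M₀ q))) :
    ∃ P, sevModPv M₀ q hq hqM (Fin (midCard q)) X.W.FkP P Vrt.oo = Q :=
  sevAt_z1oo q X.W.FkP X.S (sevModPv M₀ q hq hqM (Fin (midCard q)) X.W.FkP) hq hA X.hSoo
    (umid_dvd1 M₀ q) (sevModPv_surj_oo M₀ q hq hqM (Fin (midCard q)) X.W.FkP) Q hQ

/-- **field `o1oo`.** -/
theorem mge_o1oo (hq : q.Prime) (hqM : ¬ q ∣ M₀) (hA : A.LiesOverPrime q)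
    (haux : AuxLevelOK q M₀) (hν2 : nuTwo M₀ = 0) (hν3 : nuThree M₀ = 0)
    (P : ModSS A M₀ q) :
    (sevModPv M₀ q hq hqM (Fin (midCard q)) X.W.FkP P Vrt.oo).ord
      ((X.S (Vtx.vert Vrt.oo)).red (ModWorld.u1 M₀ q)) = 12 :=
  sevAt_o1oo q X.W.FkP X.S (sevModPv M₀ q hq hqM (Fin (midCard q)) X.W.FkP) hq hA X.hSoo
    (mge_hno hq hqM hA haux hν2 hν3) (umid_dvd1 M₀ q)
    (sevModPv_ss_oo M₀ q hq hqM (Fin (midCard q)) X.W.FkP) P

/-- **field `z1m`.** -/
theorem mge_z1m (hq : q.Prime) (hqM : ¬ q ∣ M₀) (hA : A.LiesOverPrime q)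
    (haux : AuxLevelOK q M₀) (hν2 : nuTwo M₀ = 0) (hν3 : nuThree M₀ = 0)
    (m : Fin (midCard q))
    (Q : Place (IsLocalRing.ResidueField A)
      (FkOf ↥(modularFunctionFieldFullC (IsLocalRing.ResidueField A) M₀)
        (fun _ : Fin (midCard q) => ↥(igField (IsLocalRing.ResidueField A) M₀)) X.W.FkP
        (Vtx.vert (Vrt.mid m))))
    (hQ : 0 < Q.ord ((X.S (Vtx.vert (Vrt.mid m))).red (ModWorld.u1 M₀ q))) :
    ∃ P, sevModPv M₀ q hq hqM (Fin (midCard q)) X.W.FkP P (Vrt.mid m) = Q :=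
  sevAt_z1m M₀ q X.W.FkP X.S (sevModPv M₀ q hq hqM (Fin (midCard q)) X.W.FkP) hq hqM hA
    X.hSoo X.I.isMidExp X.I.isMidSetup (mge_hno hq hqM hA haux hν2 hν3)
    (sevModPv_surj_mid M₀ q hq hqM (Fin (midCard q)) X.W.FkP) m Q hQ

/-- **field `o1m`.** -/
theorem mge_o1m (hq : q.Prime) (hqM : ¬ q ∣ M₀) (hA : A.LiesOverPrime q)
    (haux : AuxLevelOK q M₀) (hν2 : nuTwo M₀ = 0) (hν3 : nuThree M₀ = 0)
    (P : ModSS A M₀ q) (m : Fin (midCard q)) :
    (sevModPv M₀ q hq hqM (Fin (midCard q)) X.W.FkP P (Vrt.mid m)).ord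
      ((X.S (Vtx.vert (Vrt.mid m))).red (ModWorld.u1 M₀ q)) = 12 * (midDeg q : ℤ) :=
  sevAt_o1m M₀ q X.W.FkP X.S (sevModPv M₀ q hq hqM (Fin (midCard q)) X.W.FkP) hq hqM hA
    X.hSoo X.I.isMidExp X.I.isMidSetup (mge_hno hq hqM hA haux hν2 hν3)
    (sevModPv_ss_mid M₀ q hq hqM (Fin (midCard q)) X.W.FkP) P m

/-- **field `z2`.** -/
theorem mge_z2 (hq : q.Prime) (hqM : ¬ q ∣ M₀) (hA : A.LiesOverPrime q)
    (Q : Place (IsLocalRing.ResidueField A)
      (FkOf ↥(modularFunctionFieldFullC (IsLocalRing.ResidueField A) M₀)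
        (fun _ : Fin (midCard q) => ↥(igField (IsLocalRing.ResidueField A) M₀)) X.W.FkP
        (Vtx.vert Vrt.zero)))
    (hQ : 0 < Q.ord ((X.S (Vtx.vert Vrt.zero)).red
      (algebraMap Qb (FBar (M₀ * q * q)) ((q : Qb) ^ 12 / X.ϖ ^ 12) /
        (ModWorld.u1 M₀ q / algebraMap Qb (FBar (M₀ * q * q)) (X.ϖ ^ 12))))) :
    ∃ P, sevModPv M₀ q hq hqM (Fin (midCard q)) X.W.FkP P Vrt.zero = Q :=
  sevAt_z2 X.D₀ q X.W.FkP X.S (sevModPv M₀ q hq hqM (Fin (midCard q)) X.W.FkP) hq hA X.hSoo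
    X.hM₀ (mge_hR X hq) (mge_hQ X) rfl (umid_dvd1 M₀ q) (pow_ne_zero 12 (X.ϖ_ne hq))
    (sevModPv_surj_zero M₀ q hq hqM (Fin (midCard q)) X.W.FkP) Q hQ

/-- **field `o2`.** -/
theorem mge_o2 (hq : q.Prime) (hqM : ¬ q ∣ M₀) (hA : A.LiesOverPrime q)
    (haux : AuxLevelOK q M₀) (hν2 : nuTwo M₀ = 0) (hν3 : nuThree M₀ = 0)
    (P : ModSS A M₀ q) :
    (sevModPv M₀ q hq hqM (Fin (midCard q)) X.W.FkP P Vrt.zero).ord
      ((X.S (Vtx.vert Vrt.zero)).red
        (algebraMap Qb (FBar (M₀ * q * q)) ((q : Qb) ^ 12 / X.ϖ ^ 12) /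
          (ModWorld.u1 M₀ q / algebraMap Qb (FBar (M₀ * q * q)) (X.ϖ ^ 12)))) =
      12 * (q : ℤ) :=
  sevAt_o2 X.D₀ q X.W.FkP X.S (sevModPv M₀ q hq hqM (Fin (midCard q)) X.W.FkP) hq hA X.hSoo
    (mge_hno hq hqM hA haux hν2 hν3) X.hM₀ (mge_hR X hq) (mge_hQ X) rfl (umid_dvd1 M₀ q)
    (pow_ne_zero 12 (X.ϖ_ne hq)) (sevModPv_ss_zero M₀ q hq hqM (Fin (midCard q)) X.W.FkP) P

end Leaves

namespace ModWorld

variable {M₀ q : ℕ} [NeZero M₀] [NeZero q] {A : ValuationSubring Qb}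
  [Fact q.Prime] [CharP (IsLocalRing.ResidueField A) q]
  [PerfectRing (IsLocalRing.ResidueField A) q] (X : ModWorld M₀ q A)
  [Fintype (ModSS A M₀ q)] [IsAlgClosed (IsLocalRing.ResidueField A)]

/-- **THE `ModEndsInput` OF THE MODULAR GRAPH**, all leaves discharged: `pv := sevModPv`,
`S := X.S`, `uA = uF2`, `u1 = uF`, `u2 = u1 / ϖ ^ 12`, `ϖA = ϖ ^ (12 q)`, `ϖ1 = ϖ ^ 12`,
`ϖ2 = q ^ 12 / ϖ ^ 12`. -/
def endsFinal (hq : q.Prime) (hqM : ¬ q ∣ M₀) (hA : A.LiesOverPrime q)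
    (haux : AuxLevelOK q M₀) (hν2 : nuTwo M₀ = 0) (hν3 : nuThree M₀ = 0)
    (htd : ∀ P, WPTDat M₀ A (X.W.O P).t) :
    ModEndsInput Qb (FBar (M₀ * q * q)) (IsLocalRing.ResidueField A) (Fin (midCard q))
      (ModSS A M₀ q) ↥(modularFunctionFieldFullC (IsLocalRing.ResidueField A) M₀)
      (fun _ : Fin (midCard q) => ↥(igField (IsLocalRing.ResidueField A) M₀)) X.W.FkP :=
  X.endsOfUp hq hqM hA haux hν2 hν3 (mge_hxA X hq hqM hA haux hν2 hν3 htd)
    (mge_hx2 X hq hqM hA haux hν2 hν3 htd) (mge_zA X hq hqM hA)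
    (mge_oA X hq hqM hA haux hν2 hν3) (mge_z1oo X hq hqM hA)
    (mge_o1oo X hq hqM hA haux hν2 hν3) (mge_z1m X hq hqM hA haux hν2 hν3)
    (mge_o1m X hq hqM hA haux hν2 hν3) (mge_z2 X hq hqM hA)
    (mge_o2 X hq hqM hA haux hν2 hν3)

theorem endsFinal_eq_endsOfUp (hq : q.Prime) (hqM : ¬ q ∣ M₀) (hA : A.LiesOverPrime q)
    (haux : AuxLevelOK q M₀) (hν2 : nuTwo M₀ = 0) (hν3 : nuThree M₀ = 0)
    (htd : ∀ P, WPTDat M₀ A (X.W.O P).t) :
    X.endsFinal hq hqM hA haux hν2 hν3 htd =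
      X.endsOfUp hq hqM hA haux hν2 hν3 (mge_hxA X hq hqM hA haux hν2 hν3 htd)
        (mge_hx2 X hq hqM hA haux hν2 hν3 htd) (mge_zA X hq hqM hA)
        (mge_oA X hq hqM hA haux hν2 hν3) (mge_z1oo X hq hqM hA)
        (mge_o1oo X hq hqM hA haux hν2 hν3) (mge_z1m X hq hqM hA haux hν2 hν3)
        (mge_o1m X hq hqM hA haux hν2 hν3) (mge_z2 X hq hqM hA)
        (mge_o2 X hq hqM hA haux hν2 hν3) := rfl

theorem endsFinal_S (hq : q.Prime) (hqM : ¬ q ∣ M₀) (hA : A.LiesOverPrime q)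
    (haux : AuxLevelOK q M₀) (hν2 : nuTwo M₀ = 0) (hν3 : nuThree M₀ = 0)
    (htd : ∀ P, WPTDat M₀ A (X.W.O P).t) :
    (X.endsFinal hq hqM hA haux hν2 hν3 htd).S = X.S := rfl

theorem endsFinal_pv (hq : q.Prime) (hqM : ¬ q ∣ M₀) (hA : A.LiesOverPrime q)
    (haux : AuxLevelOK q M₀) (hν2 : nuTwo M₀ = 0) (hν3 : nuThree M₀ = 0)
    (htd : ∀ P, WPTDat M₀ A (X.W.O P).t) :
    (X.endsFinal hq hqM hA haux hν2 hν3 htd).pv =
      sevModPv M₀ q hq hqM (Fin (midCard q)) X.W.FkP := rfl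

theorem endsFinal_uA (hq : q.Prime) (hqM : ¬ q ∣ M₀) (hA : A.LiesOverPrime q)
    (haux : AuxLevelOK q M₀) (hν2 : nuTwo M₀ = 0) (hν3 : nuThree M₀ = 0)
    (htd : ∀ P, WPTDat M₀ A (X.W.O P).t) :
    (X.endsFinal hq hqM hA haux hν2 hν3 htd).uA = uA M₀ q := rfl

theorem endsFinal_u1 (hq : q.Prime) (hqM : ¬ q ∣ M₀) (hA : A.LiesOverPrime q)
    (haux : AuxLevelOK q M₀) (hν2 : nuTwo M₀ = 0) (hν3 : nuThree M₀ = 0)
    (htd : ∀ P, WPTDat M₀ A (X.W.O P).t) :
    (X.endsFinal hq hqM hA haux hν2 hν3 htd).u1 = u1 M₀ q := rfl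

theorem endsFinal_u2 (hq : q.Prime) (hqM : ¬ q ∣ M₀) (hA : A.LiesOverPrime q)
    (haux : AuxLevelOK q M₀) (hν2 : nuTwo M₀ = 0) (hν3 : nuThree M₀ = 0)
    (htd : ∀ P, WPTDat M₀ A (X.W.O P).t) :
    (X.endsFinal hq hqM hA haux hν2 hν3 htd).u2 =
      u1 M₀ q / algebraMap Qb (FBar (M₀ * q * q)) (X.ϖ ^ 12) := rfl

theorem endsFinal_ϖA (hq : q.Prime) (hqM : ¬ q ∣ M₀) (hA : A.LiesOverPrime q)
    (haux : AuxLevelOK q M₀) (hν2 : nuTwo M₀ = 0) (hν3 : nuThree M₀ = 0)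
    (htd : ∀ P, WPTDat M₀ A (X.W.O P).t) :
    (X.endsFinal hq hqM hA haux hν2 hν3 htd).ϖA = X.ϖ ^ (12 * q) := rfl

theorem endsFinal_ϖ1 (hq : q.Prime) (hqM : ¬ q ∣ M₀) (hA : A.LiesOverPrime q)
    (haux : AuxLevelOK q M₀) (hν2 : nuTwo M₀ = 0) (hν3 : nuThree M₀ = 0)
    (htd : ∀ P, WPTDat M₀ A (X.W.O P).t) :
    (X.endsFinal hq hqM hA haux hν2 hν3 htd).ϖ1 = X.ϖ ^ 12 := rfl

theorem endsFinal_ϖ2 (hq : q.Prime) (hqM : ¬ q ∣ M₀) (hA : A.LiesOverPrime q)
    (haux : AuxLevelOK q M₀) (hν2 : nuTwo M₀ = 0) (hν3 : nuThree M₀ = 0)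
    (htd : ∀ P, WPTDat M₀ A (X.W.O P).t) :
    (X.endsFinal hq hqM hA haux hν2 hν3 htd).ϖ2 = (q : Qb) ^ 12 / X.ϖ ^ 12 := rfl

end ModWorld

end Fermat.Agent.S36G
end
end MergeWrap_S36_G_ModularGraphEndsFinal

section MergeWrap_S36_G_ModWorldGenus -- from S36/G/ModWorldGenus.lean

set_option autoImplicit false
set_option linter.style.haveILetI false
set_option linter.unusedSectionVars false
set_option linter.unusedVariables false
set_option synthInstance.maxHeartbeats 400000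
set_option maxHeartbeats 1600000

/-!
# Cluster G (S36), MG-INST: the core fields and the numerical side of the modular world (helper40)

For `X : ModWorld M₀ q A` (`S36/G/ModularGraphInst.lean`):

* `ModWorld.S_Aeq`, `S_res`, `S_res_eq` : the fields `A_eq`, `res_eq` of the core (`hAeq`, `hres`
  of the `MNData` producers), through helper25's `modCore_*` (NO definitional unfolding of
  `valSetupZeroAt`);
* `ModWorld.S_indep` : **`indep`** (`hindep`), helper19's `modIndep_wp`;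
* `ModWorld.hgenus`  : **the genus inequality `hgenus`** of the seed
  (`E.ymodSeed`, `E.ymodSeedFull`, `modSeedOfLeaves`), from helper91's `gen_genus_le_family`;
* `ModWorld.he`      : `midDeg q * card (Fin (midCard q)) + 1 = q` (the field `hq` of
  `CoreBundle`, `e = midDeg q`);
* `ModWorld.hEA`     : `(X.S (vert ∞)).A = A` (the field `hA` of `CoreBundle`);
* `ModWorld.ϖ2_eq`   : `q ^ 12 / ϖ ^ 12 = ϖ ^ (12 q)`.
-/

noncomputable section

namespace Fermat.Agent.S36G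

open ModularCurve AlgebraicCurve Fermat.Agent.F3 Fermat.Agent.F3G Fermat.Agent.GaussInt
  Fermat.Agent.AtkinLehner Fermat.Agent.Kronecker Fermat.Agent.BadRed Fermat.Agent.BadRedG
  Fermat.Agent.Deuring Fermat.Agent.RR Fermat.Agent.HP Fermat.Agent.HPVal

local notation "Qb" => AlgebraicClosure ℚ

namespace ModWorld

variable {M₀ q : ℕ} [NeZero M₀] [NeZero q] {A : ValuationSubring Qb}
  [Fact q.Prime] [CharP (IsLocalRing.ResidueField A) q]
  [PerfectRing (IsLocalRing.ResidueField A) q] (X : ModWorld M₀ q A)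

/-- `A_eq` of the core. -/
theorem S_Aeq (c c' : Vtx (Fin (midCard q)) (ModSS A M₀ q)) : (X.S c).A = (X.S c').A := by
  rw [X.S_A c, X.S_A c']

/-- the residue map of the constants is the one of `A` on every component. -/
theorem S_res (c : Vtx (Fin (midCard q)) (ModSS A M₀ q)) (x : Qb) (h : x ∈ (X.S c).A)
    (h' : x ∈ A) : (X.S c).res ⟨x, h⟩ = IsLocalRing.residue A ⟨x, h'⟩ :=
  modCore_res X.Soo X.D₀ X.hM₀ X.I.S X.W.O X.I.ε X.hSoo X.I.isMidSetup c x h h'

/-- `res_eq` of the core. -/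
theorem S_res_eq (c c' : Vtx (Fin (midCard q)) (ModSS A M₀ q)) (x : Qb) (h : x ∈ (X.S c).A)
    (h' : x ∈ (X.S c').A) : (X.S c).res ⟨x, h⟩ = (X.S c').res ⟨x, h'⟩ :=
  modCore_res_eq X.Soo X.D₀ X.hM₀ X.I.S X.W.O X.I.ε X.hSoo X.I.isMidSetup c c' x h h'

/-- **`indep`**: the constant reductions of the modular world are pairwise incomparable. -/
theorem S_indep (hq : q.Prime) (hqM : ¬ q ∣ M₀) (hA : A.LiesOverPrime q)
    (haux : AuxLevelOK q M₀) (c c' : Vtx (Fin (midCard q)) (ModSS A M₀ q)) (hne : c ≠ c') :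
    ¬ (X.S c).Ov ≤ (X.S c').Ov :=
  modIndep_wp hq hqM A hA X.hS0 X.Soo X.hSoo X.D₀ X.hD₀ X.hM₀ X.I.S X.I.z X.I.ε X.I.prim
    X.I.isMidExp (fun m => (X.I.isMidSetup m).mem_iff) (fun m => (X.I.isMidSetup m).A_eq)
    ModSS.place X.W.O haux ModSS.place_injective (fun P => P.isSS) X.I.indep c c' hne

/-- **`hgenus`** for the modular world (any `Fintype` structures). -/
theorem hgenus (hq : q.Prime) (hqM : ¬ q ∣ M₀) (hν2 : nuTwo M₀ = 0) (hν3 : nuThree M₀ = 0)
    (h2 : q = 2 → 3 ∣ M₀) (h3 : q = 3 → 2 ∣ M₀) (hA : A.LiesOverPrime q)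
    [Fintype (ModSS A M₀ q)] [Fintype (Vtx (Fin (midCard q)) (ModSS A M₀ q))]
    [Fintype (Nod (Fin (midCard q)) (ModSS A M₀ q))] :
    genusFF Qb (FBar (M₀ * q * q)) + Fintype.card (Vtx (Fin (midCard q)) (ModSS A M₀ q)) ≤
      (∑ c : Vtx (Fin (midCard q)) (ModSS A M₀ q), genusFF (IsLocalRing.ResidueField A)
        (FkOf ↥(modularFunctionFieldFullC (IsLocalRing.ResidueField A) M₀)
          (fun _ : Fin (midCard q) => ↥(igField (IsLocalRing.ResidueField A) M₀)) X.W.FkP c)) +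
        Fintype.card (Nod (Fin (midCard q)) (ModSS A M₀ q)) + 1 :=
  gen_genus_le_family M₀ (M₀ * q * q) hq hqM rfl hν2 hν3 h2 h3 hA (Fintype.card_fin _)
    (fun P : ModSS A M₀ q => (P : SSPl M₀ q A)) Function.bijective_id X.W.FkP
    (fun P => (X.W.O P).H)

/-- the field `hq` of `CoreBundle` with `e = midDeg q`. -/
theorem he (hq : q.Prime) : midDeg q * Fintype.card (Fin (midCard q)) + 1 = q := by
  rw [Fintype.card_fin, mul_comm, gen_midCard_mul_midDeg hq]
  have := hq.one_lt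
  omega

/-- `ϖ₂ = q ^ 12 / ϖ ^ 12 = ϖ ^ (12 q)`. -/
theorem ϖ2_eq (hq : q.Prime) : (q : Qb) ^ 12 / X.ϖ ^ 12 = X.ϖ ^ (12 * q) := by
  have h0 := X.ϖ_ne hq
  rw [div_eq_iff (pow_ne_zero 12 h0), ← X.hϖ, ← pow_mul, ← pow_add]
  congr 1
  ring

/-- the field `hA` of `CoreBundle`. -/
theorem hEA : (X.S (Vtx.vert Vrt.oo)).A = A := X.hSoo.A_eq

end ModWorld

end Fermat.Agent.S36G
end
end MergeWrap_S36_G_ModWorldGenus

section MergeWrap_S36_G_CoreBundleInst -- from S36/G/CoreBundleInst.lean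

set_option autoImplicit false
set_option linter.style.haveILetI false
set_option linter.unusedSectionVars false
set_option linter.unusedVariables false
set_option synthInstance.maxHeartbeats 400000
set_option maxHeartbeats 1600000

noncomputable section

open AlgebraicCurve Fermat.Agent.RR Fermat.Agent.Deuring

namespace Fermat.Agent.S36G

open ModularCurve Fermat.Agent.F3 Fermat.Agent.F3G Fermat.Agent.GaussInt
  Fermat.Agent.AtkinLehner Fermat.Agent.Kronecker Fermat.Agent.BadRed Fermat.Agent.BadRedG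
  Fermat.Agent.HP Fermat.Agent.HPVal

local notation "Qb" => AlgebraicClosure ℚ

attribute [local instance] Fermat.Agent.GaussInt.isAlgClosed_residue
  Fermat.Agent.GaussInt.infinite_residue

attribute [local instance 10000] SubalgebraClass.toAlgebra HahnSeries.powerSeriesAlgebra

section World

variable {M₀ q : ℕ} [NeZero M₀] [NeZero q] [hN₁ : NeZero (M₀ * q)] {A : ValuationSubring Qb}
  [Fact q.Prime] [CharP (IsLocalRing.ResidueField A) q]
  [PerfectRing (IsLocalRing.ResidueField A) q]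

/-- **the bundle of the modular world.** -/
theorem cbi_of_world (X : ModWorld M₀ q A) (hq : q.Prime) (hqM : ¬ q ∣ M₀)
    (hA : A.LiesOverPrime q) (haux : AuxLevelOK q M₀) (hν2 : nuTwo M₀ = 0)
    (hν3 : nuThree M₀ = 0) (htd : ∀ P, WPTDat M₀ A (X.W.O P).t) :
    Nonempty (CoreBundle (M₀ * q) q A) := by
  haveI : Fintype (ModSS A M₀ q) := modSSFintype hq hA
  haveI : Nonempty (ModSS A M₀ q) := modSS_nonempty hq hqM hν2 hν3 haux.1 haux.2 hA
  exact cbi_of_ends (X.endsFinal hq hqM hA haux hν2 hν3 htd) X.W.O hq hqM hA hν2 hν3 X.hS0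
    X.Soo X.hSoo X.D₀ X.hM₀ X.hD₀ X.I rfl rfl rfl rfl X.hϖ rfl rfl rfl
    (X.hgenus hq hqM hν2 hν3 haux.1 haux.2 hA)
    (mge_hxA X hq hqM hA haux hν2 hν3 htd) (mge_hx2 X hq hqM hA haux hν2 hν3 htd)
    ModSS.place (fun P v => by cases v <;> rfl) ModSS.isSS
    (fun P u hu => mge_hno hq hqM hA haux hν2 hν3 P.place P.isSS u hu)

end World

/-- **the hypothesis `hB` of `s36Statement_of_coreBundleLevel`**: a valuation ring over `q` and
a bundle at the level `M₀ * q * q`, for every prime `q ∤ M₀` with `AuxGood23 q M₀`. -/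
theorem nonempty_coreBundle (q M₀ : ℕ) [NeZero M₀] [NeZero q] [NeZero (M₀ * q)]
    (hq : q.Prime) (hqM : ¬ q ∣ M₀) (hgood : AuxGood23 q M₀) :
    ∃ P : ValuationSubring Qb, P.LiesOverPrime q ∧ Nonempty (CoreBundle (M₀ * q) q P) := by
  obtain ⟨A, hA⟩ := Fermat.Agent.FrobExists.exists_valuationSubring_liesOver q hq
  haveI : Fact q.Prime := ⟨hq⟩
  haveI : CharP (IsLocalRing.ResidueField A) q :=
    Fermat.Agent.FrobTrace.charP_residueField A hA
  haveI : PerfectRing (IsLocalRing.ResidueField A) q := inferInstance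
  obtain ⟨ϖ, hϖ, -⟩ := modWorldEx_pi hq hA
  obtain ⟨X, -, -, htd, -⟩ := modWorld_exists_atT_aux23 hq hqM hgood A hA ϖ hϖ
  exact ⟨A, hA, cbi_of_world X hq hqM hA (modWorld_levelOK hgood) (auxGood23_nuTwo hgood)
    (auxGood23_nuThree hgood) htd⟩

end Fermat.Agent.S36G
end
end MergeWrap_S36_G_CoreBundleInst

section MergeWrap_S36_Final -- from S36/Final.lean

set_option autoImplicit false

namespace Fermat.Agent.S36G

/-- **S36** (Carayol's theorem in the form of the frozen statement). -/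
theorem s36_final : Fermat.Agent.S36B.S36Statement :=
  s36Statement_of_coreBundleLevel fun q M₀ _ _ _ hq hqM hgood =>
    nonempty_coreBundle q M₀ hq hqM hgood

end Fermat.Agent.S36G
end MergeWrap_S36_Final
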